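import Fermat.Agent.S16.Farey
import Fermat.Prelude.Def_ModularCurve_PeriodMap

/-!
# Lifting parabolic homomorphisms `Γ → ZMod n` which kill the elliptic elements to `ℤ`
-/

set_option autoImplicit false

namespace Fermat.Agent.S16

open ModularGroup Farey
open scoped MatrixGroups

section Potential

variable {Γ : Subgroup SL(2, ℤ)} {A : Type*} [AddCommGroup A]

/-- the setoid of double cosets `⟨V⟩ \ G / Γ`. -/
def dblSetoid (Γ : Subgroup SL(2, ℤ)) (V : SL(2, ℤ)) : Setoid SL(2, ℤ) where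
  r g g' := ∃ (k : ℤ) (γ : Γ), g' = V ^ k * g * γ
  iseqv := by
    refine ⟨fun g => ⟨0, 1, by simp⟩, ?_, ?_⟩
    · rintro g g' ⟨k, γ, rfl⟩
      refine ⟨-k, γ⁻¹, ?_⟩
      simp [mul_assoc]
    · rintro g g' g'' ⟨k, γ, rfl⟩ ⟨k', γ', rfl⟩
      refine ⟨k' + k, γ * γ', ?_⟩
      rw [zpow_add, Subgroup.coe_mul]
      simp only [mul_assoc]

theorem exists_potential (ψ : Additive Γ →+ A) (V : SL(2, ℤ))
    (hV : ∀ (δ : SL(2, ℤ)) (k : ℤ) (h : δ⁻¹ * V ^ k * δ ∈ Γ),
      ψ (Additive.ofMul ⟨_, h⟩) = 0) :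
    ∃ P : SL(2, ℤ) → A, (∀ g (γ : Γ), P (g * γ) = P g + ψ (Additive.ofMul γ)) ∧
      (∀ g, P (V * g) = P g) := by
  classical
  let s := dblSetoid Γ V
  let rep : SL(2, ℤ) → SL(2, ℤ) := fun g => Quotient.out (Quotient.mk s g)
  have hrep : ∀ g, ∃ (k : ℤ) (γ : Γ), g = V ^ k * rep g * γ := fun g =>
    Quotient.mk_out (s := s) g
  choose k γ hk using hrep
  have huniq : ∀ (a : SL(2, ℤ)) (i j : ℤ) (α β : Γ), V ^ i * a * α = V ^ j * a * β →
      ψ (Additive.ofMul α) = ψ (Additive.ofMul β) := by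
    intro a i j α β h
    have h1 : a⁻¹ * V ^ (j - i) * a = ((α * β⁻¹ : Γ) : SL(2, ℤ)) := by
      rw [Subgroup.coe_mul, Subgroup.coe_inv, sub_eq_neg_add, zpow_add, zpow_neg]
      have h2 : (α : SL(2, ℤ)) = a⁻¹ * (V ^ i)⁻¹ * (V ^ j * a * β) := by
        rw [← h]; group
      rw [h2]; group
    have hmem : a⁻¹ * V ^ (j - i) * a ∈ Γ := by rw [h1]; exact (α * β⁻¹ : Γ).2
    have h3 := hV a (j - i) hmem
    have h4 : (⟨_, hmem⟩ : Γ) = α * β⁻¹ := Subtype.ext h1
    rw [h4, ofMul_mul, map_add, ofMul_inv, map_neg] at h3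
    exact add_neg_eq_zero.mp h3
  have hrepeq : ∀ g g', s.r g g' → rep g = rep g' := by
    intro g g' h
    show Quotient.out (Quotient.mk s g) = Quotient.out (Quotient.mk s g')
    rw [Quotient.sound h]
  refine ⟨fun g => ψ (Additive.ofMul (γ g)), ?_, ?_⟩
  · intro g δ
    have h1 : rep g = rep (g * δ) := hrepeq _ _ ⟨0, δ, by simp⟩
    have h2 := hk (g * δ)
    have h3 : g * δ = V ^ (k g) * rep g * ((γ g * δ : Γ) : SL(2, ℤ)) := by
      conv_lhs => rw [hk g]
      rw [Subgroup.coe_mul]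
      simp only [mul_assoc]
    rw [← h1] at h2
    have h4 := huniq (rep g) _ _ _ _ (h2.symm.trans h3)
    show ψ (Additive.ofMul (γ (g * δ))) = _
    rw [h4, ofMul_mul, map_add]
  · intro g
    have h1 : rep g = rep (V * g) := hrepeq _ _ ⟨1, 1, by simp⟩
    have h2 := hk (V * g)
    have h3 : V * g = V ^ (1 + k g) * rep g * ((γ g : Γ) : SL(2, ℤ)) := by
      conv_lhs => rw [hk g]
      rw [zpow_add, zpow_one, mul_assoc, mul_assoc, mul_assoc]
    rw [← h1] at h2
    exact huniq (rep g) _ _ _ _ (h2.symm.trans h3)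

end Potential

section Traces

theorem trace_conj (g h : SL(2, ℤ)) :
    ((h⁻¹ * g * h : SL(2, ℤ)) : Matrix (Fin 2) (Fin 2) ℤ).trace
      = (g : Matrix (Fin 2) (Fin 2) ℤ).trace := by
  rw [Matrix.SpecialLinearGroup.coe_mul, Matrix.trace_mul_comm,
    ← Matrix.SpecialLinearGroup.coe_mul, ← mul_assoc, mul_inv_cancel, one_mul]

theorem TS_pow_three : ((T * S) ^ 3 : SL(2, ℤ)) = -1 := by
  apply Subtype.ext
  simp only [pow_succ, pow_zero, one_mul, Matrix.SpecialLinearGroup.coe_mul, coe_S, coe_T,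
    Matrix.SpecialLinearGroup.coe_neg, Matrix.SpecialLinearGroup.coe_one]
  decide

theorem TS_pow_six : ((T * S) ^ 6 : SL(2, ℤ)) = 1 := by
  rw [show 6 = 3 * 2 from rfl, pow_mul, TS_pow_three, neg_one_sq]

theorem trace_TS_zpow (k : ℤ) :
    (((T * S) ^ k : SL(2, ℤ)) : Matrix (Fin 2) (Fin 2) ℤ).trace ^ 2 ≤ 4 := by
  have h1 : ((T * S) ^ k : SL(2, ℤ)) = (T * S) ^ (k % 6).toNat := by
    conv_lhs => rw [← Int.emod_add_mul_ediv k 6]
    rw [zpow_add, zpow_mul, show (6 : ℤ) = ((6 : ℕ) : ℤ) from rfl, zpow_natCast, TS_pow_six,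
      one_zpow, mul_one, ← zpow_natCast, Int.toNat_of_nonneg (Int.emod_nonneg _ (by norm_num))]
  have h2 : (k % 6).toNat < 6 := by omega
  rw [h1]
  interval_cases (k % 6).toNat <;>
  · simp only [pow_succ, pow_zero, one_mul, Matrix.SpecialLinearGroup.coe_mul, coe_S, coe_T,
      Matrix.SpecialLinearGroup.coe_one]
    decide

theorem trace_T_zpow (k : ℤ) :
    ((T ^ k : SL(2, ℤ)) : Matrix (Fin 2) (Fin 2) ℤ).trace = 2 := by
  rw [coe_T_zpow, Matrix.trace_fin_two]
  simp

theorem eq_T_zpow {A : SL(2, ℤ)} (h : A 1 0 = 0) : ∃ m : ℤ, A = T ^ m ∨ A = -T ^ m := by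
  have hdet := det_eq A
  rw [h, mul_zero, sub_zero] at hdet
  rcases Int.eq_one_or_neg_one_of_mul_eq_one hdet with h8 | h8
  · have h9 : A 1 1 = 1 := by rw [h8, one_mul] at hdet; exact hdet
    refine ⟨A 0 1, Or.inl ?_⟩
    ext i j
    fin_cases i <;> fin_cases j <;> simp [coe_T_zpow, h, h8, h9]
  · have h9 : A 1 1 = -1 := by rw [h8] at hdet; linarith
    refine ⟨-A 0 1, Or.inr ?_⟩
    ext i j
    fin_cases i <;> fin_cases j <;> simp [coe_T_zpow, h, h8, h9]

/-- An integral matrix of determinant one and trace `± 2` is conjugate to `± T ^ m`. -/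
theorem exists_conj_T_zpow (γ : SL(2, ℤ))
    (h : (γ : Matrix (Fin 2) (Fin 2) ℤ).trace ^ 2 = 4) :
    ∃ (δ : SL(2, ℤ)) (m : ℤ), γ = δ * T ^ m * δ⁻¹ ∨ γ = -(δ * T ^ m * δ⁻¹) := by
  obtain ⟨ε, hε, hε2⟩ : ∃ ε : ℤ, ε ^ 2 = 1 ∧ γ 0 0 + γ 1 1 = 2 * ε := by
    rw [Matrix.trace_fin_two] at h
    have : (γ 0 0 + γ 1 1 - 2) * (γ 0 0 + γ 1 1 + 2) = 0 := by linear_combination h
    rcases mul_eq_zero.mp this with h | h
    · exact ⟨1, by norm_num, by linarith⟩
    · exact ⟨-1, by norm_num, by linarith⟩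
  have hdet : γ 0 0 * γ 1 1 - γ 0 1 * γ 1 0 = 1 := det_eq γ
  -- a primitive eigenvector
  obtain ⟨x, y, hxy, h1, h2⟩ : ∃ x y : ℤ, IsCoprime x y ∧
      γ 0 0 * x + γ 0 1 * y = ε * x ∧ γ 1 0 * x + γ 1 1 * y = ε * y := by
    set t : ℤ := γ 0 0 - ε with ht
    have ht0 : γ 0 0 = ε + t := by rw [ht]; ring
    have ht1 : γ 1 1 = ε - t := by linarith
    have hbc : γ 0 1 * γ 1 0 = - t ^ 2 := by
      rw [ht0, ht1] at hdet
      linear_combination -hdet + hε
    by_cases hb : γ 0 1 = 0 ∧ t = 0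
    · refine ⟨0, 1, isCoprime_one_right, ?_, ?_⟩
      · rw [hb.1]; ring
      · rw [ht1, hb.2]; ring
    · have hg : 0 < Int.gcd (γ 0 1) t := by
        rw [Nat.pos_iff_ne_zero, Ne, Int.gcd_eq_zero_iff]
        exact hb
      obtain ⟨b', t', hc, hb', ht'⟩ := Int.exists_gcd_one hg
      set g : ℤ := (Int.gcd (γ 0 1) t : ℤ) with hgdef
      have hgne : g ≠ 0 := by
        rw [hgdef]; exact_mod_cast hg.ne'
      have hc' : IsCoprime b' t' := Int.isCoprime_iff_gcd_eq_one.mpr hc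
      refine ⟨b', -t', hc'.neg_right, ?_, ?_⟩
      · rw [ht0, hb', ht']; ring
      · apply mul_right_cancel₀ hgne
        have h3 : γ 1 0 * (b' * g) - γ 1 1 * (t' * g) = - ε * (t' * g) := by
          rw [← hb', ← ht', ht1]
          linear_combination hbc
        linear_combination h3
  obtain ⟨δ, hδ0, hδ1⟩ := hxy.exists_SL2_col 0
  have hA : (δ⁻¹ * γ * δ) 1 0 = 0 := by
    rw [Matrix.SpecialLinearGroup.coe_mul, Matrix.SpecialLinearGroup.coe_mul,
      Matrix.SpecialLinearGroup.coe_inv, Matrix.adjugate_fin_two]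
    simp only [Matrix.mul_apply, Fin.sum_univ_two, Matrix.of_apply, Matrix.cons_val_zero,
      Matrix.cons_val_one, Matrix.cons_val', Matrix.cons_val_fin_one]
    rw [hδ0, hδ1]
    linear_combination x * h2 - y * h1
  obtain ⟨m, hm⟩ := eq_T_zpow hA
  refine ⟨δ, m, ?_⟩
  rcases hm with hm | hm
  · left
    rw [← hm]; group
  · right
    have : δ * T ^ m * δ⁻¹ = -(δ * (-T ^ m) * δ⁻¹) := by
      rw [mul_neg, neg_mul, neg_neg]
    rw [this, neg_neg, ← hm]; group

end Traces

section Flow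

variable {X : Type*} [MulAction SL(2, ℤ) X]

/-- the setoid of orbits of `T` -/
def orbSetoid (X : Type*) [MulAction SL(2, ℤ) X] : Setoid X where
  r x y := ∃ k : ℤ, y = (T ^ k : SL(2, ℤ)) • x
  iseqv := by
    refine ⟨fun x => ⟨0, by simp⟩, ?_, ?_⟩
    · rintro x y ⟨k, rfl⟩
      exact ⟨-k, by rw [smul_smul, ← zpow_add]; simp⟩
    · rintro x y z ⟨k, rfl⟩ ⟨l, rfl⟩
      exact ⟨l + k, by rw [smul_smul, ← zpow_add]⟩

theorem T_inv_zpow {B : Type*} {t : X → B} (ht : ∀ x, t ((T : SL(2, ℤ)) • x) = t x) (k : ℤ) (x : X) :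
    t ((T ^ k : SL(2, ℤ)) • x) = t x := by
  induction k using Int.induction_on generalizing x with
  | zero => simp
  | succ i hi => rw [zpow_add, zpow_one, mul_smul, hi, ht]
  | pred i hi =>
    rw [zpow_sub, zpow_one, mul_smul, hi, ← ht (T⁻¹ • x), smul_inv_smul]

open Classical in
/-- the divergence -/
noncomputable def dv [Fintype X] (u : X → ℤ) (O : Quotient (orbSetoid X)) : ℤ :=
  ∑ x : X, if Quotient.mk (orbSetoid X) x = O then u x else 0

open Classical in
theorem sum_mul_of_dv [Fintype X] {u : X → ℤ} (hu : dv u = 0) {t : X → ℤ}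
    (ht : ∀ x, t ((T : SL(2, ℤ)) • x) = t x) : ∑ x, t x * u x = 0 := by
  have ht' : ∀ x y : X, (orbSetoid X).r x y → t x = t y := by
    rintro x y ⟨k, rfl⟩
    exact (T_inv_zpow ht k x).symm
  let s : Quotient (orbSetoid X) → ℤ := Quotient.lift t ht'
  have h1 : ∀ x, t x * u x = ∑ O : Quotient (orbSetoid X),
      s O * (if Quotient.mk (orbSetoid X) x = O then u x else 0) := by
    intro x
    simp only [mul_ite, mul_zero, Finset.sum_ite_eq, Finset.mem_univ, if_true]
    rfl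
  simp_rw [h1]
  rw [Finset.sum_comm]
  apply Finset.sum_eq_zero
  intro O _
  rw [← Finset.mul_sum]
  have := congrFun hu O
  rw [dv, Pi.zero_apply] at this
  rw [this, mul_zero]

open Classical in
theorem dv_add [Fintype X] (u v : X → ℤ) : dv (u + v) = dv u + dv v := by
  funext O
  simp only [dv, Pi.add_apply, ← Finset.sum_add_distrib]
  apply Finset.sum_congr rfl
  intro x _
  split_ifs <;> simp

open Classical in
theorem dv_neg [Fintype X] (u : X → ℤ) : dv (-u) = -dv u := by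
  funext O
  simp only [dv, Pi.neg_apply, ← Finset.sum_neg_distrib]
  apply Finset.sum_congr rfl
  intro x _
  split_ifs <;> simp

open Classical in
theorem dv_single [Fintype X] (x : X) :
    dv (Pi.single x 1) = Pi.single (Quotient.mk (orbSetoid X) x) 1 := by
  funext O
  rw [dv, Finset.sum_eq_single x]
  · rw [Pi.single_eq_same, Pi.single_apply]
    simp only [eq_comm]
  · intro y _ hy
    rw [Pi.single_eq_of_ne hy]; simp
  · intro h; exact absurd (Finset.mem_univ x) h

open Classical in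
theorem sum_dv [Fintype X] (u : X → ℤ) : ∑ O, dv u O = ∑ x, u x := by
  simp only [dv]
  rw [Finset.sum_comm]
  apply Finset.sum_congr rfl
  intro x _
  simp

/-- divergences of antisymmetric functions -/
def dvSub (X : Type*) [MulAction SL(2, ℤ) X] [Fintype X] :
    AddSubgroup (Quotient (orbSetoid X) → ℤ) where
  carrier := {d | ∃ u : X → ℤ, (∀ x, u ((S : SL(2, ℤ)) • x) = -u x) ∧ dv u = d}
  zero_mem' := ⟨0, by simp, by
    have := dv_add (0 : X → ℤ) 0
    rw [add_zero] at this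
    exact left_eq_add.mp this⟩
  add_mem' := by
    rintro a b ⟨u, hu, rfl⟩ ⟨v, hv, rfl⟩
    refine ⟨u + v, fun x => ?_, dv_add u v⟩
    simp only [Pi.add_apply, hu, hv]; ring
  neg_mem' := by
    rintro a ⟨u, hu, rfl⟩
    refine ⟨-u, fun x => ?_, dv_neg u⟩
    simp only [Pi.neg_apply, hu]

open Classical in
theorem single_sub_mem [Fintype X] [MulAction.IsPretransitive SL(2, ℤ) X]
    (hneg : ∀ x : X, (-1 : SL(2, ℤ)) • x = x) (x y : X) :
    Pi.single (Quotient.mk (orbSetoid X) x) 1 - Pi.single (Quotient.mk (orbSetoid X) y) 1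
      ∈ dvSub X := by
  have hSS : ∀ x : X, (S : SL(2, ℤ)) • (S : SL(2, ℤ)) • x = x := by
    intro x; rw [smul_smul, S_mul_S, hneg]
  have hS : ∀ x : X, Pi.single (Quotient.mk (orbSetoid X) ((S : SL(2, ℤ)) • x)) 1
      - Pi.single (Quotient.mk (orbSetoid X) x) 1 ∈ dvSub X := by
    intro x
    refine ⟨Pi.single ((S : SL(2, ℤ)) • x) 1 + -Pi.single x 1, fun y => ?_, ?_⟩
    · have h1 : (S : SL(2, ℤ)) • y = (S : SL(2, ℤ)) • x ↔ y = x :=
        ⟨fun h => smul_left_cancel _ h, fun h => by rw [h]⟩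
      have h2 : (S : SL(2, ℤ)) • y = x ↔ y = (S : SL(2, ℤ)) • x :=
        ⟨fun h => by rw [← h, hSS], fun h => by rw [h, hSS]⟩
      simp only [Pi.add_apply, Pi.neg_apply, Pi.single_apply, h1, h2]
      ring
    · rw [dv_add, dv_neg, dv_single, dv_single, sub_eq_add_neg]
  have hT : ∀ x : X, Pi.single (Quotient.mk (orbSetoid X) ((T : SL(2, ℤ)) • x)) 1
      - Pi.single (Quotient.mk (orbSetoid X) x) 1 ∈ dvSub X := by
    intro x
    have : Quotient.mk (orbSetoid X) ((T : SL(2, ℤ)) • x) = Quotient.mk (orbSetoid X) x :=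
      Quotient.sound ⟨-1, by rw [zpow_neg_one, inv_smul_smul]⟩
    rw [this, sub_self]
    exact zero_mem _
  have key : ∀ g : SL(2, ℤ), ∀ x : X, Pi.single (Quotient.mk (orbSetoid X) (g • x)) 1
      - Pi.single (Quotient.mk (orbSetoid X) x) 1 ∈ dvSub X := by
    intro g
    have hg : g ∈ Subgroup.closure {S, T} := by
      rw [SpecialLinearGroup.SL2Z_generators]; exact Subgroup.mem_top g
    induction hg using Subgroup.closure_induction with
    | mem g hg =>
      rcases hg with rfl | rfl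
      · exact hS
      · exact hT
    | one => intro x; rw [one_smul, sub_self]; exact zero_mem _
    | mul g h _ _ ihg ihh =>
      intro x
      rw [mul_smul]
      have := add_mem (ihg (h • x)) (ihh x)
      rwa [sub_add_sub_cancel] at this
    | inv g _ ih =>
      intro x
      have := neg_mem (ih (g⁻¹ • x))
      rwa [smul_inv_smul, neg_sub] at this
  obtain ⟨g, rfl⟩ := MulAction.exists_smul_eq SL(2, ℤ) y x
  exact key g y

open Classical in
theorem mem_dvSub [Fintype X] [Nonempty X] [MulAction.IsPretransitive SL(2, ℤ) X]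
    (hneg : ∀ x : X, (-1 : SL(2, ℤ)) • x = x) {δ : Quotient (orbSetoid X) → ℤ}
    (hδ : ∑ O, δ O = 0) : δ ∈ dvSub X := by
  obtain ⟨x0⟩ := ‹Nonempty X›
  have h1 : δ = ∑ O, δ O • (Pi.single O 1 - Pi.single (Quotient.mk (orbSetoid X) x0) 1) := by
    simp only [smul_sub, Finset.sum_sub_distrib]
    rw [← Finset.sum_smul, hδ, zero_smul, sub_zero]
    funext O
    rw [Finset.sum_apply, Finset.sum_eq_single O]
    · simp
    · intro O' _ h
      rw [Pi.smul_apply, Pi.single_eq_of_ne h.symm, smul_zero]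
    · intro h; exact absurd (Finset.mem_univ O) h
  rw [h1]
  apply sum_mem
  intro O _
  apply zsmul_mem
  induction O using Quotient.inductionOn with
  | h x => exact single_sub_mem hneg x x0

theorem exists_antisymm_lift [Finite X] (hneg : ∀ x : X, (-1 : SL(2, ℤ)) • x = x) (n : ℕ)
    (wb : X → ZMod n) (h1 : ∀ x, wb ((S : SL(2, ℤ)) • x) = -wb x)
    (h0 : ∀ x, (S : SL(2, ℤ)) • x = x → wb x = 0) :
    ∃ w : X → ℤ, (∀ x, w ((S : SL(2, ℤ)) • x) = -w x) ∧ ∀ x, ((w x : ℤ) : ZMod n) = wb x := by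
  have hSS : ∀ x : X, (S : SL(2, ℤ)) • (S : SL(2, ℤ)) • x = x := by
    intro x; rw [smul_smul, S_mul_S, hneg]
  obtain ⟨m, ⟨e⟩⟩ := Finite.exists_equiv_fin X
  refine ⟨fun x => if e x < e (S • x) then ((wb x).cast : ℤ) else
    if e (S • x) < e x then -((wb (S • x)).cast : ℤ) else 0, fun x => ?_, fun x => ?_⟩
  · simp only [hSS]
    rcases lt_trichotomy (e x) (e (S • x)) with h | h | h
    · simp only [h, if_true, h.not_gt, if_false]
    · simp only [h, lt_irrefl, if_false, neg_zero]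
    · simp only [h, if_true, h.not_gt, if_false, neg_neg]
  · rcases lt_trichotomy (e x) (e (S • x)) with h | h | h
    · simp only [h, if_true, ZMod.intCast_cast, ZMod.cast_id', id_eq]
    · simp only [h, lt_irrefl, if_false, Int.cast_zero]
      rw [h0 x (e.injective h).symm]
    · simp only [h, if_true, h.not_gt, if_false, Int.cast_neg, ZMod.intCast_cast,
        ZMod.cast_id', id_eq, h1, neg_neg]

open Classical in
theorem exists_flow_lift [Fintype X] [Nonempty X] [MulAction.IsPretransitive SL(2, ℤ) X]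
    (hneg : ∀ x : X, (-1 : SL(2, ℤ)) • x = x) (n : ℕ)
    (wb : X → ZMod n) (h1 : ∀ x, wb ((S : SL(2, ℤ)) • x) = -wb x)
    (h0 : ∀ x, (S : SL(2, ℤ)) • x = x → wb x = 0)
    (f : X → ZMod n) (hf : ∀ x, wb x = f ((T : SL(2, ℤ)) • x) - f x) :
    ∃ w : X → ℤ, (∀ x, w ((S : SL(2, ℤ)) • x) = -w x) ∧ (∀ x, ((w x : ℤ) : ZMod n) = wb x) ∧
      dv w = 0 := by
  obtain ⟨w, hw1, hw2⟩ := exists_antisymm_lift hneg n wb h1 h0
  have hdvd : ∀ O, (n : ℤ) ∣ dv w O := by
    intro O
    rw [← ZMod.intCast_zmod_eq_zero_iff_dvd]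
    simp only [dv, Int.cast_sum]
    have h2 : ∀ x : X, (((if Quotient.mk (orbSetoid X) x = O then w x else 0 : ℤ)) : ZMod n) =
        (if Quotient.mk (orbSetoid X) ((T : SL(2, ℤ)) • x) = O then f ((T : SL(2, ℤ)) • x) else 0)
        - (if Quotient.mk (orbSetoid X) x = O then f x else 0) := by
      intro x
      have : Quotient.mk (orbSetoid X) ((T : SL(2, ℤ)) • x) = Quotient.mk (orbSetoid X) x :=
        Quotient.sound ⟨-1, by rw [zpow_neg_one, inv_smul_smul]⟩
      rw [this]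
      split_ifs
      · rw [hw2, hf]
      · simp
    simp_rw [h2]
    rw [Finset.sum_sub_distrib, sub_eq_zero]
    exact Equiv.sum_comp (MulAction.toPerm (T : SL(2, ℤ)))
      (fun x : X => if Quotient.mk (orbSetoid X) x = O then f x else 0)
  have hsum : ∑ O, dv w O = 0 := by
    rw [sum_dv]
    have h3 : ∑ x, w x = ∑ x, w ((S : SL(2, ℤ)) • x) :=
      (Equiv.sum_comp (MulAction.toPerm (S : SL(2, ℤ))) w).symm
    simp_rw [hw1] at h3
    rw [Finset.sum_neg_distrib] at h3
    linarith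
  rcases Nat.eq_zero_or_pos n with rfl | hn
  · refine ⟨w, hw1, hw2, ?_⟩
    funext O
    have := hdvd O
    rwa [Nat.cast_zero, zero_dvd_iff] at this
  · choose δ hδ using hdvd
    have hδ0 : ∑ O, δ O = 0 := by
      have h4 : (n : ℤ) * ∑ O, δ O = 0 := by
        rw [Finset.mul_sum, ← hsum]
        exact Finset.sum_congr rfl fun O _ => (hδ O).symm
      rcases mul_eq_zero.mp h4 with h5 | h5
      · exact absurd h5 (by exact_mod_cast hn.ne')
      · exact h5
    obtain ⟨u, hu1, hu2⟩ := mem_dvSub hneg hδ0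
    refine ⟨fun x => w x - n * u x, fun x => ?_, fun x => ?_, ?_⟩
    · show w ((S : SL(2, ℤ)) • x) - n * u ((S : SL(2, ℤ)) • x) = -(w x - n * u x)
      rw [hw1, hu1]; ring
    · push_cast
      rw [hw2, ZMod.natCast_self, zero_mul, sub_zero]
    · funext O
      have h5 : dv (fun x => w x - n * u x) O = dv w O - n * dv u O := by
        simp only [dv]
        rw [Finset.mul_sum, ← Finset.sum_sub_distrib]
        apply Finset.sum_congr rfl
        intro x _
        split_ifs <;> simp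
      rw [h5, hu2, hδ, sub_self]; rfl

open Classical in
/-- A flow without divergence at the cusps gives a cocycle vanishing on `T ^ m` at fixed points. -/
theorem cocycle_T_zpow [Fintype X] {w : X → ℤ} (hdv : dv w = 0)
    {c : SL(2, ℤ) → X → ℤ} (hc : ∀ g h x, c (g * h) x = c g (h • x) + c h x)
    (hcT : ∀ x, c T x = w x) {m : ℤ} {y : X} (hy : (T ^ m : SL(2, ℤ)) • y = y) :
    c (T ^ m) y = 0 := by
  obtain ⟨M, hM0, hM⟩ : ∃ M : ℕ, 0 < M ∧ ∀ x : X, (T ^ M : SL(2, ℤ)) • x = x := by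
    refine ⟨orderOf (MulAction.toPermHom SL(2, ℤ) X T), orderOf_pos _, fun x => ?_⟩
    have := pow_orderOf_eq_one (MulAction.toPermHom SL(2, ℤ) X T)
    rw [← map_pow] at this
    have := congrArg (fun σ : Equiv.Perm X => σ x) this
    simpa using this
  have hN : ∀ x : X, ∑ j ∈ Finset.range M, w ((T ^ j : SL(2, ℤ)) • x) = 0 := by
    intro x
    let t : X → ℤ := fun z => ∑ j ∈ Finset.range M, if (T ^ j : SL(2, ℤ)) • x = z then 1 else 0
    have ht : ∀ z, t ((T : SL(2, ℤ)) • z) = t z := by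
      intro z
      have e1 : t ((T : SL(2, ℤ)) • z) = ∑ j ∈ Finset.range M,
          if (T ^ (j + 1) : SL(2, ℤ)) • x = (T : SL(2, ℤ)) • z then 1 else 0 := by
        have e2 := Finset.sum_range_succ
          (fun j => if (T ^ j : SL(2, ℤ)) • x = (T : SL(2, ℤ)) • z then (1 : ℤ) else 0) M
        have e3 := Finset.sum_range_succ'
          (fun j => if (T ^ j : SL(2, ℤ)) • x = (T : SL(2, ℤ)) • z then (1 : ℤ) else 0) M
        rw [e3] at e2
        simp only [hM, pow_zero, one_smul] at e2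
        exact (add_right_cancel e2).symm
      rw [e1]
      apply Finset.sum_congr rfl
      intro j _
      have : (T ^ (j + 1) : SL(2, ℤ)) • x = (T : SL(2, ℤ)) • z ↔ (T ^ j : SL(2, ℤ)) • x = z := by
        rw [pow_succ', mul_smul]
        exact ⟨fun h => smul_left_cancel _ h, fun h => by rw [h]⟩
      simp only [this]
    have h1 := sum_mul_of_dv hdv ht
    rw [← h1]
    simp only [t, Finset.sum_mul, ite_mul, one_mul, zero_mul]
    rw [Finset.sum_comm]
    apply Finset.sum_congr rfl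
    intro j _
    simp
  let F : X → ℤ := fun x => ∑ j ∈ Finset.range M, (j : ℤ) * w ((T ^ j : SL(2, ℤ)) • x)
  have hF : ∀ x, (M : ℤ) * w x = F ((T : SL(2, ℤ)) • x) - F x := by
    intro x
    have e2 := Finset.sum_range_succ (fun j : ℕ => (j : ℤ) * w ((T ^ j : SL(2, ℤ)) • x)) M
    have e3 := Finset.sum_range_succ' (fun j : ℕ => (j : ℤ) * w ((T ^ j : SL(2, ℤ)) • x)) M
    rw [e3] at e2
    have e4 : ∑ j ∈ Finset.range M, ((j + 1 : ℕ) : ℤ) * w ((T ^ (j + 1) : SL(2, ℤ)) • x)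
        = F ((T : SL(2, ℤ)) • x) := by
      have e5 := hN ((T : SL(2, ℤ)) • x)
      have e6 : ∑ j ∈ Finset.range M, ((j + 1 : ℕ) : ℤ) * w ((T ^ (j + 1) : SL(2, ℤ)) • x)
        = F ((T : SL(2, ℤ)) • x) +
          ∑ j ∈ Finset.range M, w ((T ^ j : SL(2, ℤ)) • (T : SL(2, ℤ)) • x) := by
        simp only [F]
        rw [← Finset.sum_add_distrib]
        apply Finset.sum_congr rfl
        intro j _
        rw [pow_succ, mul_smul]
        push_cast
        ring
      rw [e6, e5, add_zero]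
    rw [e4] at e2
    simp only [hM, pow_zero, one_smul, Nat.cast_zero, zero_mul, add_zero] at e2
    show _ = F ((T : SL(2, ℤ)) • x) - F x
    rw [e2]
    simp only [F]
    ring
  have hc1 : ∀ x, c 1 x = 0 := by
    intro x
    have := hc 1 1 x
    rw [one_smul, mul_one] at this
    exact left_eq_add.mp this
  have hk : ∀ (k : ℤ) (x : X), (M : ℤ) * c (T ^ k) x = F ((T ^ k : SL(2, ℤ)) • x) - F x := by
    intro k
    induction k using Int.induction_on with
    | zero => intro x; simp [hc1]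
    | succ i hi =>
      intro x
      rw [zpow_add, zpow_one, hc, mul_add, hi, hcT, hF, mul_smul]
      ring
    | pred i hi =>
      intro x
      have e1 := hc (T ^ (-(i : ℤ) - 1)) T (T⁻¹ • x)
      rw [← zpow_add_one, sub_add_cancel, smul_inv_smul, hcT] at e1
      have e2 := hi (T⁻¹ • x)
      have e3 := hF (T⁻¹ • x)
      rw [smul_inv_smul] at e3
      have e4 : (T ^ (-(i : ℤ) - 1) : SL(2, ℤ)) • x = (T ^ (-(i : ℤ)) : SL(2, ℤ)) • T⁻¹ • x := by
        rw [smul_smul, ← zpow_sub_one]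
      rw [e4]
      rw [e1, mul_add] at e2
      linarith
  have h5 := hk m y
  rw [hy, sub_self] at h5
  rcases mul_eq_zero.mp h5 with h6 | h6
  · exact absurd h6 (by exact_mod_cast hM0.ne')
  · exact h6

end Flow

/-- **Flow lifting.** A homomorphism `ψ : Γ → ZMod n` which kills the elliptic and parabolic
elements lifts to a parabolic homomorphism `Γ → ℤ`. -/
theorem exists_parabolic_lift (Γ : Subgroup SL(2, ℤ)) [Γ.FiniteIndex] (hneg : (-1 : SL(2, ℤ)) ∈ Γ)
    (n : ℕ) (ψ : Additive Γ →+ ZMod n)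
    (hψ : ∀ g : Γ, ((g : SL(2, ℤ)) : Matrix (Fin 2) (Fin 2) ℤ).trace ^ 2 ≤ 4 →
      ψ (Additive.ofMul g) = 0) :
    ∃ Ψ : Additive Γ →+ ℤ, Ψ ∈ ModularCurve.Period.parabolicHoms ℤ Γ ℤ ∧
      ∀ g : Γ, ((Ψ (Additive.ofMul g) : ℤ) : ZMod n) = ψ (Additive.ofMul g) := by
  classical
  let X := SL(2, ℤ) ⧸ Γ
  have : Finite X := Subgroup.finite_quotient_of_finiteIndex
  let _ : Fintype X := Fintype.ofFinite X
  have hnegX : ∀ x : X, (-1 : SL(2, ℤ)) • x = x := by
    intro x
    induction x using QuotientGroup.induction_on with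
    | H g =>
      rw [MulAction.Quotient.smul_mk, QuotientGroup.eq, smul_eq_mul]
      simpa using hneg
  obtain ⟨P, hP1, hP2⟩ := exists_potential ψ (T * S) (by
    intro δ k h
    apply hψ
    rw [show ((⟨_, h⟩ : Γ) : SL(2, ℤ)) = δ⁻¹ * (T * S) ^ k * δ from rfl, trace_conj]
    exact trace_TS_zpow k)
  obtain ⟨P', hP1', hP2'⟩ := exists_potential ψ T (by
    intro δ k h
    apply hψ
    rw [show ((⟨_, h⟩ : Γ) : SL(2, ℤ)) = δ⁻¹ * T ^ k * δ from rfl, trace_conj, trace_T_zpow]
    norm_num)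
  have hPneg : ∀ g, P (-g) = P g := by
    intro g
    have h3 : -g = (T * S) * ((T * S) * ((T * S) * g)) := by
      rw [← mul_assoc, ← mul_assoc, ← neg_one_mul, ← TS_pow_three]
      congr 1
      rw [pow_three]
      simp only [mul_assoc]
    rw [h3, hP2, hP2, hP2]
  -- the cocycle mod `n`
  have hout : ∀ g : SL(2, ℤ), ∃ γ : Γ, (QuotientGroup.mk g : X).out = g * γ := fun g =>
    QuotientGroup.mk_out_eq_mul Γ g
  let cb : SL(2, ℤ) → X → ZMod n := fun g x => P (g * x.out) - P x.out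
  have hcb : ∀ g h : SL(2, ℤ), cb g (QuotientGroup.mk h : X) = P (g * h) - P h := by
    intro g h
    obtain ⟨γ, hγ⟩ := hout h
    simp only [cb]
    rw [hγ, ← mul_assoc, hP1, hP1]
    ring
  have hcbmul : ∀ g h x, cb (g * h) x = cb g (h • x) + cb h x := by
    intro g h x
    induction x using QuotientGroup.induction_on with
    | H a =>
      rw [MulAction.Quotient.smul_mk, hcb, hcb, hcb, smul_eq_mul, mul_assoc]
      ring
  have hcbTS : ∀ x, cb (T * S) x = 0 := by
    intro x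
    simp only [cb]
    rw [hP2, sub_self]
  let f : X → ZMod n := fun x => P x.out - P' x.out
  have hf : ∀ g : SL(2, ℤ), f (QuotientGroup.mk g : X) = P g - P' g := by
    intro g
    obtain ⟨γ, hγ⟩ := hout g
    simp only [f]
    rw [hγ, hP1, hP1']
    ring
  have hSS : ∀ x : X, (S : SL(2, ℤ)) • (S : SL(2, ℤ)) • x = x := by
    intro x; rw [smul_smul, S_mul_S, hnegX]
  have hcbS : ∀ x, cb S ((S : SL(2, ℤ)) • x) = - cb S x := by
    intro x
    have h1 := hcbmul S S x
    rw [S_mul_S] at h1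
    have h2 : cb (-1) x = 0 := by
      simp only [cb]
      rw [neg_one_mul, hPneg, sub_self]
    rw [h2] at h1
    exact (neg_eq_of_add_eq_zero_left h1.symm).symm
  have hcbT : ∀ x, cb T x = cb S x := by
    intro x
    have h1 := hcbmul T S ((S : SL(2, ℤ)) • x)
    rw [hcbTS, hSS, hcbS] at h1
    exact eq_of_sub_eq_zero (by rw [sub_eq_add_neg]; exact h1.symm)
  have hwbf : ∀ x, cb S x = f ((T : SL(2, ℤ)) • x) - f x := by
    intro x
    rw [← hcbT]
    induction x using QuotientGroup.induction_on with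
    | H a =>
      rw [MulAction.Quotient.smul_mk, hf, hf, hcb, smul_eq_mul, hP2']
      ring
  have hfix : ∀ x, (S : SL(2, ℤ)) • x = x → cb S x = 0 := by
    intro x
    induction x using QuotientGroup.induction_on with
    | H a =>
      intro hx
      rw [MulAction.Quotient.smul_mk, QuotientGroup.eq, smul_eq_mul] at hx
      rw [hcb]
      have hx' : a⁻¹ * S * a ∈ Γ := by
        have := inv_mem hx
        rwa [mul_inv_rev, inv_inv, ← mul_assoc] at this
      have h3 : S * a = a * ((⟨_, hx'⟩ : Γ) : SL(2, ℤ)) := by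
        show S * a = a * (a⁻¹ * S * a)
        group
      rw [h3, hP1, hψ]
      · ring
      · rw [show ((⟨_, hx'⟩ : Γ) : SL(2, ℤ)) = a⁻¹ * S * a from rfl, trace_conj, coe_S]
        simp [Matrix.trace_fin_two]
  obtain ⟨w, hw1, hw2, hw3⟩ := exists_flow_lift hnegX n (cb S) hcbS hfix f hwbf
  obtain ⟨c, hc, hcS, hcTS⟩ := exists_cocycle hw1
  have hc1 : ∀ x, c 1 x = 0 := by
    intro x
    have := hc 1 1 x
    rw [one_smul, mul_one] at this
    exact left_eq_add.mp this
  have hcT : ∀ x, c T x = w x := by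
    intro x
    have h1 := hc T S ((S : SL(2, ℤ)) • x)
    rw [hcTS, hSS, hcS, hw1] at h1
    linarith
  have hcneg : ∀ x, c (-1) x = 0 := by
    intro x
    rw [← S_mul_S, hc, hcS, hcS, hw1]; ring
  let x0 : X := QuotientGroup.mk 1
  have hx0 : ∀ γ : Γ, (γ : SL(2, ℤ)) • x0 = x0 := by
    intro γ
    show (γ : SL(2, ℤ)) • (QuotientGroup.mk 1 : X) = QuotientGroup.mk 1
    rw [MulAction.Quotient.smul_mk, QuotientGroup.eq, smul_eq_mul, mul_one, mul_one]
    exact inv_mem γ.2
  let Ψ : Additive Γ →+ ℤ :=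
    { toFun := fun γ => c ((Additive.toMul γ : Γ) : SL(2, ℤ)) x0
      map_zero' := hc1 x0
      map_add' := fun γ δ => by
        show c (((Additive.toMul γ * Additive.toMul δ : Γ)) : SL(2, ℤ)) x0 = _
        rw [Subgroup.coe_mul, hc, hx0] }
  have hΨ : ∀ γ : Γ, Ψ (Additive.ofMul γ) = c (γ : SL(2, ℤ)) x0 := fun γ => rfl
  refine ⟨Ψ, ?_, ?_⟩
  · intro γ hγ
    rw [hΨ]
    have hconj : ∀ (δ : SL(2, ℤ)) (m : ℤ), (δ * T ^ m * δ⁻¹ : SL(2, ℤ)) • x0 = x0 →
        c (δ * T ^ m * δ⁻¹) x0 = 0 := by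
      intro δ m h
      have h1 : (T ^ m : SL(2, ℤ)) • (δ⁻¹ • x0) = δ⁻¹ • x0 := by
        have := congrArg (fun z => δ⁻¹ • z) h
        simp only [smul_smul] at this ⊢
        rw [← this]
        congr 1
        group
      have h2 : c (T ^ m) (δ⁻¹ • x0) = 0 := cocycle_T_zpow hw3 hc hcT h1
      have h3 := hc δ δ⁻¹ x0
      rw [mul_inv_cancel, hc1] at h3
      rw [hc, hc, h1, h2, add_zero]
      exact h3.symm
    obtain ⟨δ, m, h | h⟩ := exists_conj_T_zpow (γ : SL(2, ℤ)) hγ
    · rw [h]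
      apply hconj
      rw [← h]
      exact hx0 γ
    · have h4 : (γ : SL(2, ℤ)) = (-1) * (δ * T ^ m * δ⁻¹) := by rw [neg_one_mul, h]
      rw [h4, hc, hcneg, zero_add]
      apply hconj
      have h5 := hx0 γ
      rw [h4, mul_smul, hnegX] at h5
      exact h5
  · intro γ
    rw [hΨ]
    have h6 : ∀ g x, ((c g x : ℤ) : ZMod n) = cb g x := by
      apply cocycle_ext (c := fun g x => ((c g x : ℤ) : ZMod n)) (c' := cb)
      · intro g h x
        simp only [hc, Int.cast_add]
      · exact hcbmul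
      · intro x
        simp only [hcS, hw2]
      · intro x
        simp only [hcTS, hcbTS, Int.cast_zero]
    rw [h6, show x0 = (QuotientGroup.mk 1 : X) from rfl, hcb, mul_one]
    have := hP1 1 γ
    rw [one_mul] at this
    rw [this]
    ring

end Fermat.Agent.S16
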