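import Fermat.Agent.S16.Pair
import Mathlib.NumberTheory.ModularForms.EisensteinSeries.E2.Transform
import Mathlib.NumberTheory.ModularForms.EisensteinSeries.E2.MDifferentiable

/-!
# The weight two Eisenstein series `p E₂(pz) - E₂(z)` on `Γ₀(p)`
-/

set_option autoImplicit false

noncomputable section

open UpperHalfPlane CongruenceSubgroup ModularGroup Matrix.SpecialLinearGroup ModularForm
  EisensteinSeries
open scoped MatrixGroups ModularForm Pointwise Manifold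

namespace Fermat.Agent.S16

/-- the function `p E₂(pz) - E₂(z)` -/
def eisFun (p : ℕ) [NeZero p] : ℍ → ℂ := (E2 ∣[(2 : ℤ)] dMat p) - E2

lemma eisFun_apply (p : ℕ) [NeZero p] (z : ℍ) : eisFun p z = p * E2 (dMat p • z) - E2 z := by
  simp [eisFun, slash_dMat_apply]

lemma exists_dMat_comm (p : ℕ) [NeZero p] {γ : SL(2, ℤ)} (hγ : γ ∈ Gamma0 p) :
    ∃ δ : SL(2, ℤ), dMat p * mapGL ℝ γ = mapGL ℝ δ * dMat p ∧ (p : ℤ) * δ 1 0 = γ 1 0 ∧
      δ 1 1 = γ 1 1 := by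
  obtain ⟨c, hc⟩ := (Gamma0_mem_iff_dvd p γ).mp hγ
  have hdet := γ.det_coe
  rw [Matrix.det_fin_two] at hdet
  let δ : SL(2, ℤ) := ⟨!![γ 0 0, p * γ 0 1; c, γ 1 1], by
    rw [Matrix.det_fin_two_of]
    rw [hc] at hdet
    linarith⟩
  refine ⟨δ, ?_, ?_, ?_⟩
  · ext i j
    simp only [Units.val_mul, Matrix.mul_apply, Fin.sum_univ_two, mapGL_coe_apply, val_dMat]
    fin_cases i <;> fin_cases j <;> simp [δ, hc, mul_comm]
  · simp [δ, hc]
  · simp [δ]

lemma denom_mapGL (γ : SL(2, ℤ)) (w : ℍ) :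
    denom (mapGL ℝ γ) w = (γ 1 0 : ℤ) * (w : ℂ) + (γ 1 1 : ℤ) := by
  simp only [denom, mapGL_coe_apply]
  push_cast
  rfl

lemma D2_apply' (γ : SL(2, ℤ)) (z : ℍ) :
    D2 γ z = (2 * Real.pi * Complex.I * γ 1 0) / (denom (mapGL ℝ γ) z) := rfl

lemma D2_slash_dMat (p : ℕ) [NeZero p] {γ δ : SL(2, ℤ)} (h0 : (p : ℤ) * δ 1 0 = γ 1 0)
    (h1 : δ 1 1 = γ 1 1) : (D2 δ) ∣[(2 : ℤ)] dMat p = D2 γ := by
  funext z
  rw [slash_dMat_apply, show (2 : ℤ) - 1 = 1 by norm_num, zpow_one]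
  rw [D2_apply', D2_apply', denom_mapGL, denom_mapGL, coe_dMat_smul, ← h0, ← h1]
  push_cast
  ring

lemma E2_slash_mapGL (γ : SL(2, ℤ)) :
    E2 ∣[(2 : ℤ)] mapGL ℝ γ = E2 - (1 / (2 * riemannZeta 2)) • D2 γ :=
  E2_slash_action γ

lemma smul_slash_dMat (p : ℕ) [NeZero p] (k : ℤ) (c : ℂ) (f : ℍ → ℂ) :
    (c • f) ∣[k] dMat p = c • (f ∣[k] dMat p) := by
  funext z
  simp only [slash_dMat_apply, Pi.smul_apply, smul_eq_mul]
  ring

lemma eisFun_slash (p : ℕ) [NeZero p] {γ : SL(2, ℤ)} (hγ : γ ∈ Gamma0 p) :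
    eisFun p ∣[(2 : ℤ)] mapGL ℝ γ = eisFun p := by
  obtain ⟨δ, h, h0, h1⟩ := exists_dMat_comm p hγ
  rw [eisFun, sub_eq_add_neg, SlashAction.add_slash, SlashAction.neg_slash,
    ← SlashAction.slash_mul, h, SlashAction.slash_mul, E2_slash_mapGL, E2_slash_mapGL,
    sub_eq_add_neg, SlashAction.add_slash, SlashAction.neg_slash, smul_slash_dMat,
    D2_slash_dMat p h0 h1]
  abel

lemma isBounded_D2 (γ : SL(2, ℤ)) : IsBoundedAtImInfty (D2 γ) := by
  rw [isBoundedAtImInfty_iff]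
  refine ⟨2 * Real.pi, 1, fun z hz => ?_⟩
  rw [D2_apply', norm_div]
  refine div_le_of_le_mul₀ (norm_nonneg _) (by positivity) ?_
  have h1 : ‖(2 * Real.pi * Complex.I * (γ 1 0 : ℤ) : ℂ)‖ = 2 * Real.pi * |((γ 1 0 : ℤ) : ℝ)| := by
    simp [abs_of_pos Real.pi_pos]
  rw [h1]
  refine mul_le_mul_of_nonneg_left ?_ (by positivity)
  rw [denom_mapGL]
  refine le_trans ?_ (Complex.abs_im_le_norm _)
  have h2 : ((γ 1 0 : ℤ) * (z : ℂ) + (γ 1 1 : ℤ)).im = (γ 1 0 : ℤ) * z.im := by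
    simp
  rw [h2, abs_mul]
  have : 1 ≤ |z.im| := le_trans hz (le_abs_self _)
  exact le_mul_of_one_le_right (abs_nonneg _) this

lemma isBoundedAt_E2 {c : OnePoint ℝ} (hc : IsCusp c 𝒮ℒ) : c.IsBoundedAt E2 2 := by
  rw [OnePoint.isBoundedAt_iff_forall_SL2Z hc]
  intro γ _
  rw [E2_slash_action, sub_eq_add_neg]
  exact isBoundedAtImInfty_E2.add (Filter.BoundedAtFilter.smul _ (isBounded_D2 γ)).neg

lemma dMat_eq_map (p : ℕ) [NeZero p] :
    ∃ g : GL (Fin 2) ℚ, dMat p = Matrix.GeneralLinearGroup.map (Rat.castHom ℝ) g := by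
  refine ⟨Matrix.GeneralLinearGroup.mkOfDetNeZero !![(p : ℚ), 0; 0, 1]
    (by rw [Matrix.det_fin_two_of]; simpa using NeZero.ne p), ?_⟩
  ext i j
  fin_cases i <;> fin_cases j <;>
    simp [dMat, Matrix.GeneralLinearGroup.mkOfDetNeZero]

lemma isCusp_dMat_smul (p : ℕ) [NeZero p] {c : OnePoint ℝ} (hc : IsCusp c 𝒮ℒ) :
    IsCusp (dMat p • c) 𝒮ℒ := by
  obtain ⟨g, hg⟩ := dMat_eq_map p
  rw [isCusp_SL2Z_iff] at hc ⊢
  obtain ⟨c, rfl⟩ := hc
  exact ⟨g • c, by rw [hg, ← Rat.coe_castHom, OnePoint.map_smul]⟩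

lemma isBoundedAt_eisFun (p : ℕ) [NeZero p] {c : OnePoint ℝ} (hc : IsCusp c 𝒮ℒ) :
    c.IsBoundedAt (eisFun p) 2 := by
  have h2 : c.IsBoundedAt (-E2) 2 := fun g hg => by
    rw [SlashAction.neg_slash]
    exact (isBoundedAt_E2 hc g hg).neg
  rw [eisFun, sub_eq_add_neg]
  exact (OnePoint.IsBoundedAt.smul_iff.mp (isBoundedAt_E2 (isCusp_dMat_smul p hc))).add h2

/-- the weight two Eisenstein series `p E₂(pz) - E₂(z)` -/
def eisForm (p : ℕ) [NeZero p] : ModularForm (Gamma0 p) 2 where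
  toFun := eisFun p
  slash_action_eq' := by
    rintro _ ⟨γ, hγ, rfl⟩
    exact eisFun_slash p hγ
  holo' := (MDifferentiable.slash E2_mdifferentiable _ _).sub E2_mdifferentiable
  bdd_at_cusps' hc := isBoundedAt_eisFun p (hc.mono (Gamma0_le_SL p))

/-- `q`-expansion of `p E₂(pz) - E₂(z)` -/
def eisSeries (p : ℕ) : PowerSeries ℤ :=
  PowerSeries.mk fun k => if k = 0 then (p : ℤ) - 1 else
    24 * ∑ d ∈ k.divisors.filter (fun d => ¬ p ∣ d), (d : ℤ)

lemma sum_divisors_sub (p : ℕ) [NeZero p] (m : ℕ) (hm : m ≠ 0) :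
    (∑ d ∈ m.divisors.filter (fun d => ¬ p ∣ d), (d : ℤ)) =
      (∑ d ∈ m.divisors, (d : ℤ)) - if p ∣ m then (p : ℤ) * ∑ d ∈ (m / p).divisors, (d : ℤ) else 0 := by
  have h1 : (∑ d ∈ m.divisors, (d : ℤ)) = (∑ d ∈ m.divisors.filter (fun d => p ∣ d), (d : ℤ)) +
      ∑ d ∈ m.divisors.filter (fun d => ¬ p ∣ d), (d : ℤ) :=
    (Finset.sum_filter_add_sum_filter_not _ _ _).symm
  rw [h1]
  suffices h : (∑ d ∈ m.divisors.filter (fun d => p ∣ d), (d : ℤ)) =
      if p ∣ m then (p : ℤ) * ∑ d ∈ (m / p).divisors, (d : ℤ) else 0 by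
    rw [h]; ring
  have hp : 0 < p := Nat.pos_of_ne_zero (NeZero.ne p)
  split_ifs with hpm
  · obtain ⟨n, rfl⟩ := hpm
    rw [Nat.mul_div_cancel_left n hp, Finset.mul_sum]
    symm
    refine Finset.sum_bij (fun d _ => p * d) ?_ ?_ ?_ ?_
    · intro d hd
      rw [Finset.mem_filter, Nat.mem_divisors]
      rw [Nat.mem_divisors] at hd
      exact ⟨⟨Nat.mul_dvd_mul_left p hd.1, hm⟩, dvd_mul_right _ _⟩
    · intro a _ b _ hab
      exact Nat.eq_of_mul_eq_mul_left hp hab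
    · intro d hd
      rw [Finset.mem_filter, Nat.mem_divisors] at hd
      obtain ⟨⟨hd1, _⟩, e, rfl⟩ := hd
      refine ⟨e, ?_, rfl⟩
      rw [Nat.mem_divisors]
      exact ⟨Nat.dvd_of_mul_dvd_mul_left hp hd1, fun h => hm (by rw [h, mul_zero])⟩
    · intro d _
      push_cast
      rfl
  · apply Finset.sum_eq_zero
    intro d hd
    rw [Finset.mem_filter, Nat.mem_divisors] at hd
    exact absurd (hd.2.trans hd.1.1) hpm

/-- `q`-expansion of `E₂` -/
def E2c : PowerSeries ℂ :=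
  PowerSeries.mk fun m => if m = 0 then 1 else -24 * (ArithmeticFunction.sigma 1 m : ℂ)

lemma coeff_eisSeries (p : ℕ) [NeZero p] (m : ℕ) :
    (toC (eisSeries p)).coeff m = (p : ℂ) * (Vp p E2c).coeff m - E2c.coeff m := by
  rw [coeff_toC, coeff_Vp, eisSeries, E2c, PowerSeries.coeff_mk, PowerSeries.coeff_mk,
    PowerSeries.coeff_mk]
  have hp : 0 < p := Nat.pos_of_ne_zero (NeZero.ne p)
  rcases eq_or_ne m 0 with rfl | hm
  · simp
  · rw [if_neg hm, if_neg hm, sum_divisors_sub p m hm]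
    simp only [ArithmeticFunction.sigma_one_apply]
    split_ifs with h1 h2
    · exfalso
      obtain ⟨n, rfl⟩ := h1
      rw [Nat.mul_div_cancel_left n hp] at h2
      exact hm (by rw [h2, mul_zero])
    · push_cast; ring
    · push_cast; ring

lemma hasSum_dMat {p : ℕ} [NeZero p] {A : PowerSeries ℂ} {f : ℍ → ℂ}
    (h : ∀ τ : ℍ, HasSum (fun m => A.coeff m • Function.Periodic.qParam 1 (τ : ℂ) ^ m) (f τ))
    (τ : ℍ) :
    HasSum (fun m => (Vp p A).coeff m • Function.Periodic.qParam 1 (τ : ℂ) ^ m)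
      (f (dMat p • τ)) := by
  apply hasSum_Vp
  convert h (dMat p • τ) using 1
  funext m
  rw [coe_dMat_smul]
  congr 2
  simp only [Function.Periodic.qParam]
  rw [← Complex.exp_nat_mul]
  congr 1
  push_cast
  ring

lemma hasSum_E2c (τ : ℍ) :
    HasSum (fun m => E2c.coeff m • Function.Periodic.qParam 1 (τ : ℂ) ^ m) (E2 τ) := by
  have := hasSum_qExpansion_E2 (z := τ)
  convert this using 3 with m
  · simp [E2c]
  · simp [Function.Periodic.qParam]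

theorem qExpansion_eisForm (p : ℕ) [NeZero p] : qExpansion 1 (eisForm p) = toC (eisSeries p) := by
  ext m
  refine (ModularFormClass.qExpansion_coeff_unique (c := fun m => (toC (eisSeries p)).coeff m)
    one_pos (one_mem_Gamma0 p) (fun τ => ?_) m).symm
  have h1 := (hasSum_dMat hasSum_E2c (p := p) τ).const_smul (p : ℂ)
  have h2 := h1.sub (hasSum_E2c τ)
  have e : (eisForm p) τ = (p : ℂ) • E2 (dMat p • τ) - E2 τ := eisFun_apply p τ
  rw [e]
  have e3 : (fun m => (toC (eisSeries p)).coeff m • Function.Periodic.qParam 1 (τ : ℂ) ^ m) =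
      fun b => (p : ℂ) • (Vp p E2c).coeff b • Function.Periodic.qParam 1 (τ : ℂ) ^ b -
        E2c.coeff b • Function.Periodic.qParam 1 (τ : ℂ) ^ b := by
    funext m
    rw [coeff_eisSeries]
    simp only [smul_eq_mul]
    ring
  rw [e3]
  exact h2

end Fermat.Agent.S16
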