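import Fermat.Agent.S16.Upper
import Fermat.Agent.S16.EisE2
import Fermat.Agent.S23

/-!
# S16: reduction to the lower bound
-/

set_option autoImplicit false

noncomputable section

open CongruenceSubgroup ModularFormClass ModularCurve CuspForm
open FermatAgent.HeckeEigen

namespace Fermat.Agent.S16

variable {p : ℕ} [hp : Fact p.Prime]

omit hp in
theorem eisensteinNumerator_pos (h : 2 ≤ p) : 0 < eisensteinNumerator p := by
  unfold eisensteinNumerator
  refine Nat.div_pos (Nat.gcd_le_left _ (by omega)) (Nat.gcd_pos_of_pos_left _ (by omega))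

theorem evC_eq_zero_of_phi {P : HeckeAlg} (h : phi p P = 0) (f : CuspForm (Gamma0 p) 2) :
    evC p P f = 0 := by
  have h1 : evC p P = 0 := by
    refine LinearMap.ext_on (Fermat.Agent.S23.result p) fun f hf => ?_
    have := phi_apply P ⟨f, hf⟩
    rw [h] at this
    rw [← this]
    rfl
  rw [h1]
  rfl

theorem upper_bound (m : ℕ) (f : CuspForm (Gamma0 p) 2) (a : ℕ → ℤ)
    (ha : ∀ k, qCoeff ⇑f k = a k) (hc : ∀ k, k ≠ 0 → (m : ℤ) ∣ a k - sigP p k) :
    m ∣ eisensteinNumerator p := by
  by_cases hp5 : 5 ≤ p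
  · exact upper_of_eis hp5 ⟨eisForm p, qExpansion_eisForm p⟩ m f a ha hc
  · exact upper_of_lt_five (by omega) m f a ha hc

/-- **S16, given the lower bound.** -/
theorem card_of_lower
    (lower : ∀ P : HeckeAlg, (∀ f : CuspForm (Gamma0 p) 2, evC p P f = 0) →
      (eisensteinNumerator p : ℤ) ∣ chi p P) :
    Nat.card (↥(heckeLatticeAlgebra p ∅) ⧸
        Ideal.map ((latticeRestrictHom p ∅).toRingHom.comp (heckeEvalForms p 2))
          (eisensteinIdeal p)) = eisensteinNumerator p :=
  card_eq_of_bounds _ (eisensteinNumerator_pos hp.out.two_le)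
    (fun P hP => lower P (evC_eq_zero_of_phi hP))
    (fun m _ f a ha hc => upper_bound m f a ha hc)

end Fermat.Agent.S16

end
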