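import Fermat.Agent.S16.EisCharHecke
import Fermat.Agent.S16.Lift
import Fermat.Agent.S21

/-!
# The lower bound for the Eisenstein quotient
-/

set_option autoImplicit false

noncomputable section

open CongruenceSubgroup ModularCurve ModularCurve.Period
open scoped MatrixGroups

namespace Fermat.Agent.S16

open Fermat.Agent.HeckePar Fermat.Agent.S21per FermatAgent.HeckeEigen

/-! ### The involution commutes with the Hecke operators -/

section Involution

variable (N ℓ : ℕ) [hℓ : Fact ℓ.Prime]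

/-- the permutation of the cosets induced by `diag(-1, 1)`. -/
def invIdx : HIdx N ℓ → HIdx N ℓ := fun x => ⟨x.1.map (fun j => -j), fun h => by
  have := x.2 h
  intro h'
  exact this (Option.map_eq_none_iff.mp h')⟩

lemma invIdx_invIdx (x : HIdx N ℓ) : invIdx N ℓ (invIdx N ℓ x) = x := by
  apply Subtype.ext
  simp only [invIdx, Option.map_map]
  cases x.1 <;> simp

/-- the unipotent element `(1, m; 0, 1)` -/
def unipSL (m : ℤ) : SL(2, ℤ) := ⟨!![1, m; 0, 1], by rw [Matrix.det_fin_two_of]; ring⟩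

/-- the unipotent element `(1, m; 0, 1)` of `Γ₀(N)` -/
def unip (m : ℤ) : Gamma0 N := ⟨unipSL m, by rw [Gamma0_mem]; simp [unipSL]⟩

lemma coe_unip (m : ℤ) : (((unip N m : Gamma0 N) : SL(2, ℤ)) : Matrix (Fin 2) (Fin 2) ℤ) =
    !![1, m; 0, 1] := rfl

lemma exists_kappa (x : HIdx N ℓ) : ∃ κ : Gamma0 N, jConjMat (intRep ℓ x.1) =
    ((κ : SL(2, ℤ)) : Matrix (Fin 2) (Fin 2) ℤ) * intRep ℓ (invIdx N ℓ x).1 := by
  have : NeZero ℓ := ⟨hℓ.out.ne_zero⟩
  obtain ⟨x, hx⟩ := x
  cases x with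
  | none =>
    refine ⟨1, ?_⟩
    simp [invIdx, jConjMat]
  | some j =>
    have h1 : (ℓ : ℤ) ∣ -(j.val : ℤ) - ((-j).val : ℤ) := by
      rw [← ZMod.intCast_zmod_eq_zero_iff_dvd]
      push_cast
      rw [ZMod.natCast_zmod_val, ZMod.natCast_zmod_val]
      ring
    obtain ⟨m, hm⟩ := h1
    refine ⟨unip N m, ?_⟩
    rw [coe_unip]
    have h2 : -(j.val : ℤ) = ((-j).val : ℤ) + m * ℓ := by linarith
    simp only [invIdx, Option.map_some, intRep_some, jConjMat]
    ext a b
    fin_cases a <;> fin_cases b <;> simp [Matrix.mul_apply, Fin.sum_univ_two, -ZMod.natCast_val, h2]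

/-- a choice of `κ` -/
def kap (x : HIdx N ℓ) : Gamma0 N := (exists_kappa N ℓ x).choose

lemma kap_spec (x : HIdx N ℓ) : jConjMat (intRep ℓ x.1) =
    ((kap N ℓ x : SL(2, ℤ)) : Matrix (Fin 2) (Fin 2) ℤ) * intRep ℓ (invIdx N ℓ x).1 :=
  (exists_kappa N ℓ x).choose_spec

lemma act_coc_jConj (g : Gamma0 N) (x : HIdx N ℓ) :
    (heckeSys N ℓ).act (jConjGamma0 N g) (invIdx N ℓ x) = invIdx N ℓ ((heckeSys N ℓ).act g x) ∧
      (heckeSys N ℓ).coc (jConjGamma0 N g) (invIdx N ℓ x) = (kap N ℓ x)⁻¹ *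
        jConjGamma0 N ((heckeSys N ℓ).coc g x) * kap N ℓ ((heckeSys N ℓ).act g x) := by
  apply CosetSys.ext_coc
  rw [heckeSys_rep, heckeSys_rep, hrep_mul_iota_eq_iff hℓ.out.ne_zero]
  have h := congrArg jConjMat (heckeSys_spec N ℓ g x)
  rw [jConjMat_mul, jConjMat_mul, kap_spec, kap_spec] at h
  have h2 := congrArg (fun M => (((kap N ℓ x)⁻¹ : Gamma0 N) : SL(2, ℤ)).1 * M) h
  simp only [← mul_assoc] at h2
  have h3 : (((kap N ℓ x)⁻¹ : Gamma0 N) : SL(2, ℤ)).1 * ((kap N ℓ x : SL(2, ℤ)) :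
      Matrix (Fin 2) (Fin 2) ℤ) = 1 := by
    rw [← Matrix.SpecialLinearGroup.coe_mul, ← Subgroup.coe_mul, inv_mul_cancel]
    rfl
  rw [h3, one_mul] at h2
  exact h2

theorem addTransfer_charInvolution {A : Type*} [AddCommGroup A] (φ : Additive (Gamma0 N) →+ A) :
    (heckeSys N ℓ).addTransfer (charInvolution N ℤ A φ) =
      charInvolution N ℤ A ((heckeSys N ℓ).addTransfer φ) := by
  refine AddMonoidHom.ext fun g => ?_
  obtain ⟨g, rfl⟩ := Additive.ofMul.surjective g
  rw [charInvolution_apply, CosetSys.addTransfer_apply, CosetSys.addTransfer_apply]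
  simp only [charInvolution_apply, toMul_ofMul]
  let e : HIdx N ℓ ≃ HIdx N ℓ := ⟨invIdx N ℓ, invIdx N ℓ, invIdx_invIdx N ℓ, invIdx_invIdx N ℓ⟩
  rw [← Equiv.sum_comp e (fun x => φ (Additive.ofMul ((heckeSys N ℓ).coc (jConjGamma0 N g) x)))]
  have h1 (x : HIdx N ℓ) : φ (Additive.ofMul ((heckeSys N ℓ).coc (jConjGamma0 N g) (e x))) =
      - φ (Additive.ofMul (kap N ℓ x)) +
        φ (Additive.ofMul (jConjGamma0 N ((heckeSys N ℓ).coc g x))) +
        φ (Additive.ofMul (kap N ℓ ((heckeSys N ℓ).act g x))) := by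
    have := (act_coc_jConj N ℓ g x).2
    change φ (Additive.ofMul ((heckeSys N ℓ).coc (jConjGamma0 N g) (invIdx N ℓ x))) = _
    rw [this, ofMul_mul, ofMul_mul, ofMul_inv, map_add, map_add, map_neg]
  simp only [h1, Finset.sum_add_distrib, Finset.sum_neg_distrib]
  rw [show ∑ x, φ (Additive.ofMul (kap N ℓ ((heckeSys N ℓ).act g x))) =
    ∑ x, φ (Additive.ofMul (kap N ℓ x)) from
    Equiv.sum_comp ((heckeSys N ℓ).perm g) (fun x => φ (Additive.ofMul (kap N ℓ x)))]
  abel

end Involution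

/-! ### Hecke polynomials acting on homomorphisms -/

section Eval

variable (N : ℕ) (A : Type*) [AddCommGroup A]

/-- The action of Hecke polynomials on `Hom(Γ₀(N), A)`. -/
def parE : HeckeAlg →ₐ[ℤ] Module.End ℤ (Additive (Gamma0 N) →+ A) :=
  commEval (opPrime N A) opPrime_commute

variable {N A}

lemma parE_heckeGen (ℓ : Nat.Primes) : parE N A (heckeGen ℓ) = opPrime N A ℓ := by
  unfold parE heckeGen
  exact commEval_X _ _ _

lemma parE_comp {B : Type*} [AddCommGroup B] (ψ : A →+ B) (t : HeckeAlg)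
    (φ : Additive (Gamma0 N) →+ A) :
    parE N B t (ψ.comp φ) = ψ.comp (parE N A t φ) := by
  have h := commEval_natural (opPrime N A) opPrime_commute (opPrime N B) opPrime_commute
    (f := AddMonoidHom.mk' (fun φ : Additive (Gamma0 N) →+ A => ψ.comp φ)
      (fun a b => by ext x; simp)) (fun ℓ x => by
      have : Fact (ℓ : ℕ).Prime := ⟨ℓ.2⟩
      exact ((heckeSys N (ℓ : ℕ)).addTransfer_comp ψ x).symm) t φ
  exact h.symm

lemma parE_charInvolution (t : HeckeAlg) (φ : Additive (Gamma0 N) →+ A) :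
    parE N A t (charInvolution N ℤ A φ) = charInvolution N ℤ A (parE N A t φ) := by
  have h := commEval_natural (opPrime N A) opPrime_commute (opPrime N A) opPrime_commute
    (f := (charInvolution N ℤ A).toAddMonoidHom) (fun ℓ x => by
      have : Fact (ℓ : ℕ).Prime := ⟨ℓ.2⟩
      exact (addTransfer_charInvolution N (ℓ : ℕ) x).symm) t φ
  exact h.symm

end Eval

section Lower

variable {p : ℕ} [hp : Fact p.Prime]

theorem periodLin_evC (t : HeckeAlg) (f : CuspForm (Gamma0 p) 2) :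
    periodLin p (evC p t f) = parE p ℂ t (periodLin p f) := by
  induction t using MvPolynomial.induction_on generalizing f with
  | C a =>
    rw [evC_C, Module.End.intCast_apply, map_zsmul, ← MvPolynomial.algebraMap_eq, AlgHom.commutes,
      eq_intCast, Module.End.intCast_apply]
  | add P Q hP hQ =>
    have : evC p (P + Q) = evC p P + evC p Q := by unfold evC; rw [map_add]; rfl
    rw [this, LinearMap.add_apply, map_add, map_add, LinearMap.add_apply, hP, hQ]
  | mul_X P ℓ hP =>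
    change periodLin p (evC p (P * heckeGen ℓ) f) = parE p ℂ (P * heckeGen ℓ) (periodLin p f)
    rw [evC_mul, map_mul, Module.End.mul_apply, Module.End.mul_apply, hP, evC_heckeGen,
      parE_heckeGen, opPrime_apply]
    congr 1
    have : Fact (ℓ : ℕ).Prime := ⟨ℓ.2⟩
    by_cases h : (ℓ : ℕ) ∣ p
    · rw [heckeOp_of_dvd h]
      exact periodLin_heckeULin h f
    · rw [heckeOp_of_not_dvd h]
      exact periodLin_heckeTLin h f

theorem parE_psiE (t : HeckeAlg) :
    parE p (ZMod (eisensteinNumerator p)) t (psiE p) = (chi p t) • psiE p := by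
  induction t using MvPolynomial.induction_on with
  | C a =>
    rw [chi_C, ← MvPolynomial.algebraMap_eq, AlgHom.commutes, eq_intCast,
      Module.End.intCast_apply]
  | add P Q hP hQ => rw [map_add, map_add, LinearMap.add_apply, hP, hQ, add_smul]
  | mul_X P ℓ hP =>
    change parE p _ (P * heckeGen ℓ) (psiE p) = chi p (P * heckeGen ℓ) • psiE p
    rw [map_mul, map_mul, Module.End.mul_apply, parE_heckeGen, opPrime_psiE, map_zsmul, hP,
      chi_heckeGen, smul_smul, mul_comm]

/-- A Hecke polynomial that kills cusp forms kills the parabolic homomorphisms. -/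
theorem parE_eq_zero (P : HeckeAlg) (hP : ∀ f : CuspForm (Gamma0 p) 2, evC p P f = 0)
    (φ : Additive (Gamma0 p) →+ ℂ) (hφ : φ ∈ parabolicHoms ℂ (Gamma0 p) ℂ) :
    parE p ℂ P φ = 0 := by
  have : NeZero p := ⟨hp.out.ne_zero⟩
  rw [← (Fermat.Agent.S21.result p).2] at hφ
  obtain ⟨⟨f, g⟩, rfl⟩ := hφ
  have hc (f : CuspForm (Gamma0 p) 2) : parE p ℂ P (charInvolution p ℂ ℂ (periodLin p f)) = 0 := by
    have h1 : charInvolution p ℂ ℂ (periodLin p f) = charInvolution p ℤ ℂ (periodLin p f) := rfl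
    rw [h1, parE_charInvolution, ← periodLin_evC, hP, map_zero, map_zero]
  have h0 (f : CuspForm (Gamma0 p) 2) : parE p ℂ P (periodLin p f) = 0 := by
    rw [← periodLin_evC, hP, map_zero]
  rw [periodHomPair_eq, LinearMap.coprod_apply]
  simp only [LinearMap.comp_apply, LinearMap.add_apply, LinearMap.sub_apply, LinearMap.id_apply,
    map_add, map_sub, hc, h0, add_zero, sub_zero]

theorem lower (p : ℕ) [hp : Fact p.Prime] (P : HeckeAlg)
    (hP : ∀ f : CuspForm (Gamma0 p) 2, evC p P f = 0) : (eisensteinNumerator p : ℤ) ∣ chi p P := by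
  have : NeZero p := ⟨hp.out.ne_zero⟩
  obtain ⟨Ψ, hΨ, hΨψ⟩ := exists_parabolic_lift (Gamma0 p)
    (Fermat.Agent.S21par.neg_one_mem_Gamma0 p) (eisensteinNumerator p) (psiE p) (psiE_eq_zero p)
  have h1 : (Int.castAddHom ℂ).comp Ψ ∈ parabolicHoms ℂ (Gamma0 p) ℂ := by
    intro γ hγ
    rw [AddMonoidHom.comp_apply, mem_parabolicHoms_iff.mp hΨ γ hγ, map_zero]
  have h2 := parE_eq_zero P hP _ h1
  rw [parE_comp] at h2
  have h3 : parE p ℤ P Ψ = 0 := by
    refine AddMonoidHom.ext fun g => ?_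
    have := DFunLike.congr_fun h2 g
    simpa using this
  have h4 : (Int.castAddHom (ZMod (eisensteinNumerator p))).comp Ψ = psiE p :=
    AddMonoidHom.ext fun g => hΨψ (Additive.toMul g)
  have h5 := parE_psiE (p := p) P
  rw [← h4, parE_comp, h3, AddMonoidHom.comp_zero, h4] at h5
  obtain ⟨g, hg⟩ := exists_psiE_eq_one p
  have h6 := DFunLike.congr_fun h5 (Additive.ofMul g)
  rw [AddMonoidHom.smul_apply, hg, zsmul_one] at h6
  exact (ZMod.intCast_zmod_eq_zero_iff_dvd _ _).mp h6.symm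

end Lower

end Fermat.Agent.S16

end
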