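import Mathlib.NumberTheory.ModularForms.QExpansion
import Mathlib.NumberTheory.ModularForms.CongruenceSubgroups
import Mathlib.NumberTheory.ModularForms.ArithmeticSubgroups
import Mathlib.NumberTheory.ModularForms.NormTrace
import Mathlib.NumberTheory.ModularForms.Discriminant
import Mathlib.RingTheory.PowerSeries.Basic

/-!
# Shared definitions for S16 (Mazur's Eisenstein quotient)

* `LOne κ C` : the integral power series `C` is the q-expansion of a level one form of weight `2κ`.
* `PP p κ A B` : the pair of integral power series `(A, B)` is the pair of q-expansions of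
  `f` and `f | w_p` for a modular form `f` of weight `2κ` on `Γ₀(p)`.
-/

set_option autoImplicit false

noncomputable section

open UpperHalfPlane CongruenceSubgroup ModularGroup
open scoped MatrixGroups ModularForm

namespace Fermat.Agent.S16

/-- integral power series, mapped to complex ones -/
abbrev toC (A : PowerSeries ℤ) : PowerSeries ℂ := A.map (Int.castRingHom ℂ)

/-- `U_p` on power series: `∑ a_n q^n ↦ ∑ a_{pn} q^n`. -/
def Up (p : ℕ) {R : Type*} [Semiring R] (A : PowerSeries R) : PowerSeries R :=
  PowerSeries.mk fun n => A.coeff (p * n)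

/-- `V_p` on power series: `A(q) ↦ A(q^p)`. -/
def Vp (p : ℕ) {R : Type*} [Semiring R] (A : PowerSeries R) : PowerSeries R :=
  PowerSeries.mk fun n => if p ∣ n then A.coeff (n / p) else 0

/-- The integral power series `C` is the q-expansion of a level one form of weight `2κ`. -/
def LOne (κ : ℕ) (C : PowerSeries ℤ) : Prop :=
  ∃ G : ModularForm 𝒮ℒ ((2 * κ : ℕ) : ℤ), qExpansion 1 G = toC C

/-- `g = f | w_p` in weight `2κ`: `g(τ) = p^κ (pτ)^{-2κ} f(-1/(pτ))`. -/
def IsW (p κ : ℕ) (f g : ℍ → ℂ) : Prop :=
  ∀ τ σ : ℍ, (σ : ℂ) = -1 / (p * τ) → g τ = (p : ℂ) ^ κ * (p * (τ : ℂ)) ^ (-(2 * κ : ℤ)) * f σ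

/-- The pair of integral power series `(A, B)` is the pair of q-expansions of
  `f` and `f | w_p` for a modular form `f` of weight `2κ` on `Γ₀(p)`. -/
def PP (p κ : ℕ) (A B : PowerSeries ℤ) : Prop :=
  ∃ f g : ModularForm (Gamma0 p) ((2 * κ : ℕ) : ℤ), IsW p κ f g ∧
    qExpansion 1 f = toC A ∧ qExpansion 1 g = toC B

end Fermat.Agent.S16

end
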