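import Mathlib

/-!
# Duality between a commutative algebra of endomorphisms and a lattice
-/

set_option autoImplicit false

noncomputable section

namespace Fermat.Agent.S16

open Module

/-- If a submodule of a finite free `ℤ`-module has full rank, every element has a nonzero multiple
in the submodule. -/
theorem exists_smul_mem_of_finrank_le {M : Type*} [AddCommGroup M] [Module.Finite ℤ M]
    (N : Submodule ℤ M) (h : finrank ℤ M ≤ finrank ℤ N) (x : M) :
    ∃ d : ℤ, d ≠ 0 ∧ d • x ∈ N := by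
  have h1 : finrank ℤ (M ⧸ N) + finrank ℤ N = finrank ℤ M := by
    have := rank_quotient_add_rank_of_isDomain N
    rw [← finrank_eq_rank, ← finrank_eq_rank, ← finrank_eq_rank] at this
    exact_mod_cast this
  have h2 : finrank ℤ (M ⧸ N) = 0 := by omega
  rw [Module.finrank_eq_zero_iff] at h2
  obtain ⟨a, ha, hax⟩ := h2 (Submodule.Quotient.mk x)
  refine ⟨a, ha, ?_⟩
  rw [← Submodule.Quotient.mk_smul, Submodule.Quotient.mk_eq_zero] at hax
  exact hax

theorem duality {L : Type*} [AddCommGroup L] [Module.Free ℤ L] [Module.Finite ℤ L]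
    (T : Subalgebra ℤ (Module.End ℤ L)) [Module.Free ℤ T] [Module.Finite ℤ T]
    (hcomm : ∀ s ∈ T, ∀ t ∈ T, s * t = t * s) (a : L →ₗ[ℤ] ℤ)
    (h1 : ∀ f, (∀ t ∈ T, a (t f) = 0) → f = 0)
    (h2 : ∀ (f : L) (d : ℤ), d ≠ 0 → (∀ t ∈ T, d ∣ a (t f)) → ∃ g, f = d • g)
    (lam : T →ₗ[ℤ] ℤ) : ∃ f : L, ∀ t : T, lam t = a (t.1 f) := by
  let β : L →ₗ[ℤ] (T →ₗ[ℤ] ℤ) :=
    LinearMap.mk₂ ℤ (fun f t => a (t.1 f)) (fun f g t => by simp) (fun c f t => by simp)
      (fun f s t => by simp) (fun c f t => by simp)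
  have hβ : ∀ f t, β f t = a (t.1 f) := fun f t => rfl
  let γ : T →ₗ[ℤ] (L →ₗ[ℤ] ℤ) := β.flip
  have hβinj : Function.Injective β := by
    rw [injective_iff_map_eq_zero]
    intro f hf
    exact h1 f fun t ht => by rw [← hβ f ⟨t, ht⟩, hf]; rfl
  have hγinj : Function.Injective γ := by
    rw [injective_iff_map_eq_zero]
    intro t ht
    apply Subtype.ext
    refine LinearMap.ext fun f => ?_
    refine h1 _ fun s hs => ?_
    have h3 : s (t.1 f) = t.1 (s f) := by
      have := congrArg (fun u : Module.End ℤ L => u f) (hcomm s hs t.1 t.2)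
      simpa using this
    rw [h3, ← hβ (s f) t]
    have : γ t (s f) = 0 := by rw [ht]; rfl
    exact this
  have r1 : finrank ℤ (T →ₗ[ℤ] ℤ) = finrank ℤ T := by
    rw [Module.finrank_linearMap, finrank_self, mul_one]
  have r2 : finrank ℤ (L →ₗ[ℤ] ℤ) = finrank ℤ L := by
    rw [Module.finrank_linearMap, finrank_self, mul_one]
  have r3 : finrank ℤ T ≤ finrank ℤ L := by
    rw [← r2]; exact LinearMap.finrank_le_finrank_of_injective hγinj
  have r4 : finrank ℤ L = finrank ℤ (LinearMap.range β) := (LinearMap.finrank_range_of_inj hβinj).symm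
  obtain ⟨d, hd, f, hf⟩ := exists_smul_mem_of_finrank_le (LinearMap.range β)
    (by rw [r1, ← r4]; exact r3) lam
  obtain ⟨g, hg⟩ := h2 f d hd fun t ht => by
    refine ⟨lam ⟨t, ht⟩, ?_⟩
    rw [← hβ f ⟨t, ht⟩, hf]
    rfl
  refine ⟨g, fun t => ?_⟩
  have : d • lam = d • β g := by rw [← hf, hg, map_smul]
  have h4 := congrArg (fun u : T →ₗ[ℤ] ℤ => u t) this
  simp only [LinearMap.smul_apply, smul_eq_mul] at h4
  exact mul_left_cancel₀ hd h4

end Fermat.Agent.S16

end
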