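import Mathlib.NumberTheory.ModularForms.CongruenceSubgroups
import Mathlib.RingTheory.IntegralDomain
import Mathlib.RingTheory.ZMod.UnitsCyclic
import Mathlib.Data.ZMod.QuotientGroup
import Mathlib.FieldTheory.Finite.Basic
import Fermat.Agent.HeckePar.Cosets
import Fermat.Prelude.Def_ModularCurve_ModularUnit

/-!
# The Shimura character `Γ₀(p) → ℤ/n`, `n = (p - 1)/gcd(p - 1, 12)`, is a Hecke eigenvector
-/

set_option autoImplicit false

noncomputable section

open CongruenceSubgroup ModularCurve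
open scoped MatrixGroups

namespace Fermat.Agent.S16

variable (p : ℕ) [hp : Fact p.Prime]

/-- the upper left entry mod `p` -/
def aHom : Gamma0 p →* ZMod p where
  toFun g := (((g : SL(2, ℤ)) 0 0 : ℤ) : ZMod p)
  map_one' := by simp
  map_mul' g h := by
    have hh : ((((h : SL(2, ℤ)) 1 0 : ℤ)) : ZMod p) = 0 := Gamma0_mem.mp h.2
    have : ((g * h : Gamma0 p) : SL(2, ℤ)) 0 0 =
        (g : SL(2, ℤ)) 0 0 * (h : SL(2, ℤ)) 0 0 + (g : SL(2, ℤ)) 0 1 * (h : SL(2, ℤ)) 1 0 := by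
      rw [Subgroup.coe_mul, Matrix.SpecialLinearGroup.coe_mul, Matrix.mul_apply, Fin.sum_univ_two]
    rw [this]
    push_cast
    rw [hh, mul_zero, add_zero]

/-- the upper left entry mod `p` as a unit -/
def aUnit : Gamma0 p →* (ZMod p)ˣ := (aHom p).toHomUnits

lemma coe_aUnit (g : Gamma0 p) : ((aUnit p g : (ZMod p)ˣ) : ZMod p) =
    (((g : SL(2, ℤ)) 0 0 : ℤ) : ZMod p) := rfl

lemma card_units : Nat.card (Additive (ZMod p)ˣ) = p - 1 := by
  have h1 : Nat.card (Additive (ZMod p)ˣ) = Nat.card (ZMod p)ˣ := rfl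
  rw [h1, Nat.card_eq_fintype_card, ZMod.card_units_eq_totient, Nat.totient_prime hp.out]

instance isAddCyclic_units : IsAddCyclic (Additive (ZMod p)ˣ) := inferInstance

lemma dvd_card_units : eisensteinNumerator p ∣ Nat.card (Additive (ZMod p)ˣ) := by
  rw [card_units]; exact eisensteinNumerator_dvd p

/-- the logarithm `(ℤ/p)ˣ → ℤ/n`. -/
def logE : Additive (ZMod p)ˣ →+ ZMod (eisensteinNumerator p) :=
  (ZMod.castHom (dvd_card_units p) (ZMod (eisensteinNumerator p))).toAddMonoidHom.comp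
    (zmodAddCyclicAddEquiv (isAddCyclic_units p)).symm.toAddMonoidHom

lemma logE_surjective : Function.Surjective (logE p) := by
  have h1 : Function.Surjective (ZMod.castHom (dvd_card_units p) (ZMod (eisensteinNumerator p))) :=
    ZMod.castHom_surjective _
  exact h1.comp (zmodAddCyclicAddEquiv (isAddCyclic_units p)).symm.surjective

lemma logE_of_pow_twelve (u : (ZMod p)ˣ) (hu : u ^ 12 = 1) : logE p (Additive.ofMul u) = 0 := by
  set e := zmodAddCyclicAddEquiv (isAddCyclic_units p) with he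
  set y := e.symm (Additive.ofMul u) with hy
  have h12 : (12 : ℕ) • y = 0 := by
    rw [hy, ← map_nsmul, ← ofMul_pow, hu, ofMul_one, map_zero]
  have hpos : 0 < p - 1 := Nat.sub_pos_of_lt hp.out.one_lt
  have : NeZero (Nat.card (Additive (ZMod p)ˣ)) := ⟨by rw [card_units]; omega⟩
  obtain ⟨k, hk⟩ : ∃ k : ℕ, y = (k : ZMod _) := ⟨y.val, by simp⟩
  have h1 : (p - 1) ∣ 12 * k := by
    rw [← card_units p, ← ZMod.natCast_eq_zero_iff, Nat.cast_mul, ← hk, ← nsmul_eq_mul]
    exact h12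
  have h2 : eisensteinNumerator p ∣ k := by
    have hg : 0 < Nat.gcd (p - 1) 12 := Nat.gcd_pos_of_pos_left _ hpos
    have h3 : Nat.Coprime ((p - 1) / Nat.gcd (p - 1) 12) (12 / Nat.gcd (p - 1) 12) :=
      Nat.coprime_div_gcd_div_gcd hg
    refine h3.dvd_of_dvd_mul_left (m := 12 / Nat.gcd (p - 1) 12) ?_
    have h4 : Nat.gcd (p - 1) 12 * ((p - 1) / Nat.gcd (p - 1) 12) = p - 1 :=
      Nat.mul_div_cancel' (Nat.gcd_dvd_left _ _)
    have h5 : Nat.gcd (p - 1) 12 * (12 / Nat.gcd (p - 1) 12) = 12 :=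
      Nat.mul_div_cancel' (Nat.gcd_dvd_right _ _)
    refine Nat.dvd_of_mul_dvd_mul_left hg ?_
    rw [h4, ← mul_assoc, h5]
    exact h1
  change ZMod.castHom (dvd_card_units p) (ZMod (eisensteinNumerator p)) y = 0
  rw [hk, map_natCast]
  exact (ZMod.natCast_eq_zero_iff _ _).mpr h2

/-- the Shimura character -/
def psiE : Additive (Gamma0 p) →+ ZMod (eisensteinNumerator p) :=
  (logE p).comp (MonoidHom.toAdditive (aUnit p))

lemma psiE_apply (g : Gamma0 p) : psiE p (Additive.ofMul g) = logE p (Additive.ofMul (aUnit p g)) :=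
  rfl

lemma psiE_eq_zero (g : Gamma0 p)
    (hg : ((g : SL(2, ℤ)) : Matrix (Fin 2) (Fin 2) ℤ).trace ^ 2 ≤ 4) :
    psiE p (Additive.ofMul g) = 0 := by
  rw [psiE_apply]
  apply logE_of_pow_twelve
  apply Units.ext
  rw [Units.val_pow_eq_pow_val, coe_aUnit, Units.val_one]
  have hc : ((((g : SL(2, ℤ)) 1 0 : ℤ)) : ZMod p) = 0 := Gamma0_mem.mp g.2
  have hdet := congrArg (fun z : ℤ => (z : ZMod p)) (Fermat.Agent.HeckePar.det_SL (g : SL(2, ℤ)))
  push_cast at hdet
  rw [hc, mul_zero, sub_zero] at hdet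
  rw [Matrix.trace_fin_two] at hg
  set a : ZMod p := (((g : SL(2, ℤ)) 0 0 : ℤ) : ZMod p) with ha
  set d : ZMod p := (((g : SL(2, ℤ)) 1 1 : ℤ) : ZMod p) with hd
  obtain ⟨t, ht⟩ : ∃ t : ℤ, (g : SL(2, ℤ)) 0 0 + (g : SL(2, ℤ)) 1 1 = t := ⟨_, rfl⟩
  rw [ht] at hg
  have hsum : a + d = (t : ZMod p) := by rw [← ht]; push_cast; rfl
  have hq : a * ((t : ZMod p) - a) = 1 := by rw [← hsum]; linear_combination hdet
  have ht2 : -2 ≤ t ∧ t ≤ 2 := by constructor <;> nlinarith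
  obtain ⟨h1, h2⟩ := ht2
  interval_cases t
  · -- t = -2
    have h3 : (a + 1) ^ 2 = 0 := by push_cast at hq; linear_combination -hq
    have h4 : a = -1 := eq_neg_of_add_eq_zero_left (pow_eq_zero_iff two_ne_zero |>.mp h3)
    rw [h4]; norm_num
  · have h3 : a ^ 2 + a + 1 = 0 := by push_cast at hq; linear_combination -hq
    have h4 : a ^ 3 = 1 := by linear_combination (a - 1) * h3
    calc a ^ 12 = (a ^ 3) ^ 4 := by ring
      _ = 1 := by rw [h4]; ring
  · have h3 : a ^ 2 = -1 := by push_cast at hq; linear_combination -hq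
    calc a ^ 12 = (a ^ 2) ^ 6 := by ring
      _ = 1 := by rw [h3]; ring
  · have h3 : a ^ 2 - a + 1 = 0 := by push_cast at hq; linear_combination -hq
    have h4 : a ^ 3 = -1 := by linear_combination (a + 1) * h3
    calc a ^ 12 = (a ^ 3) ^ 4 := by ring
      _ = 1 := by rw [h4]; ring
  · have h3 : (a - 1) ^ 2 = 0 := by push_cast at hq; linear_combination -hq
    have h4 : a = 1 := sub_eq_zero.mp (pow_eq_zero_iff two_ne_zero |>.mp h3)
    rw [h4]; norm_num

lemma exists_aUnit (u : (ZMod p)ˣ) : ∃ g : Gamma0 p, aUnit p g = u := by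
  have hpos : 0 < p := hp.out.pos
  have : NeZero p := ⟨hp.out.ne_zero⟩
  set a : ℕ := (u : ZMod p).val with ha
  have hau : ((a : ℕ) : ZMod p) = (u : ZMod p) := by rw [ha]; simp
  have hcop : IsCoprime (a : ℤ) (p : ℤ) := by
    rw [Nat.isCoprime_iff_coprime]
    exact (ZMod.isUnit_iff_coprime a p).mp (by rw [hau]; exact u.isUnit)
  obtain ⟨x, y, hxy⟩ := hcop
  let δ : SL(2, ℤ) := ⟨!![(a : ℤ), -y; (p : ℤ), x], by rw [Matrix.det_fin_two_of]; linarith⟩
  have hδ : δ ∈ Gamma0 p := by rw [Gamma0_mem]; simp [δ]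
  refine ⟨⟨δ, hδ⟩, ?_⟩
  apply Units.ext
  rw [coe_aUnit, ← hau]
  simp [δ]

lemma exists_psiE_eq_one : ∃ g : Gamma0 p, psiE p (Additive.ofMul g) = 1 := by
  obtain ⟨u, hu⟩ := logE_surjective p 1
  obtain ⟨g, hg⟩ := exists_aUnit p (Additive.toMul u)
  exact ⟨g, by rw [psiE_apply, hg]; exact hu⟩

end Fermat.Agent.S16

end
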