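import Fermat.Prelude.Def_CuspForm_HeckeLocal
import Fermat.Prelude.Def_CuspForm_HeckeEvalForms
import Fermat.Prelude.Def_HeckeGalois_EichlerShimura
import Fermat.Agent.HeckeEigen.Forms
import Mathlib

/-!
# The Hecke polynomials `t_k` with `a_1(t_k f) = a_k(f)` and `χ(t_k) = σ'(k)`
-/

set_option autoImplicit false

noncomputable section

open CongruenceSubgroup ModularFormClass ModularCurve CuspForm
open FermatAgent.HeckeEigen

namespace Fermat.Agent.S16

/-- `σ'(k)`: sum of the divisors of `k` prime to `p`. -/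
def sigP (p k : ℕ) : ℤ := ∑ d ∈ k.divisors with ¬ p ∣ d, (d : ℤ)

theorem sigP_one {p : ℕ} (hp : p.Prime) : sigP p 1 = 1 := by
  simp [sigP, Finset.filter_singleton, hp.one_lt.ne']

theorem divisors_prime_mul {ℓ k : ℕ} (hℓ : ℓ.Prime) (hk : k ≠ 0) :
    (ℓ * k).divisors = k.divisors ∪ k.divisors.image (ℓ * ·) := by
  ext d
  simp only [Nat.mem_divisors, Finset.mem_union, Finset.mem_image]
  constructor
  · rintro ⟨h, -⟩
    by_cases hd : ℓ ∣ d
    · obtain ⟨e, rfl⟩ := hd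
      exact Or.inr ⟨e, ⟨Nat.dvd_of_mul_dvd_mul_left hℓ.pos h, hk⟩, rfl⟩
    · left
      exact ⟨(((Nat.Prime.coprime_iff_not_dvd hℓ).mpr hd).symm).dvd_of_dvd_mul_left h, hk⟩
  · rintro (⟨h, -⟩ | ⟨e, ⟨h, -⟩, rfl⟩)
    · exact ⟨h.mul_left _, Nat.mul_ne_zero hℓ.ne_zero hk⟩
    · exact ⟨Nat.mul_dvd_mul_left _ h, Nat.mul_ne_zero hℓ.ne_zero hk⟩

theorem sigP_self_mul {p k : ℕ} (hp : p.Prime) (hk : k ≠ 0) : sigP p (p * k) = sigP p k := by
  unfold sigP
  refine Finset.sum_congr ?_ fun _ _ => rfl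
  rw [divisors_prime_mul hp hk, Finset.filter_union]
  rw [Finset.union_eq_left]
  intro d hd
  simp only [Finset.mem_filter, Finset.mem_image] at hd
  obtain ⟨⟨e, -, rfl⟩, h⟩ := hd
  exact absurd (Dvd.intro _ rfl) h

theorem sigP_prime_mul {p ℓ k : ℕ} (hp : p.Prime) (hℓ : ℓ.Prime) (hne : ℓ ≠ p) (hk : k ≠ 0) :
    sigP p (ℓ * k) = (1 + ℓ) * sigP p k - ℓ * (if ℓ ∣ k then sigP p (k / ℓ) else 0) := by
  have hcop : ∀ e : ℕ, (¬ p ∣ ℓ * e) ↔ ¬ p ∣ e := by
    intro e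
    rw [hp.dvd_mul, not_or]
    refine ⟨fun h => h.2, fun h => ⟨fun h' => hne ?_, h⟩⟩
    exact ((Nat.prime_dvd_prime_iff_eq hp hℓ).mp h').symm
  have hinj : Function.Injective (fun e : ℕ => ℓ * e) := fun a b h =>
    Nat.eq_of_mul_eq_mul_left hℓ.pos h
  have hfi : ∀ s : Finset ℕ, ((s.image (ℓ * ·)).filter fun d => ¬ p ∣ d) =
      (s.filter fun d => ¬ p ∣ d).image (ℓ * ·) := by
    intro s
    ext d
    simp only [Finset.mem_filter, Finset.mem_image]
    constructor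
    · rintro ⟨⟨e, he, rfl⟩, h⟩
      exact ⟨e, ⟨he, (hcop e).mp h⟩, rfl⟩
    · rintro ⟨e, ⟨he, h⟩, rfl⟩
      exact ⟨⟨e, he, rfl⟩, (hcop e).mpr h⟩
  have hsi : ∀ s : Finset ℕ, ∑ d ∈ (s.filter fun d => ¬ p ∣ d).image (ℓ * ·), (d : ℤ) =
      ℓ * ∑ d ∈ s with ¬ p ∣ d, (d : ℤ) := by
    intro s
    rw [Finset.sum_image (fun a _ b _ h => hinj h), Finset.mul_sum]
    refine Finset.sum_congr rfl fun d _ => ?_
    push_cast; ring
  have hU : ((ℓ * k).divisors.filter fun d => ¬ p ∣ d) =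
      (k.divisors.filter fun d => ¬ p ∣ d) ∪ (k.divisors.filter fun d => ¬ p ∣ d).image (ℓ * ·) := by
    rw [divisors_prime_mul hℓ hk, Finset.filter_union, hfi]
  have hI : ∑ d ∈ (k.divisors.filter fun d => ¬ p ∣ d) ∩
      (k.divisors.filter fun d => ¬ p ∣ d).image (ℓ * ·), (d : ℤ) =
      ℓ * (if ℓ ∣ k then sigP p (k / ℓ) else 0) := by
    split_ifs with h
    · obtain ⟨k', rfl⟩ := h
      have hk' : k' ≠ 0 := by rintro rfl; simp at hk
      rw [Nat.mul_div_cancel_left _ hℓ.pos, sigP, ← hsi]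
      refine Finset.sum_congr ?_ fun _ _ => rfl
      ext d
      simp only [Finset.mem_inter, Finset.mem_filter, Finset.mem_image, Nat.mem_divisors]
      constructor
      · rintro ⟨⟨⟨h1, -⟩, h2⟩, ⟨e, ⟨⟨h3, -⟩, h4⟩, rfl⟩⟩
        exact ⟨e, ⟨⟨Nat.dvd_of_mul_dvd_mul_left hℓ.pos h1, hk'⟩, h4⟩, rfl⟩
      · rintro ⟨e, ⟨⟨h3, -⟩, h4⟩, rfl⟩
        exact ⟨⟨⟨Nat.mul_dvd_mul_left _ h3, hk⟩, (hcop e).mpr h4⟩, ⟨e, ⟨⟨h3.mul_left _, hk⟩, h4⟩, rfl⟩⟩
    · rw [mul_zero]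
      refine Finset.sum_eq_zero fun d hd => ?_
      simp only [Finset.mem_inter, Finset.mem_filter, Finset.mem_image, Nat.mem_divisors] at hd
      obtain ⟨⟨⟨h1, -⟩, h2⟩, ⟨e, ⟨⟨h3, -⟩, h4⟩, rfl⟩⟩ := hd
      exact absurd ((Dvd.intro _ rfl).trans h1) h
  have h3 := Finset.sum_union_inter (s₁ := k.divisors.filter fun d => ¬ p ∣ d)
    (s₂ := (k.divisors.filter fun d => ¬ p ∣ d).image (ℓ * ·)) (f := fun d : ℕ => (d : ℤ))
  rw [hI, hsi, ← hU] at h3
  unfold sigP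
  unfold sigP at h3
  linear_combination h3

variable {p : ℕ} [hp : Fact p.Prime]

/-- the action of a Hecke polynomial on cusp forms -/
def evC (p : ℕ) [Fact p.Prime] (P : HeckeAlg) : Module.End ℂ (CuspForm (Gamma0 p) 2) :=
  (heckeEvalForms p 2 P : heckeAlgebra p 2 ∅).1

theorem evC_mul (P Q : HeckeAlg) : evC p (P * Q) = evC p P * evC p Q := by
  unfold evC; rw [map_mul]; rfl

theorem evC_sub (P Q : HeckeAlg) : evC p (P - Q) = evC p P - evC p Q := by
  unfold evC; rw [map_sub]; rfl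

theorem evC_one : evC p 1 = 1 := by
  unfold evC; rw [map_one]; rfl

theorem evC_C (c : ℤ) : evC p (MvPolynomial.C c) = (c : Module.End ℂ (CuspForm (Gamma0 p) 2)) := by
  unfold evC; rw [heckeEvalForms_C]; simp

theorem evC_heckeGen (ℓ : Nat.Primes) : evC p (heckeGen ℓ) = heckeOp p 2 ℓ := by
  unfold evC
  by_cases h : (ℓ : ℕ) ∣ p
  · rw [heckeEvalForms_heckeGen_of_dvd h, heckeOp_of_dvd h]; rfl
  · rw [heckeEvalForms_heckeGen_of_not_dvd h, heckeOp_of_not_dvd h]; rfl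

/-- the Eisenstein character -/
def chi (p : ℕ) : HeckeAlg →ₐ[ℤ] ℤ := MvPolynomial.aeval (eisensteinSystem p)

theorem chi_heckeGen (ℓ : Nat.Primes) : chi p (heckeGen ℓ) = eisensteinSystem p ℓ := by
  unfold chi; rw [aeval_heckeGen]

theorem chi_C (c : ℤ) : chi p (MvPolynomial.C c) = c := by
  unfold chi; rw [MvPolynomial.aeval_C]; rfl

omit hp in
theorem cast_smul_apply (c : ℤ) (T : Module.End ℂ (CuspForm (Gamma0 p) 2))
    (f : CuspForm (Gamma0 p) 2) (n : ℕ) :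
    qCoeff ⇑(((c : Module.End ℂ (CuspForm (Gamma0 p) 2)) * T) f) n = c * qCoeff ⇑(T f) n := by
  have : ((c : Module.End ℂ (CuspForm (Gamma0 p) 2)) * T) f = (c : ℂ) • (T f) := by
    rw [Module.End.mul_apply, ← zsmul_one, LinearMap.smul_apply, Module.End.one_apply,
      Int.cast_smul_eq_zsmul]
  rw [this, qCoeff_smul]

theorem exists_heckePoly (k : ℕ) (hk : k ≠ 0) : ∃ P : HeckeAlg,
    (∀ f : CuspForm (Gamma0 p) 2, qCoeff ⇑(evC p P f) 1 = qCoeff ⇑f k) ∧
      chi p P = sigP p k := by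
  induction k using Nat.strong_induction_on with
  | _ k ih =>
    by_cases hk1 : k = 1
    · subst hk1
      exact ⟨1, fun f => by rw [evC_one]; rfl, by rw [map_one, sigP_one hp.out]⟩
    · obtain ⟨ℓ, hℓ, hdvd⟩ := Nat.exists_prime_and_dvd hk1
      obtain ⟨k', rfl⟩ := hdvd
      have hk' : k' ≠ 0 := by rintro rfl; simp at hk
      have hlt : k' < ℓ * k' := by
        have := hℓ.two_le
        nlinarith [Nat.pos_of_ne_zero hk']
      obtain ⟨P', hP', hc'⟩ := ih k' hlt hk'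
      obtain ⟨P'', hP'', hc''⟩ : ∃ P'' : HeckeAlg,
          (∀ f : CuspForm (Gamma0 p) 2, qCoeff ⇑(evC p P'' f) 1 =
            if ℓ ∣ k' then qCoeff ⇑f (k' / ℓ) else 0) ∧
          chi p P'' = if ℓ ∣ k' then sigP p (k' / ℓ) else 0 := by
        by_cases h : ℓ ∣ k'
        · have h1 : k' / ℓ < ℓ * k' := (Nat.div_le_self _ _).trans_lt hlt
          have h2 : k' / ℓ ≠ 0 := by
            obtain ⟨e, rfl⟩ := h
            rw [Nat.mul_div_cancel_left _ hℓ.pos]
            rintro rfl; simp at hk'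
          obtain ⟨P'', h3, h4⟩ := ih _ h1 h2
          exact ⟨P'', fun f => by rw [h3, if_pos h], by rw [h4, if_pos h]⟩
        · refine ⟨0, fun f => ?_, by rw [map_zero, if_neg h]⟩
          rw [if_neg h]
          have : evC p 0 = 0 := by unfold evC; rw [map_zero]; rfl
          rw [this]
          exact qCoeff_zero 1
      let q : Nat.Primes := ⟨ℓ, hℓ⟩
      by_cases hne : ℓ = p
      · refine ⟨P' * heckeGen q, fun f => ?_, ?_⟩
        · rw [evC_mul, evC_heckeGen, Module.End.mul_apply, hP', qCoeff_heckeOp,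
            if_pos (show (q : ℕ) ∣ p by rw [← hne]), add_zero]
        · rw [map_mul, hc', chi_heckeGen, eisensteinSystem_of_dvd (show (q : ℕ) ∣ p by rw [← hne]),
            mul_one, hne, sigP_self_mul hp.out hk']
      · have hnd : ¬ (q : ℕ) ∣ p := fun h => hne ((Nat.prime_dvd_prime_iff_eq hℓ hp.out).mp h)
        refine ⟨P' * heckeGen q - MvPolynomial.C (ℓ : ℤ) * P'', fun f => ?_, ?_⟩
        · rw [evC_sub, evC_mul, evC_mul, evC_heckeGen, evC_C, LinearMap.sub_apply, qCoeff_sub,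
            Module.End.mul_apply, hP', qCoeff_heckeOp_two, cast_smul_apply, hP'', if_neg hnd]
          push_cast
          ring
        · rw [map_sub, map_mul, map_mul, hc', hc'', chi_heckeGen, chi_C,
            eisensteinSystem_of_not_dvd hnd, sigP_prime_mul hp.out hℓ hne hk']
          ring

end Fermat.Agent.S16

end
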