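import Fermat.Agent.S16.EisChar
import Fermat.Agent.HeckePar.Faithful
import Fermat.Agent.S16.HeckePoly

/-!
# The Shimura character is a Hecke eigenvector
-/

set_option autoImplicit false

noncomputable section

open CongruenceSubgroup ModularCurve
open scoped MatrixGroups

namespace Fermat.Agent.S16

open Fermat.Agent.HeckePar

section Eigen

variable (p : ℕ) [hp : Fact p.Prime] (ℓ : ℕ) [hℓ : Fact ℓ.Prime]

lemma isUnit_intRep (x : HIdx p ℓ) : IsUnit (((intRep ℓ x.1 0 0 : ℤ)) : ZMod p) := by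
  obtain ⟨x, hx⟩ := x
  cases x with
  | none =>
    have hnd : ¬ ℓ ∣ p := fun h => hx h rfl
    simp only [intRep_none, Matrix.of_apply, Matrix.cons_val', Matrix.cons_val_zero,
      Matrix.cons_val_fin_one, Int.cast_natCast]
    rw [ZMod.isUnit_iff_coprime]
    exact (Nat.Prime.coprime_iff_not_dvd hℓ.out).mpr hnd
  | some j => simp

/-- upper left entry of a representative -/
def rU (x : HIdx p ℓ) : (ZMod p)ˣ := (isUnit_intRep p ℓ x).unit

lemma coe_rU (x : HIdx p ℓ) : (rU p ℓ x : ZMod p) = ((intRep ℓ x.1 0 0 : ℤ) : ZMod p) := rfl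

lemma intRep_one_zero (x : Option (ZMod ℓ)) : intRep ℓ x 1 0 = 0 := by
  cases x <;> simp

lemma rU_mul_aUnit (g : Gamma0 p) (x : HIdx p ℓ) :
    rU p ℓ x * aUnit p g = aUnit p ((heckeSys p ℓ).coc g x) * rU p ℓ ((heckeSys p ℓ).act g x) := by
  apply Units.ext
  rw [Units.val_mul, Units.val_mul, coe_rU, coe_rU, coe_aUnit, coe_aUnit]
  have h := congrFun (congrFun (heckeSys_spec p ℓ g x) 0) 0
  rw [Matrix.mul_apply, Matrix.mul_apply, Fin.sum_univ_two, Fin.sum_univ_two, intRep_one_zero,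
    mul_zero, add_zero] at h
  have hc : ((((g : SL(2, ℤ)) 1 0 : ℤ)) : ZMod p) = 0 := Gamma0_mem.mp g.2
  have h' := congrArg (fun z : ℤ => (z : ZMod p)) h
  push_cast at h'
  rw [hc, mul_zero, add_zero] at h'
  exact h'

lemma prod_aUnit_coc (g : Gamma0 p) :
    ∏ x, aUnit p ((heckeSys p ℓ).coc g x) = aUnit p g ^ Fintype.card (HIdx p ℓ) := by
  have h1 : ∏ x, (rU p ℓ x * aUnit p g) =
      ∏ x, (aUnit p ((heckeSys p ℓ).coc g x) * rU p ℓ ((heckeSys p ℓ).act g x)) :=
    Finset.prod_congr rfl fun x _ => rU_mul_aUnit p ℓ g x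
  rw [Finset.prod_mul_distrib, Finset.prod_mul_distrib, Finset.prod_const, Finset.card_univ,
    show ∏ x, rU p ℓ ((heckeSys p ℓ).act g x) = ∏ x, rU p ℓ x from
      Equiv.prod_comp ((heckeSys p ℓ).perm g) (fun x => rU p ℓ x),
    mul_comm (∏ x, aUnit p ((heckeSys p ℓ).coc g x))] at h1
  exact (mul_left_cancel h1).symm

omit hp in
lemma card_HIdx : Fintype.card (HIdx p ℓ) = if ℓ ∣ p then ℓ else ℓ + 1 := by
  have : NeZero ℓ := ⟨hℓ.out.ne_zero⟩
  split_ifs with h
  · rw [Fintype.card_congr (hidxEquivOfDvd h), ZMod.card]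
  · rw [Fintype.card_congr (hidxEquivOfNotDvd h), Fintype.card_option, ZMod.card]

theorem addTransfer_psiE :
    (heckeSys p ℓ).addTransfer (psiE p) = (Fintype.card (HIdx p ℓ)) • psiE p := by
  refine AddMonoidHom.ext fun g => ?_
  obtain ⟨g, rfl⟩ := Additive.ofMul.surjective g
  rw [CosetSys.addTransfer_apply, AddMonoidHom.nsmul_apply, psiE_apply, ← map_nsmul, ← ofMul_pow,
    ← prod_aUnit_coc, ofMul_prod, map_sum]
  rfl

end Eigen

variable (p : ℕ) [hp : Fact p.Prime]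

theorem opPrime_psiE (ℓ : Nat.Primes) :
    opPrime p (ZMod (eisensteinNumerator p)) ℓ (psiE p) = (eisensteinSystem p ℓ : ℤ) • psiE p := by
  have : Fact (ℓ : ℕ).Prime := ⟨ℓ.2⟩
  rw [opPrime_apply, addTransfer_psiE, card_HIdx]
  by_cases h : (ℓ : ℕ) ∣ p
  · rw [if_pos h, eisensteinSystem_of_dvd h, one_smul]
    have hℓp : (ℓ : ℕ) = p := (Nat.prime_dvd_prime_iff_eq ℓ.2 hp.out).mp h
    rw [hℓp]
    refine AddMonoidHom.ext fun g => ?_
    rw [AddMonoidHom.nsmul_apply, nsmul_eq_mul]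
    have h1 : ((p : ℕ) : ZMod (eisensteinNumerator p)) = 1 := by
      have h2 := (ZMod.natCast_eq_zero_iff (p - 1) (eisensteinNumerator p)).mpr
        (eisensteinNumerator_dvd p)
      rw [Nat.cast_sub hp.out.one_lt.le, Nat.cast_one] at h2
      exact sub_eq_zero.mp h2
    rw [h1, one_mul]
  · rw [if_neg h, eisensteinSystem_of_not_dvd h, ← natCast_zsmul]
    push_cast
    rw [add_comm]

end Fermat.Agent.S16

end
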