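import Mathlib

/-!
# The universal cocycle on the Farey graph

For a set `X` with an action of `SL(2, ℤ)` and a function `w : X → A` with
`w (S • x) = - w x`, there is a cocycle `C g x` with `C S x = -4 w x` and `C (T * S) x = 0`.
For `A = ℤ` the cocycle is divisible by `4`.  (This is the statement that `PSL(2, ℤ)` is the free
product of the groups generated by `S` and `T * S`; the cocycle counts the crossings of Farey
edges.)
-/

set_option autoImplicit false

namespace Fermat.Agent.S16.Farey

open ModularGroup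
open scoped MatrixGroups

/-- twice the real part (up to a positive factor) of `h • ρ`, `ρ = exp(π i / 3)`. -/
def fq (h : SL(2, ℤ)) : ℤ :=
  2 * (h 0 0 * h 1 0) + 2 * (h 0 1 * h 1 1) + h 0 0 * h 1 1 + h 0 1 * h 1 0

/-- side of `h • ρ` with respect to the Farey edge `(0, ∞)`. -/
def chi (h : SL(2, ℤ)) : ℤ := if 0 < fq h then 1 else 0

theorem det_eq (h : SL(2, ℤ)) : h 0 0 * h 1 1 - h 0 1 * h 1 0 = 1 := by
  have := h.det_coe
  rwa [Matrix.det_fin_two] at this

theorem fq_mul_TS (h : SL(2, ℤ)) : fq (h * (T * S)) = fq h := by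
  have h1 : ((T * S : SL(2, ℤ)) : Matrix (Fin 2) (Fin 2) ℤ) = !![1, -1; 1, 0] := by
    rw [Matrix.SpecialLinearGroup.coe_mul, coe_S, coe_T]; decide
  simp only [fq, Matrix.SpecialLinearGroup.coe_mul h, h1, Matrix.mul_apply, Fin.sum_univ_two,
    Matrix.of_apply, Matrix.cons_val_zero, Matrix.cons_val_one, Matrix.cons_val',
    Matrix.cons_val_fin_one]
  ring

theorem fq_mul_S (h : SL(2, ℤ)) :
    fq (h * S) = 2 * (h 0 0 * h 1 0) + 2 * (h 0 1 * h 1 1) - h 0 0 * h 1 1 - h 0 1 * h 1 0 := by
  simp only [fq, Matrix.SpecialLinearGroup.coe_mul h, coe_S, Matrix.mul_apply, Fin.sum_univ_two,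
    Matrix.of_apply, Matrix.cons_val_zero, Matrix.cons_val_one, Matrix.cons_val',
    Matrix.cons_val_fin_one]
  ring

theorem fq_neg (h : SL(2, ℤ)) : fq (-h) = fq h := by
  simp only [fq, Matrix.SpecialLinearGroup.coe_neg, Matrix.neg_apply]
  ring

theorem chi_mul_TS (h : SL(2, ℤ)) : chi (h * (T * S)) = chi h := by
  rw [chi, fq_mul_TS, chi]

theorem chi_neg (h : SL(2, ℤ)) : chi (-h) = chi h := by
  rw [chi, fq_neg, chi]

theorem chi_one : chi 1 = 1 := by
  simp [chi, fq]

theorem chi_S : chi S = 0 := by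
  simp [chi, fq, coe_S]

theorem S_mul_S : (S * S : SL(2, ℤ)) = -1 := by
  apply Subtype.ext
  rw [Matrix.SpecialLinearGroup.coe_mul, coe_S, Matrix.SpecialLinearGroup.coe_neg,
    Matrix.SpecialLinearGroup.coe_one]
  decide

/-- `chi (h S) - chi h` is supported on `{±1, ±S}`. -/
theorem chi_mul_S_eq (h : SL(2, ℤ)) (h1 : h ≠ 1) (h2 : h ≠ -1) (h3 : h ≠ S) (h4 : h ≠ -S) :
    chi (h * S) = chi h := by
  by_contra hne
  have hdet := det_eq h
  have key : (h 0 0 * h 1 0) ^ 2 + (h 0 1 * h 1 1) ^ 2 +
      (h 0 0 * h 1 0) * (h 0 1 * h 1 1) = 0 := by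
    have hs := fq_mul_S h
    unfold chi at hne
    set a := h 0 0
    set b := h 0 1
    set c := h 1 0
    set d := h 1 1
    have hq : fq h = 2 * (a * c) + 2 * (b * d) + a * d + b * c := rfl
    have habs : (2 * (a * c) + 2 * (b * d)) ^ 2 ≤ (a * d + b * c) ^ 2 := by
      rw [sq_le_sq]
      rcases lt_or_ge 0 (fq h) with h5 | h5
      · rw [if_pos h5] at hne
        have h6 : ¬ 0 < fq (h * S) := fun h6 => hne (if_pos h6)
        push Not at h6
        rw [hs] at h6
        rw [hq] at h5
        rw [abs_le]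
        constructor
        · have := le_abs_self (a * d + b * c)
          linarith
        · have := le_abs_self (a * d + b * c)
          linarith
      · rw [if_neg (not_lt.mpr h5)] at hne
        have h6 : 0 < fq (h * S) := by
          by_contra h6
          exact hne (if_neg h6)
        rw [hs] at h6
        rw [hq] at h5
        rw [abs_le]
        constructor
        · have := neg_abs_le (a * d + b * c)
          have := le_abs_self (a * d + b * c)
          linarith
        · have := neg_abs_le (a * d + b * c)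
          linarith
    have h7 : (a * d + b * c) ^ 2 = 1 + 4 * ((a * c) * (b * d)) := by
      linear_combination (a * d - b * c + 1) * hdet
    have h8 : 0 ≤ (a * c) ^ 2 + (b * d) ^ 2 + (a * c) * (b * d) := by nlinarith [sq_nonneg (a * c + b * d), sq_nonneg (a * c), sq_nonneg (b * d)]
    have h9 : 4 * ((a * c) ^ 2 + (b * d) ^ 2 + (a * c) * (b * d)) ≤ 1 := by
      rw [h7] at habs
      linarith
    omega
  have h5 : h 0 0 * h 1 0 = 0 ∧ h 0 1 * h 1 1 = 0 := by
    constructor
    · have : (h 0 0 * h 1 0) ^ 2 ≤ 0 := by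
        nlinarith [sq_nonneg (h 0 0 * h 1 0 + 2 * (h 0 1 * h 1 1))]
      exact pow_eq_zero_iff (two_ne_zero) |>.mp (le_antisymm this (sq_nonneg _))
    · have : (h 0 1 * h 1 1) ^ 2 ≤ 0 := by
        nlinarith [sq_nonneg (2 * (h 0 0 * h 1 0) + (h 0 1 * h 1 1))]
      exact pow_eq_zero_iff (two_ne_zero) |>.mp (le_antisymm this (sq_nonneg _))
  obtain ⟨h6, h7⟩ := h5
  rcases mul_eq_zero.mp h6 with ha | hc
  · -- a = 0, so b c = -1, so d = 0
    rw [ha, zero_mul, zero_sub] at hdet
    have hb : h 0 1 ≠ 0 := by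
      intro hb; rw [hb] at hdet; simp at hdet
    have hd : h 1 1 = 0 := by
      rcases mul_eq_zero.mp h7 with h8 | h8
      · exact absurd h8 hb
      · exact h8
    have hbc : h 1 0 * (-h 0 1) = 1 := by linarith
    rcases Int.eq_one_or_neg_one_of_mul_eq_one hbc with h8 | h8
    · apply h3
      ext i j
      fin_cases i <;> fin_cases j <;> simp [coe_S, ha, hd, h8]
      rw [h8] at hbc; linarith
    · apply h4
      ext i j
      fin_cases i <;> fin_cases j <;> simp [coe_S, ha, hd, h8]
      rw [h8] at hbc; linarith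
  · rw [hc, mul_zero, sub_zero] at hdet
    have hd : h 1 1 ≠ 0 := by
      intro hb; rw [hb] at hdet; simp at hdet
    have hb : h 0 1 = 0 := by
      rcases mul_eq_zero.mp h7 with h8 | h8
      · exact h8
      · exact absurd h8 hd
    rcases Int.eq_one_or_neg_one_of_mul_eq_one hdet with h8 | h8
    · apply h1
      ext i j
      fin_cases i <;> fin_cases j <;> simp [hc, hb, h8]
      rw [h8] at hdet; linarith
    · apply h2
      ext i j
      fin_cases i <;> fin_cases j <;> simp [hc, hb, h8]
      rw [h8] at hdet; linarith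

/-- difference of `chi` -/
def dchi (g h : SL(2, ℤ)) : ℤ := chi (h * g⁻¹) - chi h

theorem dchi_one (h : SL(2, ℤ)) : dchi 1 h = 0 := by
  simp [dchi]

theorem dchi_mul (g g' h : SL(2, ℤ)) : dchi (g * g') h = dchi g (h * g'⁻¹) + dchi g' h := by
  simp only [dchi, mul_inv_rev, ← mul_assoc]
  ring

theorem dchi_TS (h : SL(2, ℤ)) : dchi (T * S) h = 0 := by
  rw [dchi, ← chi_mul_TS (h * (T * S)⁻¹), inv_mul_cancel_right, sub_self]

theorem dchi_neg_one (h : SL(2, ℤ)) : dchi (-1) h = 0 := by
  have : h * (-1 : SL(2, ℤ))⁻¹ = - h := by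
    rw [inv_neg_one]; simp
  rw [dchi, this, chi_neg, sub_self]

theorem S_inv : (S : SL(2, ℤ))⁻¹ = -S := by
  rw [inv_eq_iff_mul_eq_one, mul_neg, S_mul_S, neg_neg]

theorem dchi_S_eq (h : SL(2, ℤ)) : dchi S h = chi (h * S) - chi h := by
  rw [dchi, S_inv, mul_neg, chi_neg]

theorem dchi_S_one : dchi S 1 = -1 := by
  rw [dchi_S_eq, one_mul, chi_S, chi_one]; rfl

theorem dchi_neg (g h : SL(2, ℤ)) : dchi g (-h) = dchi g h := by
  rw [dchi, dchi, neg_mul, chi_neg, chi_neg]

theorem dchi_S_S : dchi S S = 1 := by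
  rw [dchi_S_eq, S_mul_S, chi_neg, chi_S, chi_one]; rfl

theorem dchi_S_zero (h : SL(2, ℤ)) (h1 : h ≠ 1) (h2 : h ≠ -1) (h3 : h ≠ S) (h4 : h ≠ -S) :
    dchi S h = 0 := by
  rw [dchi_S_eq, chi_mul_S_eq h h1 h2 h3 h4, sub_self]

theorem mem_closure_TS_S (g : SL(2, ℤ)) : g ∈ Subgroup.closure ({S, T * S} : Set SL(2, ℤ)) := by
  have h : (⊤ : Subgroup SL(2, ℤ)) ≤ Subgroup.closure ({S, T * S} : Set SL(2, ℤ)) := by
    rw [← SpecialLinearGroup.SL2Z_generators, Subgroup.closure_le]
    have hS : S ∈ Subgroup.closure ({S, T * S} : Set SL(2, ℤ)) :=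
      Subgroup.subset_closure (Set.mem_insert _ _)
    have hTS : T * S ∈ Subgroup.closure ({S, T * S} : Set SL(2, ℤ)) :=
      Subgroup.subset_closure (Set.mem_insert_of_mem _ rfl)
    intro x hx
    rcases hx with rfl | rfl
    · exact hS
    · have := Subgroup.mul_mem _ hTS (Subgroup.inv_mem _ hS)
      rwa [mul_inv_cancel_right] at this
  exact h (Subgroup.mem_top g)

/-- induction along the generators `S` and `T * S`. -/
theorem induction_TS_S {P : SL(2, ℤ) → Prop} (hS : P S) (hTS : P (T * S)) (h1 : P 1)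
    (hmul : ∀ g h, P g → P h → P (g * h)) (hinv : ∀ g, P g → P g⁻¹) (g : SL(2, ℤ)) : P g := by
  induction mem_closure_TS_S g using Subgroup.closure_induction with
  | mem x hx =>
    rcases hx with rfl | rfl
    · exact hS
    · exact hTS
  | one => exact h1
  | mul x y _ _ hx hy => exact hmul x y hx hy
  | inv x _ hx => exact hinv x hx

theorem dchi_finite (g : SL(2, ℤ)) : (Function.support (dchi g)).Finite := by
  induction g using induction_TS_S with
  | hS =>
    refine (Set.toFinite ({1, -1, S, -S} : Set SL(2, ℤ))).subset fun h hh => ?_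
    by_contra hne
    simp only [Set.mem_insert_iff, Set.mem_singleton_iff, not_or] at hne
    exact hh (dchi_S_zero h hne.1 hne.2.1 hne.2.2.1 hne.2.2.2)
  | hTS =>
    have : Function.support (dchi (T * S)) = ∅ := by
      ext h; simp [dchi_TS]
    rw [this]; exact Set.finite_empty
  | h1 =>
    have : Function.support (dchi 1) = ∅ := by
      ext h; simp [dchi_one]
    rw [this]; exact Set.finite_empty
  | hmul g g' hg hg' =>
    have h2 : (Function.support fun h => dchi g (h * g'⁻¹)).Finite := by
      have : (Function.support fun h => dchi g (h * g'⁻¹)) =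
          (fun h => h * g'⁻¹) ⁻¹' (Function.support (dchi g)) := rfl
      rw [this]
      exact hg.preimage ((mul_left_injective g'⁻¹).injOn)
    refine (h2.union hg').subset fun h hh => ?_
    by_contra hne
    simp only [Set.mem_union, Function.mem_support, not_or, not_not] at hne
    apply hh
    rw [dchi_mul, hne.1, hne.2, add_zero]
  | hinv g hg =>
    have h2 : (Function.support fun h => dchi g (h * g)).Finite := by
      have : (Function.support fun h => dchi g (h * g)) =
          (fun h => h * g) ⁻¹' (Function.support (dchi g)) := rfl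
      rw [this]
      exact hg.preimage ((mul_left_injective g).injOn)
    refine h2.subset fun h hh => ?_
    have := dchi_mul g g⁻¹ h
    rw [mul_inv_cancel, dchi_one, inv_inv] at this
    intro h3
    apply hh
    replace h3 : dchi g (h * g) = 0 := h3
    rw [h3, zero_add] at this
    exact this.symm

section Cocycle

variable {X : Type*} [MulAction SL(2, ℤ) X] {A : Type*} [AddCommGroup A]

/-- four times the universal cocycle -/
noncomputable def C4 (w : X → A) (g : SL(2, ℤ)) (x : X) : A :=
  ∑ᶠ h : SL(2, ℤ), dchi g h • w (h • x)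

theorem C4_support (w : X → A) (g : SL(2, ℤ)) (x : X) :
    (Function.support fun h : SL(2, ℤ) => dchi g h • w (h • x)).Finite := by
  refine (dchi_finite g).subset fun h hh h0 => hh ?_
  simp only [h0, zero_smul]

theorem C4_mul (w : X → A) (g g' : SL(2, ℤ)) (x : X) :
    C4 w (g * g') x = C4 w g (g' • x) + C4 w g' x := by
  have h1 : C4 w g (g' • x) = ∑ᶠ h : SL(2, ℤ), dchi g (h * g'⁻¹) • w (h • x) := by
    rw [C4, ← finsum_comp_equiv (Equiv.mulRight g'⁻¹)]
    apply finsum_congr
    intro h
    simp only [Equiv.coe_mulRight, smul_smul, inv_mul_cancel_right]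
  have h2 : (Function.support fun h : SL(2, ℤ) => dchi g (h * g'⁻¹) • w (h • x)).Finite := by
    have : (Function.support fun h => dchi g (h * g'⁻¹)).Finite := by
      have : (Function.support fun h => dchi g (h * g'⁻¹)) =
          (fun h => h * g'⁻¹) ⁻¹' (Function.support (dchi g)) := rfl
      rw [this]
      exact (dchi_finite g).preimage ((mul_left_injective g'⁻¹).injOn)
    refine this.subset fun h hh h0 => hh ?_
    simp only [h0, zero_smul]
  rw [h1, C4, C4, ← finsum_add_distrib h2 (C4_support w g' x)]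
  apply finsum_congr
  intro h
  rw [dchi_mul, add_smul]

theorem C4_TS (w : X → A) (x : X) : C4 w (T * S) x = 0 := by
  rw [C4]
  simp only [dchi_TS, zero_smul, finsum_zero]

theorem neg_one_smul_of_S {w : X → A} (hw : ∀ x, w (S • x) = - w x) (x : X) :
    w ((-1 : SL(2, ℤ)) • x) = w x := by
  rw [← S_mul_S, mul_smul, hw, hw, neg_neg]

theorem C4_S {w : X → A} (hw : ∀ x, w (S • x) = - w x) (x : X) :
    C4 w S x = (-4 : ℤ) • w x := by
  have hne1 : (1 : SL(2, ℤ)) ≠ -1 := by
    intro h
    have := congrArg (fun g : SL(2, ℤ) => g 0 0) h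
    simp at this
  have hne2 : (1 : SL(2, ℤ)) ≠ S := by
    intro h
    have := congrArg (fun g : SL(2, ℤ) => g 0 0) h
    simp [coe_S] at this
  have hne3 : (1 : SL(2, ℤ)) ≠ -S := by
    intro h
    have := congrArg (fun g : SL(2, ℤ) => g 0 0) h
    simp [coe_S] at this
  have hne4 : (-1 : SL(2, ℤ)) ≠ S := by
    intro h
    have := congrArg (fun g : SL(2, ℤ) => g 0 0) h
    simp [coe_S] at this
  have hne5 : (-1 : SL(2, ℤ)) ≠ -S := by
    intro h
    exact hne2 (neg_injective h)
  have hne6 : (S : SL(2, ℤ)) ≠ -S := by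
    intro h
    have := congrArg (fun g : SL(2, ℤ) => g 0 1) h
    simp [coe_S] at this
  classical
  rw [C4, finsum_eq_sum_of_support_subset (s := {1, -1, S, -S})]
  · rw [Finset.sum_insert, Finset.sum_insert, Finset.sum_insert, Finset.sum_singleton]
    · rw [dchi_neg, dchi_neg, dchi_S_one, dchi_S_S, one_smul, one_smul, one_smul,
        neg_one_smul_of_S hw, hw, show (-S : SL(2, ℤ)) = (-1) * S by rw [neg_one_mul], mul_smul,
        neg_one_smul_of_S hw, hw]
      simp only [neg_smul, one_smul]
      abel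
    · simpa using hne6
    · simp only [Finset.mem_insert, Finset.mem_singleton, not_or]
      exact ⟨hne4, hne5⟩
    · simp only [Finset.mem_insert, Finset.mem_singleton, not_or]
      exact ⟨hne1, hne2, hne3⟩
  · intro h hh
    by_contra hne
    simp only [Finset.coe_insert, Finset.coe_singleton, Set.mem_insert_iff,
      Set.mem_singleton_iff, not_or] at hne
    apply hh
    show dchi S h • _ = 0
    rw [dchi_S_zero h hne.1 hne.2.1 hne.2.2.1 hne.2.2.2, zero_smul]

/-- two cocycles which agree on `S` and `T * S` are equal. -/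
theorem cocycle_ext {c c' : SL(2, ℤ) → X → A}
    (hc : ∀ g h x, c (g * h) x = c g (h • x) + c h x)
    (hc' : ∀ g h x, c' (g * h) x = c' g (h • x) + c' h x)
    (hS : ∀ x, c S x = c' S x) (hTS : ∀ x, c (T * S) x = c' (T * S) x) :
    ∀ g x, c g x = c' g x := by
  have h1 : ∀ x, c 1 x = 0 := by
    intro x
    have := hc 1 1 x
    rw [one_smul, mul_one] at this
    exact left_eq_add.mp this
  have h1' : ∀ x, c' 1 x = 0 := by
    intro x
    have := hc' 1 1 x
    rw [one_smul, mul_one] at this
    exact left_eq_add.mp this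
  intro g
  induction g using induction_TS_S with
  | hS => exact hS
  | hTS => exact hTS
  | h1 => intro x; rw [h1, h1']
  | hmul g h hg hh => intro x; rw [hc, hc', hg, hh]
  | hinv g hg =>
    intro x
    have e1 := hc g g⁻¹ x
    have e2 := hc' g g⁻¹ x
    rw [mul_inv_cancel, h1] at e1
    rw [mul_inv_cancel, h1'] at e2
    rw [hg] at e1
    have e3 := e1.symm.trans e2
    exact add_left_cancel e3

/-- **Universal cocycle, integral coefficients.** -/
theorem exists_cocycle {w : X → ℤ} (hw : ∀ x, w (S • x) = - w x) :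
    ∃ c : SL(2, ℤ) → X → ℤ, (∀ g h x, c (g * h) x = c g (h • x) + c h x) ∧
      (∀ x, c S x = w x) ∧ (∀ x, c (T * S) x = 0) := by
  have h4 : ∀ g x, (4 : ℤ) ∣ C4 w g x := by
    have h1 : ∀ x, C4 w 1 x = 0 := by
      intro x
      have := C4_mul w 1 1 x
      rw [one_smul, mul_one] at this
      exact left_eq_add.mp this
    intro g
    induction g using induction_TS_S with
    | hS => intro x; rw [C4_S hw]; exact ⟨-w x, by simp⟩
    | hTS => intro x; rw [C4_TS]; exact dvd_zero _
    | h1 => intro x; rw [h1]; exact dvd_zero _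
    | hmul g h hg hh => intro x; rw [C4_mul]; exact dvd_add (hg _) (hh _)
    | hinv g hg =>
      intro x
      have := C4_mul w g g⁻¹ x
      rw [mul_inv_cancel, h1] at this
      have h5 : C4 w g⁻¹ x = - C4 w g (g⁻¹ • x) := by linarith
      rw [h5]
      exact (hg _).neg_right
  refine ⟨fun g x => -(C4 w g x / 4), ?_, ?_, ?_⟩
  · intro g h x
    obtain ⟨a, ha⟩ := h4 g (h • x)
    obtain ⟨b, hb⟩ := h4 h x
    simp only [C4_mul, ha, hb]
    rw [← mul_add, Int.mul_ediv_cancel_left _ (by norm_num),
      Int.mul_ediv_cancel_left _ (by norm_num), Int.mul_ediv_cancel_left _ (by norm_num)]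
    ring
  · intro x
    show -(C4 w S x / 4) = w x
    rw [C4_S hw, smul_eq_mul, neg_mul, ← mul_neg, Int.mul_ediv_cancel_left _ (by norm_num),
      neg_neg]
  · intro x
    show -(C4 w (T * S) x / 4) = 0
    rw [C4_TS]; rfl

end Cocycle

end Fermat.Agent.S16.Farey
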