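import Mathlib
import Fermat.Agent.S16.Defs

/-!
# Level one forms with integral `q`-expansion
-/

set_option autoImplicit false

noncomputable section

open UpperHalfPlane ModularForm MatrixGroups EisensteinSeries

namespace Fermat.Agent.S16

theorem toC_injective : Function.Injective toC :=
  PowerSeries.map_injective _ Int.cast_injective

theorem toC_zero : toC 0 = 0 := map_zero _
theorem toC_one : toC 1 = 1 := map_one _
theorem toC_add (A B : PowerSeries ℤ) : toC (A + B) = toC A + toC B := map_add _ _ _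
theorem toC_sub (A B : PowerSeries ℤ) : toC (A - B) = toC A - toC B := map_sub _ _ _
theorem toC_mul (A B : PowerSeries ℤ) : toC (A * B) = toC A * toC B := map_mul _ _ _
theorem toC_pow (A : PowerSeries ℤ) (n : ℕ) : toC (A ^ n) = toC A ^ n := map_pow _ _ _

theorem toC_eq_zero {A : PowerSeries ℤ} (h : toC A = 0) : A = 0 :=
  toC_injective (by rw [h, toC_zero])

theorem coeff_toC (A : PowerSeries ℤ) (n : ℕ) : (toC A).coeff n = (A.coeff n : ℂ) := by
  simp [toC]

theorem toC_zsmul (n : ℤ) (A : PowerSeries ℤ) : toC (n • A) = (n : ℂ) • toC A := by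
  ext m
  rw [PowerSeries.coeff_smul, coeff_toC, coeff_toC, map_zsmul]
  simp

/-! ### Closure properties -/

theorem LOne.add {k : ℕ} {C D : PowerSeries ℤ} (hC : LOne k C) (hD : LOne k D) :
    LOne k (C + D) := by
  obtain ⟨G, hG⟩ := hC
  obtain ⟨H, hH⟩ := hD
  refine ⟨G + H, ?_⟩
  rw [FunLike.coe_add, ModularForm.qExpansion_add one_pos one_mem_strictPeriods_SL, hG, hH,
    toC_add]

theorem LOne.zsmul {k : ℕ} {C : PowerSeries ℤ} (hC : LOne k C) (n : ℤ) : LOne k (n • C) := by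
  obtain ⟨G, hG⟩ := hC
  refine ⟨(n : ℂ) • G, ?_⟩
  rw [FunLike.coe_smul, ModularForm.qExpansion_smul one_pos one_mem_strictPeriods_SL, hG,
    toC_zsmul]

theorem LOne.neg {k : ℕ} {C : PowerSeries ℤ} (hC : LOne k C) : LOne k (-C) := by
  simpa using hC.zsmul (-1)

theorem LOne.sub {k : ℕ} {C D : PowerSeries ℤ} (hC : LOne k C) (hD : LOne k D) :
    LOne k (C - D) := by
  rw [sub_eq_add_neg]
  exact hC.add hD.neg

theorem LOne.zero (k : ℕ) : LOne k 0 := by
  refine ⟨0, ?_⟩
  rw [FunLike.coe_zero, qExpansion_zero, toC_zero]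

theorem LOne.cast {k l : ℕ} {C : PowerSeries ℤ} (hC : LOne k C) (h : k = l) : LOne l C := h ▸ hC

theorem LOne.mul {a b : ℕ} {C D : PowerSeries ℤ} (hC : LOne a C) (hD : LOne b D) :
    LOne (a + b) (C * D) := by
  obtain ⟨G, hG⟩ := hC
  obtain ⟨H, hH⟩ := hD
  refine ⟨ModularForm.mcast (by push_cast; ring) (G.mul H), ?_⟩
  rw [ModularForm.qExpansion_mcast,
    ModularForm.qExpansion_mul one_pos one_mem_strictPeriods_SL, hG, hH, toC_mul]

theorem LOne.one : LOne 0 1 := by
  refine ⟨ModularForm.mcast (by simp) (1 : ModularForm 𝒮ℒ 0), ?_⟩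
  rw [ModularForm.qExpansion_mcast, ModularForm.qExpansion_one, toC_one]

theorem LOne.pow {a : ℕ} {C : PowerSeries ℤ} (hC : LOne a C) (n : ℕ) : LOne (n * a) (C ^ n) := by
  induction n with
  | zero => simpa using LOne.one
  | succ n ih =>
    rw [pow_succ]
    exact (ih.mul hC).cast (by ring)

theorem LOne.div {k : ℕ} {C : PowerSeries ℤ} {d : ℤ} (hd : d ≠ 0) (hC : LOne k (d • C)) :
    LOne k C := by
  obtain ⟨G, hG⟩ := hC
  refine ⟨(d : ℂ)⁻¹ • G, ?_⟩
  have : (d : ℂ) ≠ 0 := by exact_mod_cast hd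
  rw [FunLike.coe_smul, ModularForm.qExpansion_smul one_pos one_mem_strictPeriods_SL, hG,
    toC_zsmul, smul_smul, inv_mul_cancel₀ this, one_smul]

theorem LOne.sum {ι : Type*} (s : Finset ι) {k : ℕ} {C : ι → PowerSeries ℤ}
    (h : ∀ i ∈ s, LOne k (C i)) : LOne k (∑ i ∈ s, C i) := by
  classical
  induction s using Finset.induction_on with
  | empty => simpa using LOne.zero k
  | insert a s ha ih =>
    rw [Finset.sum_insert ha]
    exact (h a (by simp)).add (ih fun i hi => h i (by simp [hi]))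

/-! ### The standard forms -/

/-- `E₄ = 1 + 240 ∑ σ₃(n) q^n` -/
def E4s : PowerSeries ℤ :=
  PowerSeries.mk fun n => if n = 0 then 1 else 240 * (ArithmeticFunction.sigma 3 n : ℤ)

/-- `E₆ = 1 - 504 ∑ σ₅(n) q^n` -/
def E6s : PowerSeries ℤ :=
  PowerSeries.mk fun n => if n = 0 then 1 else -504 * (ArithmeticFunction.sigma 5 n : ℤ)

/-- `∑ σ₃(n) q^n` -/
def A3s : PowerSeries ℤ := PowerSeries.mk fun n => (ArithmeticFunction.sigma 3 n : ℤ)
/-- `∑ σ₅(n) q^n` -/
def A5s : PowerSeries ℤ := PowerSeries.mk fun n => (ArithmeticFunction.sigma 5 n : ℤ)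

/-- `Δ` as an integral power series -/
def Ds : PowerSeries ℤ :=
  PowerSeries.mk (fun n => (5 * (ArithmeticFunction.sigma 3 n : ℤ) +
    7 * (ArithmeticFunction.sigma 5 n : ℤ)) / 12) +
  (100 : ℤ) • A3s ^ 2 + (8000 : ℤ) • A3s ^ 3 - (147 : ℤ) • A5s ^ 2

theorem E4s_eq : E4s = 1 + (240 : ℤ) • A3s := by
  ext n
  rw [E4s, PowerSeries.coeff_mk, map_add, PowerSeries.coeff_one, map_zsmul, A3s,
    PowerSeries.coeff_mk]
  split_ifs with h
  · subst h; simp
  · simp

theorem E6s_eq : E6s = 1 - (504 : ℤ) • A5s := by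
  ext n
  rw [E6s, PowerSeries.coeff_mk, map_sub, PowerSeries.coeff_one, map_zsmul, A5s,
    PowerSeries.coeff_mk]
  split_ifs with h
  · subst h; simp
  · simp

theorem twelve_dvd (n : ℕ) : (12 : ℤ) ∣ 5 * (ArithmeticFunction.sigma 3 n : ℤ) +
    7 * (ArithmeticFunction.sigma 5 n : ℤ) := by
  rw [ArithmeticFunction.sigma_apply, ArithmeticFunction.sigma_apply]
  push_cast
  rw [Finset.mul_sum, Finset.mul_sum, ← Finset.sum_add_distrib]
  refine Finset.dvd_sum fun d _ => ?_
  have h : ∀ x : ZMod 12, 5 * x ^ 3 + 7 * x ^ 5 = 0 := by decide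
  have := h (d : ZMod 12)
  refine (ZMod.intCast_zmod_eq_zero_iff_dvd _ 12).mp ?_
  push_cast
  exact this

theorem Ds_eq : (1728 : ℤ) • Ds = E4s ^ 3 - E6s ^ 2 := by
  have h : (144 : ℤ) • ((5 : ℤ) • A3s + (7 : ℤ) • A5s) = (1728 : ℤ) •
      PowerSeries.mk (fun n => (5 * (ArithmeticFunction.sigma 3 n : ℤ) +
        7 * (ArithmeticFunction.sigma 5 n : ℤ)) / 12) := by
    ext n
    obtain ⟨c, hc⟩ := twelve_dvd n
    simp only [A3s, A5s, map_zsmul, map_add, PowerSeries.coeff_mk, smul_eq_mul, hc]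
    rw [Int.mul_ediv_cancel_left _ (by norm_num)]
    ring
  rw [Ds, smul_sub, smul_add, smul_add, ← h, E4s_eq, E6s_eq]
  simp only [zsmul_eq_mul]
  push_cast
  ring

theorem coeff_zero_E4s : E4s.coeff 0 = 1 := by simp [E4s]
theorem coeff_zero_E6s : E6s.coeff 0 = 1 := by simp [E6s]
theorem coeff_one_E4s : E4s.coeff 1 = 240 := by simp [E4s]
theorem coeff_one_E6s : E6s.coeff 1 = -504 := by simp [E6s]

theorem qExpansion_E4 : qExpansion 1 E₄ = toC E4s := by
  ext n
  rw [E_qExpansion_coeff _ ⟨2, rfl⟩, coeff_toC, E4s, PowerSeries.coeff_mk]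
  split_ifs with h
  · simp
  · rw [show bernoulli 4 = -1 / 30 by decide +kernel]
    push_cast
    norm_num

theorem qExpansion_E6 : qExpansion 1 E₆ = toC E6s := by
  ext n
  rw [E_qExpansion_coeff _ ⟨3, rfl⟩, coeff_toC, E6s, PowerSeries.coeff_mk]
  split_ifs with h
  · simp
  · rw [show bernoulli 6 = 1 / 42 by decide +kernel]
    push_cast
    norm_num

theorem LOne_E4s : LOne 2 E4s := by
  refine ⟨ModularForm.mcast (by norm_num) E₄, ?_⟩
  rw [ModularForm.qExpansion_mcast, qExpansion_E4]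

theorem LOne_E6s : LOne 3 E6s := by
  refine ⟨ModularForm.mcast (by norm_num) E₆, ?_⟩
  rw [ModularForm.qExpansion_mcast, qExpansion_E6]

theorem LOne_Ds : LOne 6 Ds := by
  refine LOne.div (d := 1728) (by norm_num) ?_
  rw [Ds_eq]
  exact ((LOne_E4s.pow 3).cast (by norm_num)).sub ((LOne_E6s.pow 2).cast (by norm_num))

theorem coeff_zero_Ds : Ds.coeff 0 = 0 := by
  have h := congrArg (PowerSeries.coeff 0) Ds_eq
  rw [map_zsmul, map_sub, PowerSeries.coeff_zero_eq_constantCoeff_apply,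
    PowerSeries.coeff_zero_eq_constantCoeff_apply, PowerSeries.coeff_zero_eq_constantCoeff_apply,
    map_pow, map_pow, ← PowerSeries.coeff_zero_eq_constantCoeff_apply,
    ← PowerSeries.coeff_zero_eq_constantCoeff_apply,
    ← PowerSeries.coeff_zero_eq_constantCoeff_apply, coeff_zero_E4s, coeff_zero_E6s] at h
  simpa using h

theorem coeff_one_pow (A : PowerSeries ℤ) (h : A.coeff 0 = 1) (n : ℕ) :
    (A ^ n).coeff 1 = n * A.coeff 1 := by
  have h0 : ∀ n : ℕ, (A ^ n).coeff 0 = 1 := by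
    intro n
    rw [PowerSeries.coeff_zero_eq_constantCoeff_apply, map_pow,
      ← PowerSeries.coeff_zero_eq_constantCoeff_apply, h, one_pow]
  induction n with
  | zero => simp [PowerSeries.coeff_one]
  | succ n ih =>
    rw [pow_succ, PowerSeries.coeff_mul, Finset.Nat.antidiagonal_succ]
    simp [ih, h, h0]
    ring

theorem coeff_one_Ds : Ds.coeff 1 = 1 := by
  have h := congrArg (PowerSeries.coeff 1) Ds_eq
  rw [map_zsmul, map_sub, coeff_one_pow _ coeff_zero_E4s, coeff_one_pow _ coeff_zero_E6s,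
    coeff_one_E4s, coeff_one_E6s] at h
  simp only [smul_eq_mul] at h
  push_cast at h
  omega

theorem qExpansion_discriminant : qExpansion 1 ModularForm.discriminant = toC Ds := by
  have h1 : qExpansion 1 (ModularForm.mcast (b := 12) (by norm_num) (E₄.pow 3) -
      ModularForm.mcast (by norm_num) (E₆.pow 2) : ModularForm 𝒮ℒ 12) =
      (1728 : ℂ) • toC Ds := by
    rw [FunLike.coe_sub, ModularForm.qExpansion_sub one_pos one_mem_strictPeriods_SL,
      ModularForm.qExpansion_mcast, ModularForm.qExpansion_mcast,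
      ModularForm.qExpansion_pow one_pos one_mem_strictPeriods_SL,
      ModularForm.qExpansion_pow one_pos one_mem_strictPeriods_SL]
    rw [qExpansion_E4, qExpansion_E6, ← toC_pow, ← toC_pow, ← toC_sub, ← Ds_eq, toC_zsmul]
    norm_num
  have h2 : (⇑(ModularForm.mcast (b := 12) (by norm_num) (E₄.pow 3) -
      ModularForm.mcast (by norm_num) (E₆.pow 2) : ModularForm 𝒮ℒ 12) : ℍ → ℂ) =
      ⇑((1728 : ℂ) • CuspForm.discriminant) := by
    funext z
    rw [smul_apply, CuspForm.coe_discriminant, discriminant_eq_E₄_cube_sub_E₆_sq]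
    simp only [sub_apply, coe_mcast, ModularForm.coe_pow, Pi.pow_apply, smul_eq_mul]
    ring
  rw [h2, FunLike.coe_smul, ModularForm.qExpansion_smul one_pos one_mem_strictPeriods_SL,
    CuspForm.coe_discriminant] at h1
  exact smul_right_injective _ (by norm_num : (1728 : ℂ) ≠ 0) h1

/-! ### Division by `Δ` -/

theorem exists_unit_Ds : ∃ U : (PowerSeries ℤ)ˣ, Ds = PowerSeries.X * (U : PowerSeries ℤ) := by
  have h0 : PowerSeries.constantCoeff Ds = 0 := by
    rw [← PowerSeries.coeff_zero_eq_constantCoeff_apply, coeff_zero_Ds]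
  obtain ⟨V, hV⟩ := PowerSeries.X_dvd_iff.mpr h0
  have h1 : V.coeff 0 = 1 := by
    have := coeff_one_Ds
    rw [hV, show (1 : ℕ) = 0 + 1 from rfl, PowerSeries.coeff_succ_X_mul] at this
    exact this
  have h2 : IsUnit V := by
    rw [PowerSeries.isUnit_iff_constantCoeff, ← PowerSeries.coeff_zero_eq_constantCoeff_apply, h1]
    exact isUnit_one
  obtain ⟨U, rfl⟩ := h2
  exact ⟨U, hV⟩

theorem Ds_ne_zero : Ds ≠ 0 := by
  intro h
  have := coeff_one_Ds
  rw [h] at this
  simp at this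

theorem dvd_coeff_of_Ds_mul {m : ℤ} {C : PowerSeries ℤ} {n : ℕ}
    (h : ∀ i ≤ n + 1, m ∣ (Ds * C).coeff i) : ∀ i ≤ n, m ∣ C.coeff i := by
  intro i hi
  obtain ⟨U, hU⟩ := exists_unit_Ds
  have h1 : PowerSeries.X * C = ((U⁻¹ : (PowerSeries ℤ)ˣ) : PowerSeries ℤ) * (Ds * C) := by
    rw [hU]
    calc PowerSeries.X * C = (((U⁻¹ : (PowerSeries ℤ)ˣ) : PowerSeries ℤ) * (U : PowerSeries ℤ)) *
        (PowerSeries.X * C) := by rw [Units.inv_mul, one_mul]
      _ = _ := by ring
  have h2 : C.coeff i = (PowerSeries.X * C).coeff (i + 1) := by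
    rw [PowerSeries.coeff_succ_X_mul]
  rw [h2, h1, PowerSeries.coeff_mul]
  refine Finset.dvd_sum fun x hx => Dvd.dvd.mul_left (h _ ?_) _
  have := Finset.HasAntidiagonal.mem_antidiagonal.mp hx
  omega

theorem LOne.exists_Ds_mul {k : ℕ} {C : PowerSeries ℤ} (hC : LOne k C) (h0 : C.coeff 0 = 0) :
    C = 0 ∨ ∃ (j : ℕ) (D : PowerSeries ℤ), k = j + 6 ∧ LOne j D ∧ C = Ds * D := by
  obtain ⟨G, hG⟩ := hC
  have hc : (qExpansion 1 G).coeff 0 = 0 := by rw [hG, coeff_toC, h0, Int.cast_zero]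
  have h1 := qExpansion_eq_qExpansion_discriminant_mul G hc
  rw [hG, qExpansion_discriminant] at h1
  set H := CuspForm.discriminantEquiv (toCuspForm G hc) with hH
  by_cases hk : 6 ≤ k
  · right
    obtain ⟨j, rfl⟩ : ∃ j, k = j + 6 := ⟨k - 6, by omega⟩
    -- integrality of the quotient
    obtain ⟨U, hU⟩ := exists_unit_Ds
    have h0' : PowerSeries.constantCoeff C = 0 := by
      rw [← PowerSeries.coeff_zero_eq_constantCoeff_apply, h0]
    obtain ⟨V, hV⟩ := PowerSeries.X_dvd_iff.mpr h0'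
    have h2 : C = Ds * (((U⁻¹ : (PowerSeries ℤ)ˣ) : PowerSeries ℤ) * V) := by
      rw [hU, hV, mul_assoc, ← mul_assoc (U : PowerSeries ℤ), Units.mul_inv, one_mul]
    refine ⟨j, _, rfl, ⟨ModularForm.mcast (by push_cast; ring) H, ?_⟩, h2⟩
    rw [ModularForm.qExpansion_mcast]
    have h3 : toC Ds ≠ 0 := fun h => Ds_ne_zero (toC_eq_zero h)
    refine mul_left_cancel₀ h3 ?_
    rw [← h1, ← toC_mul, ← h2]
  · left
    have h2 : H = 0 := ModularForm.isZero_of_neg_weight (by push_cast; omega) H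
    rw [h2, FunLike.coe_zero, qExpansion_zero, mul_zero] at h1
    exact toC_eq_zero h1

/-! ### Small weights -/

theorem LOne.eq_zero_of_one {C : PowerSeries ℤ} (hC : LOne 1 C) : C = 0 := by
  obtain ⟨G, hG⟩ := hC
  have h : G = 0 := rank_zero_iff_forall_zero.mp levelOne_weight_two_rank_zero G
  rw [h, FunLike.coe_zero, qExpansion_zero] at hG
  exact toC_eq_zero hG.symm

/-- a monomial in `E₄, E₆` of weight `2k` (`k ≠ 1`) -/
theorem exists_mono {k : ℕ} (hk : k ≠ 1) :
    ∃ a b : ℕ, k = 2 * a + 3 * b ∧ LOne k (E4s ^ a * E6s ^ b) ∧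
      (E4s ^ a * E6s ^ b).coeff 0 = 1 := by
  obtain ⟨a, b, hab⟩ : ∃ a b : ℕ, k = 2 * a + 3 * b := by
    rcases Nat.even_or_odd k with ⟨m, hm⟩ | ⟨m, hm⟩
    · exact ⟨m, 0, by omega⟩
    · exact ⟨m - 1, 1, by omega⟩
  refine ⟨a, b, hab, ((LOne_E4s.pow a).mul (LOne_E6s.pow b)).cast (by omega), ?_⟩
  rw [PowerSeries.coeff_zero_eq_constantCoeff_apply, map_mul, map_pow, map_pow,
    ← PowerSeries.coeff_zero_eq_constantCoeff_apply,
    ← PowerSeries.coeff_zero_eq_constantCoeff_apply, coeff_zero_E4s, coeff_zero_E6s]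
  simp

/-- Subtracting the constant term. -/
theorem LOne.sub_mono {k : ℕ} {C M : PowerSeries ℤ} (hC : LOne k C) (hM : LOne k M)
    (h1 : M.coeff 0 = 1) :
    C = C.coeff 0 • M ∨ ∃ (j : ℕ) (D : PowerSeries ℤ), k = j + 6 ∧ LOne j D ∧
      C = C.coeff 0 • M + Ds * D := by
  have h := (hC.sub (hM.zsmul (C.coeff 0))).exists_Ds_mul (by
    rw [map_sub, map_zsmul, h1, smul_eq_mul, mul_one, sub_self])
  rcases h with h | ⟨j, D, hj, hD, h⟩
  · exact Or.inl (sub_eq_zero.mp h)
  · exact Or.inr ⟨j, D, hj, hD, by rw [← h]; ring⟩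

theorem LOne.eq_of_two {C : PowerSeries ℤ} (hC : LOne 2 C) : C = C.coeff 0 • E4s := by
  rcases hC.sub_mono LOne_E4s coeff_zero_E4s with h | ⟨j, D, hj, -⟩
  · exact h
  · omega

theorem LOne.eq_of_three {C : PowerSeries ℤ} (hC : LOne 3 C) : C = C.coeff 0 • E6s := by
  rcases hC.sub_mono LOne_E6s coeff_zero_E6s with h | ⟨j, D, hj, -⟩
  · exact h
  · omega

theorem LOne.eq_of_zero {C : PowerSeries ℤ} (hC : LOne 0 C) : C = C.coeff 0 • 1 := by
  rcases hC.sub_mono LOne.one (by simp) with h | ⟨j, D, hj, -⟩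
  · exact h
  · omega

theorem LOne.eq_zero_of_seven {C : PowerSeries ℤ} (hC : LOne 7 C) (h0 : C.coeff 0 = 0) :
    C = 0 := by
  rcases hC.exists_Ds_mul h0 with h | ⟨j, D, hj, hD, h⟩
  · exact h
  · obtain rfl : j = 1 := by omega
    rw [h, hD.eq_zero_of_one, mul_zero]

theorem LOne.eq_of_six {C : PowerSeries ℤ} (hC : LOne 6 C) (h0 : C.coeff 0 = 0) :
    C = C.coeff 1 • Ds := by
  rcases hC.exists_Ds_mul h0 with h | ⟨j, D, hj, hD, h⟩
  · rw [h]; simp
  · obtain rfl : j = 0 := by omega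
    have h2 : C = D.coeff 0 • Ds := by
      rw [h]
      conv_lhs => rw [hD.eq_of_zero]
      rw [mul_smul_comm, mul_one]
    have h3 : C.coeff 1 = D.coeff 0 := by
      rw [h2, map_zsmul, coeff_one_Ds]
      simp
    rw [h3]
    exact h2

/-- Sturm's theorem modulo `m` in level one. -/
theorem LOne.sturm {k : ℕ} {C : PowerSeries ℤ} (hC : LOne k C) {m : ℤ}
    (h : ∀ n, 6 * n ≤ k → m ∣ C.coeff n) (n : ℕ) : m ∣ C.coeff n := by
  induction k using Nat.strong_induction_on generalizing C n with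
  | _ k ih =>
    by_cases hk : k = 1
    · subst hk
      rw [hC.eq_zero_of_one]
      simp
    · obtain ⟨a, b, -, hM, hM1⟩ := exists_mono hk
      set M := E4s ^ a * E6s ^ b
      have h0 : m ∣ C.coeff 0 := h 0 (by omega)
      have hcM : ∀ n, m ∣ (C.coeff 0 • M).coeff n := fun n => by
        rw [map_zsmul, smul_eq_mul]
        exact Dvd.dvd.mul_right h0 _
      rcases hC.sub_mono hM hM1 with h1 | ⟨j, D, hj, hD, h1⟩
      · rw [h1]
        exact hcM n
      · have h2 : ∀ i, 6 * i ≤ k → m ∣ (Ds * D).coeff i := by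
          intro i hi
          have h3 : Ds * D = C - C.coeff 0 • M := by
            rw [eq_sub_iff_add_eq, add_comm]
            exact h1.symm
          rw [h3, map_sub]
          exact dvd_sub (h i hi) (hcM i)
        have h4 : ∀ i, m ∣ D.coeff i := fun i => ih j (by omega) hD (fun i hi =>
          dvd_coeff_of_Ds_mul (n := i) (fun t ht => h2 t (by omega)) i le_rfl) i
        rw [h1, map_add]
        refine dvd_add (hcM n) ?_
        rw [PowerSeries.coeff_mul]
        exact Finset.dvd_sum fun x _ => Dvd.dvd.mul_left (h4 _) _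

end Fermat.Agent.S16

end
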