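import Mathlib
import Fermat.Agent.S16.LevelOne
import Fermat.Agent.Genus.Elliptic

/-!
# No constant forms of weight `2 l^b` modulo `l ≥ 5` in level one
-/

set_option autoImplicit false

noncomputable section

open UpperHalfPlane ModularForm MatrixGroups EisensteinSeries

namespace Fermat.Agent.S16

/-! ### Functions represented by integral `q`-series -/

/-- `F` is a level one form of weight `2k` with `q`-expansion `C`. -/
def Rep (k : ℕ) (C : PowerSeries ℤ) (F : ℍ → ℂ) : Prop :=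
  ∃ G : ModularForm 𝒮ℒ ((2 * k : ℕ) : ℤ), (G : ℍ → ℂ) = F ∧ qExpansion 1 F = toC C

theorem LOne.exists_rep {k : ℕ} {C : PowerSeries ℤ} (h : LOne k C) : ∃ F, Rep k C F := by
  obtain ⟨G, hG⟩ := h
  exact ⟨G, G, rfl, hG⟩

theorem Rep.cast {k l : ℕ} {C : PowerSeries ℤ} {F : ℍ → ℂ} (h : Rep k C F) (hkl : k = l) :
    Rep l C F := hkl ▸ h

theorem Rep.add {k : ℕ} {C D : PowerSeries ℤ} {F H : ℍ → ℂ} (hC : Rep k C F)
    (hD : Rep k D H) : Rep k (C + D) (F + H) := by
  obtain ⟨G, rfl, hG⟩ := hC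
  obtain ⟨G', rfl, hG'⟩ := hD
  refine ⟨G + G', rfl, ?_⟩
  rw [ModularForm.qExpansion_add one_pos one_mem_strictPeriods_SL, hG, hG', toC_add]

theorem Rep.zsmul {k : ℕ} {C : PowerSeries ℤ} {F : ℍ → ℂ} (hC : Rep k C F) (n : ℤ) :
    Rep k (n • C) ((n : ℂ) • F) := by
  obtain ⟨G, rfl, hG⟩ := hC
  refine ⟨(n : ℂ) • G, rfl, ?_⟩
  rw [ModularForm.qExpansion_smul one_pos one_mem_strictPeriods_SL, hG, toC_zsmul]

theorem Rep.zero (k : ℕ) : Rep k 0 0 := by
  refine ⟨0, rfl, ?_⟩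
  rw [qExpansion_zero, toC_zero]

theorem Rep.one : Rep 0 1 1 := by
  refine ⟨ModularForm.mcast (by simp) (1 : ModularForm 𝒮ℒ 0), rfl, ?_⟩
  have := ModularForm.qExpansion_one (Γ := 𝒮ℒ) (h := 1)
  rw [toC_one, ← this]
  rfl

theorem Rep.mul {a b : ℕ} {C D : PowerSeries ℤ} {F H : ℍ → ℂ} (hC : Rep a C F)
    (hD : Rep b D H) : Rep (a + b) (C * D) (F * H) := by
  obtain ⟨G, rfl, hG⟩ := hC
  obtain ⟨G', rfl, hG'⟩ := hD
  refine ⟨ModularForm.mcast (by push_cast; ring) (G.mul G'), rfl, ?_⟩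
  have := ModularForm.qExpansion_mul one_pos one_mem_strictPeriods_SL G G'
  rw [toC_mul, ← hG, ← hG', ← this]
  rfl

theorem Rep.pow {a : ℕ} {C : PowerSeries ℤ} {F : ℍ → ℂ} (hC : Rep a C F) (n : ℕ) :
    Rep (n * a) (C ^ n) (F ^ n) := by
  induction n with
  | zero => simpa using Rep.one
  | succ n ih =>
    rw [pow_succ, pow_succ]
    exact (ih.mul hC).cast (by ring)

theorem Rep.sum {ι : Type*} (s : Finset ι) {k : ℕ} {C : ι → PowerSeries ℤ} {F : ι → ℍ → ℂ}
    (h : ∀ i ∈ s, Rep k (C i) (F i)) : Rep k (∑ i ∈ s, C i) (∑ i ∈ s, F i) := by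
  classical
  induction s using Finset.induction_on with
  | empty => simpa using Rep.zero k
  | insert a s ha ih =>
    rw [Finset.sum_insert ha, Finset.sum_insert ha]
    exact (h a (by simp)).add (ih fun i hi => h i (by simp [hi]))

theorem Rep.unique {k : ℕ} {C : PowerSeries ℤ} {F H : ℍ → ℂ} (hF : Rep k C F)
    (hH : Rep k C H) : F = H := by
  obtain ⟨G, rfl, hG⟩ := hF
  obtain ⟨G', rfl, hG'⟩ := hH
  have h : qExpansion 1 ((G - G' : ModularForm 𝒮ℒ ((2 * k : ℕ) : ℤ))) = 0 := by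
    rw [FunLike.coe_sub, ModularForm.qExpansion_sub one_pos one_mem_strictPeriods_SL, hG, hG',
      sub_self]
  rw [ModularForm.qExpansion_eq_zero_iff one_pos one_mem_strictPeriods_SL] at h
  rw [sub_eq_zero.mp h]

theorem Rep_E4 : Rep 2 E4s E₄ :=
  ⟨ModularForm.mcast (by norm_num) E₄, rfl, qExpansion_E4⟩

theorem Rep_E6 : Rep 3 E6s E₆ :=
  ⟨ModularForm.mcast (by norm_num) E₆, rfl, qExpansion_E6⟩

theorem Rep_Ds : Rep 6 Ds ModularForm.discriminant :=
  ⟨ModularForm.mcast (by norm_num) (CuspForm.toModularFormₗ CuspForm.discriminant), rfl,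
    qExpansion_discriminant⟩

/-! ### Vanishing at the elliptic points -/

theorem Rep.slash {k : ℕ} {C : PowerSeries ℤ} {F : ℍ → ℂ} (hF : Rep k C F) (g : SL(2, ℤ)) :
    F ∣[((2 * k : ℕ) : ℤ)] g = F := by
  obtain ⟨G, rfl, -⟩ := hF
  exact G.slash_action_eq' _ ⟨g, rfl⟩

theorem Rep.eq_zero_at_I {k : ℕ} {C : PowerSeries ℤ} {F : ℍ → ℂ} (hF : Rep k C F)
    (hk : Odd k) : F UpperHalfPlane.I = 0 := by
  have h := congrFun (hF.slash ModularGroup.S) UpperHalfPlane.I
  rw [SL_slash_apply, Genus.S_smul_I, ModularGroup.denom_S, UpperHalfPlane.coe_I] at h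
  obtain ⟨m, rfl⟩ := hk
  have h2 : (Complex.I) ^ (-((2 * (2 * m + 1) : ℕ) : ℤ)) = -1 := by
    rw [zpow_neg, zpow_natCast, pow_mul, Complex.I_sq, Odd.neg_one_pow ⟨m, rfl⟩]
    norm_num
  rw [h2] at h
  linear_combination (-1 / 2 : ℂ) * h

theorem Rep.eq_zero_at_rho {k : ℕ} {C : PowerSeries ℤ} {F : ℍ → ℂ} (hF : Rep k C F)
    (hk : ¬ 3 ∣ k) : F UpperHalfPlane.ρ = 0 := by
  have h := congrFun (hF.slash (ModularGroup.S * ModularGroup.T)) UpperHalfPlane.ρ
  rw [SL_slash_apply, Genus.ST_smul_rho, Genus.denom_ST_rho] at h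
  have hr := Genus.rho_sq
  set r : ℂ := (UpperHalfPlane.ρ : ℂ)
  have hr3 : r ^ 3 = 1 := by linear_combination (r - 1) * hr
  have h1 : (r + 1) ^ 2 = r := by linear_combination hr
  have hr1 : r ≠ 1 := by
    intro h
    rw [h] at hr
    norm_num at hr
  have h2 : (r + 1) ^ (-((2 * k : ℕ) : ℤ)) = (r ^ k)⁻¹ := by
    rw [zpow_neg, zpow_natCast, pow_mul, h1]
  rw [h2] at h
  have h3 : r ^ k ≠ 1 := by
    intro h4
    have h5 : r ^ (k % 3) = 1 := by
      have := h4
      rw [← Nat.div_add_mod k 3, pow_add, pow_mul, hr3, one_pow, one_mul] at this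
      exact this
    have h6 : k % 3 = 1 ∨ k % 3 = 2 := by omega
    rcases h6 with h6 | h6
    · rw [h6, pow_one] at h5
      exact hr1 h5
    · rw [h6] at h5
      apply hr1
      have h7 : r + 2 = 0 := by linear_combination hr - h5
      have h8 : r = -2 := by linear_combination h7
      rw [h8] at h5
      norm_num at h5
  by_contra h0
  have h4 : (r ^ k)⁻¹ = 1 := mul_left_cancel₀ h0 (by rw [h, mul_one])
  exact h3 (inv_eq_one.mp h4)

/-! ### Expansion in powers of `Δ` -/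

theorem LOne.expand (m : ℤ) (M : ℕ) {C : PowerSeries ℤ} (hC : LOne (6 * M) C)
    (h : ∀ i < M, m ∣ C.coeff i) : ∃ d : ℕ → ℤ,
      C = ∑ i ∈ Finset.range (M + 1), d i • (E4s ^ (3 * (M - i)) * Ds ^ i) ∧
      ∀ i < M, m ∣ d i := by
  induction M generalizing C with
  | zero =>
    refine ⟨fun _ => C.coeff 0, ?_, fun i hi => absurd hi (Nat.not_lt_zero i)⟩
    have := (hC.cast (by norm_num) : LOne 0 C).eq_of_zero
    simpa using this
  | succ M ih =>
    have hE : LOne (6 * (M + 1)) (E4s ^ (3 * (M + 1))) := (LOne_E4s.pow _).cast (by ring)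
    have hE0 : (E4s ^ (3 * (M + 1))).coeff 0 = 1 := by
      rw [PowerSeries.coeff_zero_eq_constantCoeff_apply, map_pow,
        ← PowerSeries.coeff_zero_eq_constantCoeff_apply, coeff_zero_E4s, one_pow]
    have h0 : m ∣ C.coeff 0 := h 0 (by omega)
    obtain ⟨D, hD, hCD⟩ : ∃ D, LOne (6 * M) D ∧
        C = C.coeff 0 • E4s ^ (3 * (M + 1)) + Ds * D := by
      rcases hC.sub_mono hE hE0 with h1 | ⟨j, D, hj, hD, h1⟩
      · exact ⟨0, LOne.zero _, by rw [mul_zero, add_zero]; exact h1⟩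
      · exact ⟨D, hD.cast (by omega), h1⟩
    have hDd : ∀ i < M, m ∣ D.coeff i := by
      intro i hi
      refine dvd_coeff_of_Ds_mul (n := i) (fun t ht => ?_) i le_rfl
      have h3 : Ds * D = C - C.coeff 0 • E4s ^ (3 * (M + 1)) := by
        rw [eq_sub_iff_add_eq, add_comm]
        exact hCD.symm
      rw [h3, map_sub, map_zsmul, smul_eq_mul]
      exact dvd_sub (h t (by omega)) (Dvd.dvd.mul_right h0 _)
    obtain ⟨d, hd, hd'⟩ := ih hD hDd
    refine ⟨fun i => Nat.casesOn i (C.coeff 0) d, ?_, ?_⟩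
    · rw [Finset.sum_range_succ']
      have h4 : Ds * D = ∑ k ∈ Finset.range (M + 1),
          d k • (E4s ^ (3 * (M + 1 - (k + 1))) * Ds ^ (k + 1)) := by
        conv_lhs => rw [hd]
        rw [Finset.mul_sum]
        refine Finset.sum_congr rfl fun k _ => ?_
        rw [show M + 1 - (k + 1) = M - k by omega, mul_smul_comm]
        congr 1
        ring
      rw [← h4, add_comm]
      simpa using hCD
    · intro i hi
      cases i with
      | zero => exact h0
      | succ i => exact hd' i (by omega)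

/-! ### The main statement -/

theorem LOne.const_mod {l b : ℕ} (hl : l.Prime) (hl5 : 5 ≤ l) {C : PowerSeries ℤ}
    (hC : LOne (l ^ b) C) (h : ∀ n, 1 ≤ n → (l : ℤ) ∣ C.coeff n) : (l : ℤ) ∣ C.coeff 0 := by
  have := Fact.mk hl
  have : CharP (PowerSeries (ZMod l)) l :=
    charP_of_injective_ringHom (f := (PowerSeries.C : ZMod l →+* PowerSeries (ZMod l)))
      (fun a b hab => by
        have := congrArg PowerSeries.constantCoeff hab
        simpa using this) l
  obtain ⟨F, hF⟩ := hC.exists_rep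
  set N := l ^ b with hN
  have hNpos : 0 < N := pow_pos hl.pos b
  have hNodd : Odd N := by
    refine Odd.pow (hl.odd_of_ne_two (by omega))
  have hN3 : ¬ 3 ∣ N := by
    intro h3
    have := (Nat.prime_dvd_prime_iff_eq Nat.prime_three hl).mp (Nat.prime_three.dvd_of_dvd_pow h3)
    omega
  set c := C.coeff 0 with hc
  obtain ⟨M, hM⟩ : ∃ M, N = M + 1 := ⟨N - 1, by omega⟩
  have hC6 : LOne (6 * (M + 1)) (C ^ 6) := (hC.pow 6).cast (by rw [hM])
  have hE : LOne (6 * (M + 1)) (E4s ^ (3 * (M + 1))) := (LOne_E4s.pow _).cast (by ring)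
  have hE0 : (E4s ^ (3 * (M + 1))).coeff 0 = 1 := by
    rw [PowerSeries.coeff_zero_eq_constantCoeff_apply, map_pow,
      ← PowerSeries.coeff_zero_eq_constantCoeff_apply, coeff_zero_E4s, one_pow]
  -- congruence modulo `l`
  have hcong : ∀ i < M + 1, (l : ℤ) ∣ (C ^ 6 - c ^ 6 • E4s ^ (3 * (M + 1))).coeff i := by
    intro i hi
    let φ := PowerSeries.map (Int.castRingHom (ZMod l))
    have h1 : φ C = PowerSeries.C (c : ZMod l) := by
      ext n
      rw [PowerSeries.coeff_map, PowerSeries.coeff_C]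
      split_ifs with hn
      · subst hn; simp [hc]
      · simp only [eq_intCast]
        exact (ZMod.intCast_zmod_eq_zero_iff_dvd _ l).mpr (h n (by omega))
    have h2 : (PowerSeries.X : PowerSeries (ZMod l)) ∣ 1 - φ E4s ^ 3 := by
      rw [PowerSeries.X_dvd_iff]
      have h3 : PowerSeries.constantCoeff (φ E4s) = 1 := by
        rw [← PowerSeries.coeff_zero_eq_constantCoeff_apply, PowerSeries.coeff_map,
          coeff_zero_E4s]
        simp
      rw [map_sub, map_pow, h3]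
      simp
    have h4 : (PowerSeries.X : PowerSeries (ZMod l)) ^ (M + 1) ∣
        φ (C ^ 6 - c ^ 6 • E4s ^ (3 * (M + 1))) := by
      have h5 : φ (C ^ 6 - c ^ 6 • E4s ^ (3 * (M + 1))) =
          PowerSeries.C ((c : ZMod l) ^ 6) * (1 - φ E4s ^ 3) ^ (M + 1) := by
        rw [← hM, hN, sub_pow_char_pow, one_pow, map_sub, map_pow, h1, map_zsmul, map_pow,
          pow_mul, zsmul_eq_mul, mul_sub, mul_one, map_pow]
        congr 1
        push_cast
        congr 2
        rw [← map_intCast (PowerSeries.C : ZMod l →+* PowerSeries (ZMod l)) c]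
      rw [h5]
      exact Dvd.dvd.mul_left (pow_dvd_pow_of_dvd h2 _) _
    have h6 := (PowerSeries.X_pow_dvd_iff.mp h4) i hi
    rw [PowerSeries.coeff_map] at h6
    exact (ZMod.intCast_zmod_eq_zero_iff_dvd _ l).mp h6
  -- expansion
  obtain ⟨D, hD, hCD⟩ : ∃ D, LOne (6 * M) D ∧ C ^ 6 = c ^ 6 • E4s ^ (3 * (M + 1)) + Ds * D := by
    have hc6 : (C ^ 6).coeff 0 = c ^ 6 := by
      rw [PowerSeries.coeff_zero_eq_constantCoeff_apply, map_pow,
        ← PowerSeries.coeff_zero_eq_constantCoeff_apply]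
    have := hC6.sub_mono hE hE0
    rw [hc6] at this
    rcases this with h1 | ⟨j, D, hj, hD, h1⟩
    · exact ⟨0, LOne.zero _, by rw [mul_zero, add_zero]; exact h1⟩
    · exact ⟨D, hD.cast (by omega), h1⟩
  have hDd : ∀ i < M, (l : ℤ) ∣ D.coeff i := by
    intro i hi
    refine dvd_coeff_of_Ds_mul (n := i) (fun t ht => ?_) i le_rfl
    have h3 : Ds * D = C ^ 6 - c ^ 6 • E4s ^ (3 * (M + 1)) := by
      rw [eq_sub_iff_add_eq, add_comm]
      exact hCD.symm
    rw [h3]
    exact hcong t (by omega)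
  obtain ⟨d, hd, hd'⟩ := hD.expand _ M hDd
  -- the functional identity
  have hrep1 : Rep (6 * (M + 1)) (C ^ 6) (F ^ 6) := (hF.pow 6).cast (by rw [hM])
  have hrep2 : Rep (6 * (M + 1)) (C ^ 6) (((c ^ 6 : ℤ) : ℂ) • (E₄ : ℍ → ℂ) ^ (3 * (M + 1)) +
      ModularForm.discriminant * ∑ i ∈ Finset.range (M + 1),
        ((d i : ℤ) : ℂ) • ((E₄ : ℍ → ℂ) ^ (3 * (M - i)) * ModularForm.discriminant ^ i)) := by
    rw [hCD, hd]
    refine Rep.add (((Rep_E4.pow _).cast (by ring)).zsmul _) ?_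
    refine (Rep.mul Rep_Ds (Rep.sum (k := 6 * M) _ fun i hi => ?_)).cast (by ring)
    refine Rep.zsmul ?_ _
    refine ((Rep_E4.pow _).mul (Rep_Ds.pow _)).cast ?_
    have := Finset.mem_range.mp hi
    obtain ⟨t, ht⟩ : ∃ t, M = i + t := ⟨M - i, by omega⟩
    rw [ht, Nat.add_sub_cancel_left]
    ring
  have hfun := hrep1.unique hrep2
  -- evaluation at `ρ`
  have hρ := congrFun hfun UpperHalfPlane.ρ
  have hE4ρ : E₄ UpperHalfPlane.ρ = 0 := Rep_E4.eq_zero_at_rho (by norm_num)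
  simp only [Pi.add_apply, Pi.mul_apply, Pi.pow_apply, Pi.smul_apply, Finset.sum_apply,
    hE4ρ, hF.eq_zero_at_rho hN3, smul_eq_mul] at hρ
  rw [Finset.sum_range_succ, Finset.sum_eq_zero (fun i hi => by
    have := Finset.mem_range.mp hi
    rw [zero_pow (by omega : 3 * (M - i) ≠ 0)]
    ring)] at hρ
  rw [zero_pow (by norm_num), zero_pow (by omega), mul_zero, zero_add, zero_add, Nat.sub_self,
    mul_zero, pow_zero, one_mul] at hρ
  have hdM : d M = 0 := by
    have h1 := mul_eq_zero.mp hρ.symm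
    rcases h1 with h1 | h1
    · exact absurd h1 (ModularForm.discriminant_ne_zero _)
    · rcases mul_eq_zero.mp h1 with h2 | h2
      · exact_mod_cast h2
      · exact absurd h2 (pow_ne_zero _ (ModularForm.discriminant_ne_zero _))
  -- evaluation at `i`
  have hI := congrFun hfun UpperHalfPlane.I
  have hE6I : E₆ UpperHalfPlane.I = 0 := Rep_E6.eq_zero_at_I (by decide)
  have hE4I : E₄ UpperHalfPlane.I ^ 3 = 1728 * ModularForm.discriminant UpperHalfPlane.I := by
    have := discriminant_eq_E₄_cube_sub_E₆_sq UpperHalfPlane.I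
    rw [hE6I] at this
    rw [this]
    ring
  simp only [Pi.add_apply, Pi.mul_apply, Pi.pow_apply, Pi.smul_apply, Finset.sum_apply,
    hF.eq_zero_at_I hNodd, smul_eq_mul, pow_mul, hE4I] at hI
  have hD0 : ModularForm.discriminant UpperHalfPlane.I ≠ 0 := ModularForm.discriminant_ne_zero _
  have hsum : ∑ i ∈ Finset.range (M + 1), ((d i : ℤ) : ℂ) *
      ((1728 * ModularForm.discriminant UpperHalfPlane.I) ^ (M - i) *
        ModularForm.discriminant UpperHalfPlane.I ^ i) =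
      ModularForm.discriminant UpperHalfPlane.I ^ M *
        ∑ i ∈ Finset.range (M + 1), ((d i : ℤ) : ℂ) * 1728 ^ (M - i) := by
    rw [Finset.mul_sum]
    refine Finset.sum_congr rfl fun i hi => ?_
    have := Finset.mem_range.mp hi
    obtain ⟨t, ht⟩ : ∃ t, M = i + t := ⟨M - i, by omega⟩
    rw [ht, Nat.add_sub_cancel_left]
    ring
  rw [hsum] at hI
  have hZ : (c ^ 6 * 1728 ^ (M + 1) + ∑ i ∈ Finset.range (M + 1), d i * 1728 ^ (M - i) : ℤ)
      = 0 := by
    have h1 : ((c ^ 6 : ℤ) : ℂ) * 1728 ^ (M + 1) +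
        ∑ i ∈ Finset.range (M + 1), ((d i : ℤ) : ℂ) * 1728 ^ (M - i) = 0 := by
      have h2 : ModularForm.discriminant UpperHalfPlane.I ^ (M + 1) *
          (((c ^ 6 : ℤ) : ℂ) * 1728 ^ (M + 1) +
            ∑ i ∈ Finset.range (M + 1), ((d i : ℤ) : ℂ) * 1728 ^ (M - i)) = 0 := by
        have h3 : (0 : ℂ) = 0 ^ 6 := by norm_num
        rw [h3, hI]
        ring
      exact (mul_eq_zero.mp h2).resolve_left (pow_ne_zero _ hD0)
    exact_mod_cast h1
  have hdvd : (l : ℤ) ∣ c ^ 6 * 1728 ^ (M + 1) := by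
    have h1 : (l : ℤ) ∣ ∑ i ∈ Finset.range (M + 1), d i * 1728 ^ (M - i) := by
      refine Finset.dvd_sum fun i hi => Dvd.dvd.mul_right ?_ _
      by_cases hiM : i = M
      · rw [hiM, hdM]
        exact dvd_zero _
      · exact hd' i (by have := Finset.mem_range.mp hi; omega)
    have h2 := eq_neg_of_add_eq_zero_left hZ
    rw [h2]
    exact (dvd_neg).mpr h1
  have hlZ : Prime (l : ℤ) := Nat.prime_iff_prime_int.mp hl
  rcases hlZ.dvd_or_dvd hdvd with h1 | h1
  · exact hlZ.dvd_of_dvd_pow h1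
  · exfalso
    have h2 := hlZ.dvd_of_dvd_pow h1
    have h3 : l ∣ 1728 := by exact_mod_cast h2
    have h4 : l ∣ 2 ^ 6 * 3 ^ 3 := by norm_num; exact h3
    rcases (hl.dvd_mul).mp h4 with h5 | h5
    · have := (Nat.prime_dvd_prime_iff_eq hl Nat.prime_two).mp (hl.dvd_of_dvd_pow h5)
      omega
    · have := (Nat.prime_dvd_prime_iff_eq hl Nat.prime_three).mp (hl.dvd_of_dvd_pow h5)
      omega

end Fermat.Agent.S16

end
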