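import Fermat.Agent.HeckePar.Commute
import Fermat.Prelude.Def_ModularCurve_ModularUnit
import Mathlib.RingTheory.IntegralDomain

/-!
# The logarithm of the `(0,0)` entry on `Γ₀(p)` modulo `num ((p-1)/12)`
-/

set_option autoImplicit false

noncomputable section

open CongruenceSubgroup ModularCurve
open scoped MatrixGroups

namespace Fermat.Agent.S16

section Log

variable (p : ℕ) [hp : Fact p.Prime]

theorem exists_log : ∃ L : (ZMod p)ˣ →* Multiplicative (ZMod (eisensteinNumerator p)),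
    Function.Surjective L ∧ ∀ x, x ^ 12 = 1 → L x = 1 := by
  have hcard : Nat.card (ZMod p)ˣ = p - 1 := by
    rw [Nat.card_eq_fintype_card, ZMod.card_units_eq_totient, Nat.totient_prime hp.out]
  have hdvd : eisensteinNumerator p ∣ Nat.card (ZMod p)ˣ := by
    rw [hcard]; exact eisensteinNumerator_dvd p
  let e := zmodCyclicMulEquiv (G := (ZMod p)ˣ) inferInstance
  let c : ZMod (Nat.card (ZMod p)ˣ) →+* ZMod (eisensteinNumerator p) := ZMod.castHom hdvd _
  refine ⟨(AddMonoidHom.toMultiplicative c.toAddMonoidHom).comp e.symm.toMonoidHom, ?_, ?_⟩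
  · intro y
    obtain ⟨z, hz⟩ := ZMod.castHom_surjective hdvd (Multiplicative.toAdd y)
    refine ⟨e (Multiplicative.ofAdd z), ?_⟩
    change Multiplicative.ofAdd (c (Multiplicative.toAdd (e.symm (e (Multiplicative.ofAdd z))))) = y
    rw [MulEquiv.symm_apply_apply]
    change Multiplicative.ofAdd (ZMod.castHom hdvd _ z) = y
    rw [hz]
    rfl
  · intro x hx
    change Multiplicative.ofAdd (c (Multiplicative.toAdd (e.symm x))) = 1
    rw [← ofAdd_zero]
    congr 1
    set y : ZMod (Nat.card (ZMod p)ˣ) := Multiplicative.toAdd (e.symm x) with hy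
    have h1 : 12 • y = 0 := by
      rw [hy, ← toAdd_pow, ← map_pow, hx, map_one, toAdd_one]
    have hpos : 0 < p - 1 := Nat.sub_pos_of_lt hp.out.one_lt
    have : NeZero (Nat.card (ZMod p)ˣ) := ⟨by rw [hcard]; omega⟩
    have h2 : (p - 1) ∣ 12 * y.val := by
      rw [← hcard, ← ZMod.natCast_eq_zero_iff, Nat.cast_mul, ZMod.natCast_zmod_val, ← h1,
        nsmul_eq_mul]
    have h3 : eisensteinNumerator p ∣ y.val := by
      set g := Nat.gcd (p - 1) 12 with hg
      have hg0 : 0 < g := Nat.gcd_pos_of_pos_left _ hpos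
      obtain ⟨a, ha⟩ := Nat.gcd_dvd_left (p - 1) 12
      obtain ⟨b, hb⟩ := Nat.gcd_dvd_right (p - 1) 12
      rw [← hg] at ha hb
      have hcop : Nat.Coprime a b := by
        have := Nat.coprime_div_gcd_div_gcd (m := p - 1) (n := 12) (by rw [← hg]; exact hg0)
        rw [← hg] at this
        rwa [show (p - 1) / g = a by rw [ha]; exact Nat.mul_div_cancel_left _ hg0,
          show 12 / g = b by rw [hb]; exact Nat.mul_div_cancel_left _ hg0] at this
      have h4 : eisensteinNumerator p = a := by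
        rw [eisensteinNumerator, ← hg, ha]
        exact Nat.mul_div_cancel_left _ hg0
      rw [h4]
      rw [ha] at h2
      have h5 : g * a ∣ g * (b * y.val) := by
        rw [← mul_assoc, ← hb]; exact h2
      exact hcop.dvd_of_dvd_mul_left (Nat.dvd_of_mul_dvd_mul_left hg0 h5)
    have h6 : y = ((y.val : ℕ) : ZMod (Nat.card (ZMod p)ˣ)) := (ZMod.natCast_zmod_val y).symm
    rw [h6, map_natCast, ZMod.natCast_eq_zero_iff]
    exact h3

/-- the discrete logarithm `(ZMod p)ˣ → ZMod n`, `n = num ((p-1)/12)`, extended by zero. -/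
def lg (x : ZMod p) : ZMod (eisensteinNumerator p) :=
  if h : x = 0 then 0 else Multiplicative.toAdd ((exists_log p).choose (Units.mk0 x h))

theorem lg_mul {x y : ZMod p} (hx : x ≠ 0) (hy : y ≠ 0) : lg p (x * y) = lg p x + lg p y := by
  rw [lg, lg, lg, dif_neg hx, dif_neg hy, dif_neg (mul_ne_zero hx hy), ← toAdd_mul, ← map_mul]
  congr 2
  ext
  simp

theorem lg_one : lg p 1 = 0 := by
  have := lg_mul p (x := 1) (y := 1) one_ne_zero one_ne_zero
  rw [mul_one] at this
  simpa using this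

theorem lg_eq_zero_of_pow {x : ZMod p} (hx : x ^ 12 = 1) : lg p x = 0 := by
  rw [lg]
  split_ifs with h
  · rfl
  · rw [(exists_log p).choose_spec.2 _ (by ext; simpa using hx)]
    rfl

theorem exists_lg_eq (c : ZMod (eisensteinNumerator p)) : ∃ x : ZMod p, x ≠ 0 ∧ lg p x = c := by
  obtain ⟨u, hu⟩ := (exists_log p).choose_spec.1 (Multiplicative.ofAdd c)
  refine ⟨u, u.ne_zero, ?_⟩
  rw [lg, dif_neg u.ne_zero]
  have : Units.mk0 (u : ZMod p) u.ne_zero = u := by ext; simp
  rw [this, hu]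
  rfl

end Log

variable (p : ℕ) [hp : Fact p.Prime]

theorem entry10 (g : Gamma0 p) : (((g : SL(2, ℤ)) 1 0 : ℤ) : ZMod p) = 0 := Gamma0_mem.mp g.2

theorem entry_mul (g : Gamma0 p) :
    (((g : SL(2, ℤ)) 0 0 : ℤ) : ZMod p) * (((g : SL(2, ℤ)) 1 1 : ℤ) : ZMod p) = 1 := by
  have h := HeckePar.det_SL (g : SL(2, ℤ))
  have h2 := congrArg (Int.cast : ℤ → ZMod p) h
  push_cast at h2
  rw [entry10 p g, mul_zero, sub_zero] at h2
  exact h2

theorem entry00_ne (g : Gamma0 p) : (((g : SL(2, ℤ)) 0 0 : ℤ) : ZMod p) ≠ 0 :=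
  left_ne_zero_of_mul_eq_one (entry_mul p g)

/-- The logarithm of the `(0,0)` entry. -/
def psi : Additive (Gamma0 p) →+ ZMod (eisensteinNumerator p) where
  toFun g := lg p ((((Additive.toMul g : Gamma0 p) : SL(2, ℤ)) 0 0 : ℤ) : ZMod p)
  map_zero' := by
    simp [lg_one]
  map_add' g h := by
    rw [← lg_mul p (entry00_ne p _) (entry00_ne p _), toMul_add, Subgroup.coe_mul,
      Matrix.SpecialLinearGroup.coe_mul, Matrix.mul_apply, Fin.sum_univ_two]
    push_cast
    have := entry10 p (Additive.toMul h)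
    rw [this, mul_zero, add_zero]

theorem psi_ofMul (g : Gamma0 p) :
    psi p (Additive.ofMul g) = lg p (((g : SL(2, ℤ)) 0 0 : ℤ) : ZMod p) := rfl

theorem psi_elliptic (g : Gamma0 p)
    (hg : ((g : SL(2, ℤ)) : Matrix (Fin 2) (Fin 2) ℤ).trace ^ 2 ≤ 4) :
    psi p (Additive.ofMul g) = 0 := by
  rw [psi_ofMul]
  apply lg_eq_zero_of_pow
  set t : ℤ := ((g : SL(2, ℤ)) : Matrix (Fin 2) (Fin 2) ℤ).trace with ht
  rw [Matrix.trace_fin_two] at ht
  have h1 := entry_mul p g
  set a : ZMod p := (((g : SL(2, ℤ)) 0 0 : ℤ) : ZMod p) with ha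
  set d : ZMod p := (((g : SL(2, ℤ)) 1 1 : ℤ) : ZMod p) with hd
  have h2 : a + d = (t : ZMod p) := by
    rw [ht, ha, hd]; push_cast; rfl
  have h3 : a ^ 2 - (t : ZMod p) * a + 1 = 0 := by
    linear_combination a * h2 - h1
  have ht2 : t ≤ 2 := by nlinarith
  have ht3 : -2 ≤ t := by nlinarith
  have hcases : t = -2 ∨ t = -1 ∨ t = 0 ∨ t = 1 ∨ t = 2 := by omega
  rcases hcases with h | h | h | h | h <;> rw [h] at h3 <;> push_cast at h3
  · have h4 : (a + 1) ^ 2 = 0 := by linear_combination h3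
    have h5 : a = -1 := by
      have := pow_eq_zero_iff (two_ne_zero) |>.mp h4
      linear_combination this
    rw [h5]; norm_num
  · have h4 : a ^ 3 = 1 := by linear_combination (a - 1) * h3
    rw [show a ^ 12 = (a ^ 3) ^ 4 by ring, h4, one_pow]
  · have h4 : a ^ 2 = -1 := by linear_combination h3
    rw [show a ^ 12 = (a ^ 2) ^ 6 by ring, h4]; norm_num
  · have h4 : a ^ 3 = -1 := by linear_combination (a + 1) * h3
    rw [show a ^ 12 = (a ^ 3) ^ 4 by ring, h4]; norm_num
  · have h4 : (a - 1) ^ 2 = 0 := by linear_combination h3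
    have h5 : a = 1 := by
      have := pow_eq_zero_iff (two_ne_zero) |>.mp h4
      linear_combination this
    rw [h5, one_pow]

theorem exists_psi_eq (c : ZMod (eisensteinNumerator p)) :
    ∃ g : Gamma0 p, psi p (Additive.ofMul g) = c := by
  obtain ⟨x, hx, hxc⟩ := exists_lg_eq p c
  obtain ⟨a, rfl⟩ := ZMod.intCast_surjective x
  obtain ⟨d, hd⟩ := ZMod.intCast_surjective ((a : ZMod p)⁻¹)
  have h1 : ((a * d : ℤ) : ZMod p) = 1 := by
    push_cast
    rw [hd, mul_inv_cancel₀ hx]
  have h2 : (p : ℤ) ∣ a * d - 1 := by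
    rw [← ZMod.intCast_zmod_eq_zero_iff_dvd]
    push_cast at h1 ⊢
    rw [h1, sub_self]
  obtain ⟨b, hb⟩ := h2
  refine ⟨⟨⟨!![a, b; p, d], by rw [Matrix.det_fin_two_of]; linarith⟩, ?_⟩, ?_⟩
  · rw [Gamma0_mem]
    simp
  · rw [psi_ofMul, ← hxc]
    rfl

open HeckePar in
theorem lg_coc (l : ℕ) [hl : Fact l.Prime] (g : Gamma0 p) (x : HIdx p l) :
    lg p ((intRep l x.1 0 0 : ℤ) : ZMod p) + psi p (Additive.ofMul g) =
      psi p (Additive.ofMul ((heckeSys p l).coc g x)) +
        lg p ((intRep l ((heckeSys p l).act g x).1 0 0 : ℤ) : ZMod p) := by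
  have hne : ∀ y : HIdx p l, ((intRep l y.1 0 0 : ℤ) : ZMod p) ≠ 0 := by
    rintro ⟨y, hy⟩
    cases y with
    | none =>
      simp only [intRep_none, Matrix.of_apply, Matrix.cons_val', Matrix.cons_val_zero,
        Matrix.cons_val_fin_one, Int.cast_natCast]
      rw [Ne, ZMod.natCast_eq_zero_iff]
      intro h
      have : p = l := (Nat.prime_dvd_prime_iff_eq hp.out hl.out).mp h
      exact hy (this ▸ dvd_rfl) rfl
    | some j => simp
  have h := congrFun (congrFun (heckeSys_spec p l g x) 0) 0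
  rw [Matrix.mul_apply, Matrix.mul_apply, Fin.sum_univ_two, Fin.sum_univ_two] at h
  have h2 : intRep l ((heckeSys p l).act g x).1 1 0 = 0 := by
    cases ((heckeSys p l).act g x).1 <;> simp
  rw [h2, mul_zero, add_zero] at h
  have h3 := congrArg (Int.cast : ℤ → ZMod p) h
  push_cast at h3
  have h4 := entry10 p g
  erw [h4] at h3
  rw [mul_zero, add_zero] at h3
  rw [psi_ofMul, psi_ofMul, ← lg_mul p (hne x) (entry00_ne p _), h3,
    lg_mul p (entry00_ne p _) (hne _)]

open HeckePar in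
theorem addTransfer_psi_card (l : ℕ) [hl : Fact l.Prime] (g : Gamma0 p) :
    (heckeSys p l).addTransfer (psi p) (Additive.ofMul g) =
      Fintype.card (HIdx p l) • psi p (Additive.ofMul g) := by
  rw [CosetSys.addTransfer_apply, toMul_ofMul]
  have h : ∀ x : HIdx p l, psi p (Additive.ofMul ((heckeSys p l).coc g x)) =
      psi p (Additive.ofMul g) + (lg p ((intRep l x.1 0 0 : ℤ) : ZMod p) -
        lg p ((intRep l ((heckeSys p l).act g x).1 0 0 : ℤ) : ZMod p)) := fun x => by
    have := lg_coc p l g x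
    linear_combination -this
  rw [Finset.sum_congr rfl fun x _ => h x, Finset.sum_add_distrib, Finset.sum_sub_distrib]
  have h2 : ∑ x, lg p ((intRep l ((heckeSys p l).act g x).1 0 0 : ℤ) : ZMod p) =
      ∑ x : HIdx p l, lg p ((intRep l x.1 0 0 : ℤ) : ZMod p) :=
    Equiv.sum_comp ((heckeSys p l).perm g) (fun x => lg p ((intRep l x.1 0 0 : ℤ) : ZMod p))
  rw [h2, sub_self, add_zero, Finset.sum_const, Finset.card_univ]

open HeckePar in
theorem addTransfer_psi_of_not_dvd (l : ℕ) [hl : Fact l.Prime] (h : ¬ l ∣ p) :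
    (heckeSys p l).addTransfer (psi p) = (1 + l) • psi p := by
  refine AddMonoidHom.ext fun g => ?_
  change (heckeSys p l).addTransfer (psi p) (Additive.ofMul (Additive.toMul g)) = _
  rw [addTransfer_psi_card,
    Fintype.card_congr (hidxEquivOfNotDvd h), Fintype.card_option, ZMod.card, add_comm]
  rfl

open HeckePar in
theorem addTransfer_psi_of_dvd (l : ℕ) [hl : Fact l.Prime] (h : l ∣ p) :
    (heckeSys p l).addTransfer (psi p) = psi p := by
  have hlp : l = p := (Nat.prime_dvd_prime_iff_eq hl.out hp.out).mp h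
  refine AddMonoidHom.ext fun g => ?_
  change (heckeSys p l).addTransfer (psi p) (Additive.ofMul (Additive.toMul g)) = _
  rw [addTransfer_psi_card,
    Fintype.card_congr (hidxEquivOfDvd h), ZMod.card, nsmul_eq_mul]
  have h1 : ((l : ℕ) : ZMod (eisensteinNumerator p)) = 1 := by
    obtain ⟨c, hc⟩ := eisensteinNumerator_dvd p
    have h2 : l = 1 + eisensteinNumerator p * c := by
      rw [← hc, hlp]
      have := hp.out.one_lt
      omega
    rw [h2]
    push_cast
    rw [ZMod.natCast_self, zero_mul, add_zero]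
  rw [h1, one_mul]
  rfl

end Fermat.Agent.S16

end
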