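import Fermat.Agent.S16.LevelOne
import Fermat.Prelude.Def_ModularForm_HeckeOperatorForms
import Fermat.Prelude.Thm_CongruenceSubgroup_one_mem_strictPeriods_Gamma0
import Fermat.Prelude.Thm_ModularFormClass_qCoeff_heckeU
import Mathlib.NumberTheory.ModularForms.LevelOne.DimensionFormula

/-!
# The graded ring of pairs `(f, f | w_p)` and the trace to level one
-/

set_option autoImplicit false

noncomputable section

open UpperHalfPlane CongruenceSubgroup ModularGroup Matrix.SpecialLinearGroup ModularForm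
open scoped MatrixGroups ModularForm Pointwise

namespace Fermat.Agent.S16

/-! ### Power series -/

lemma toC_neg (A : PowerSeries ℤ) : toC (-A) = -toC A := map_neg _ _

lemma coeff_Up {R : Type*} [Semiring R] (p : ℕ) (A : PowerSeries R) (n : ℕ) :
    (Up p A).coeff n = A.coeff (p * n) := by simp [Up]

lemma coeff_Vp {R : Type*} [Semiring R] (p : ℕ) (A : PowerSeries R) (n : ℕ) :
    (Vp p A).coeff n = if p ∣ n then A.coeff (n / p) else 0 := by simp [Vp]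

lemma toC_Up (p : ℕ) (A : PowerSeries ℤ) : toC (Up p A) = Up p (toC A) := by
  ext n; simp [coeff_Up]

lemma toC_Vp (p : ℕ) (A : PowerSeries ℤ) : toC (Vp p A) = Vp p (toC A) := by
  ext n
  simp only [coeff_toC, coeff_Vp]
  split_ifs <;> simp

/-! ### Restriction of modular forms to a subgroup -/

/-- restriction of a modular form to a subgroup -/
def restr {Γ Γ' : Subgroup (GL (Fin 2) ℝ)} {k : ℤ} (h : Γ' ≤ Γ) (f : ModularForm Γ k) :
    ModularForm Γ' k where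
  toFun := f
  slash_action_eq' A hA := f.slash_action_eq' A (h hA)
  holo' := f.holo'
  bdd_at_cusps' hc := f.bdd_at_cusps' (hc.mono h)

@[simp] lemma coe_restr {Γ Γ' : Subgroup (GL (Fin 2) ℝ)} {k : ℤ} (h : Γ' ≤ Γ)
    (f : ModularForm Γ k) : ⇑(restr h f) = ⇑f := rfl

lemma Gamma0_le_SL (N : ℕ) : (Gamma0 N : Subgroup (GL (Fin 2) ℝ)) ≤ 𝒮ℒ :=
  Subgroup.map_le_range _ _

lemma mapGL_coe_apply (γ : SL(2, ℤ)) (i j : Fin 2) :
    ((mapGL ℝ γ : GL (Fin 2) ℝ) : Matrix (Fin 2) (Fin 2) ℝ) i j = ((γ i j : ℤ) : ℝ) := rfl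

lemma mapGL_mem_Gamma0_iff (N : ℕ) (γ : SL(2, ℤ)) :
    (mapGL ℝ γ) ∈ (Gamma0 N : Subgroup (GL (Fin 2) ℝ)) ↔ γ ∈ Gamma0 N := by
  constructor
  · rintro ⟨δ, hδ, h⟩
    rwa [← mapGL_injective h]
  · exact fun h => ⟨γ, h, rfl⟩

/-! ### The matrices `w_p` and `diag(p, 1)` -/

/-- the matrix `(0, -1; p, 0)` -/
def wMat (p : ℕ) [NeZero p] : GL (Fin 2) ℝ :=
  Matrix.GeneralLinearGroup.mkOfDetNeZero !![0, -1; (p : ℝ), 0]
    (by rw [Matrix.det_fin_two_of]; simpa using NeZero.ne p)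

lemma det_wMat (p : ℕ) [NeZero p] : ((wMat p).det : ℝ) = p := by
  rw [Matrix.GeneralLinearGroup.val_det_apply, wMat]
  simp [Matrix.GeneralLinearGroup.mkOfDetNeZero, Matrix.det_fin_two_of]

lemma det_wMat_pos (p : ℕ) [NeZero p] : 0 < ((wMat p).det : ℝ) := by
  rw [det_wMat]; exact_mod_cast Nat.pos_of_ne_zero (NeZero.ne p)

lemma val_wMat (p : ℕ) [NeZero p] :
    ((wMat p : GL (Fin 2) ℝ) : Matrix (Fin 2) (Fin 2) ℝ) = !![0, -1; (p : ℝ), 0] := rfl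

lemma coe_wMat_smul (p : ℕ) [NeZero p] (τ : ℍ) : ((wMat p • τ : ℍ) : ℂ) = -1 / (p * τ) := by
  rw [UpperHalfPlane.coe_smul_of_det_pos (det_wMat_pos p)]
  simp [UpperHalfPlane.num, UpperHalfPlane.denom, val_wMat]

lemma slash_wMat_apply (p : ℕ) [NeZero p] (k : ℤ) (f : ℍ → ℂ) (τ : ℍ) :
    (f ∣[k] wMat p) τ = (p : ℂ) ^ (k - 1) * (p * (τ : ℂ)) ^ (-k) * f (wMat p • τ) := by
  rw [ModularForm.slash_apply, UpperHalfPlane.σ, if_pos (det_wMat_pos p), det_wMat]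
  simp [UpperHalfPlane.denom, val_wMat]
  ring

lemma isW_iff (p κ : ℕ) [NeZero p] (f g : ℍ → ℂ) :
    IsW p κ f g ↔ g = (p : ℂ) ^ (1 - κ : ℤ) • (f ∣[((2 * κ : ℕ) : ℤ)] wMat p) := by
  have hp : (p : ℂ) ≠ 0 := by exact_mod_cast NeZero.ne p
  have key : (p : ℂ) ^ κ = (p : ℂ) ^ (1 - κ : ℤ) * (p : ℂ) ^ (((2 * κ : ℕ) : ℤ) - 1) := by
    rw [← zpow_add₀ hp, ← zpow_natCast]; congr 1; push_cast; ring
  constructor
  · intro h
    funext τ
    rw [Pi.smul_apply, slash_wMat_apply, h τ (wMat p • τ) (coe_wMat_smul p τ), smul_eq_mul, key]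
    push_cast
    ring
  · rintro rfl τ σ hσ
    have : σ = wMat p • τ := by
      ext
      rw [hσ, coe_wMat_smul]
    rw [Pi.smul_apply, slash_wMat_apply, smul_eq_mul, key, this]
    push_cast
    ring

lemma Gamma0_le_conj_wMat (p : ℕ) [NeZero p] :
    (Gamma0 p : Subgroup (GL (Fin 2) ℝ)) ≤
      ConjAct.toConjAct (wMat p)⁻¹ • (Gamma0 p : Subgroup (GL (Fin 2) ℝ)) := by
  rintro _ ⟨γ, hγ, rfl⟩
  rw [Subgroup.mem_pointwise_smul_iff_inv_smul_mem, ← map_inv, inv_inv,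
    ConjAct.toConjAct_smul]
  have hc : ((p : ℕ) : ℤ) ∣ γ 1 0 := by
    have := Gamma0_mem.mp hγ
    exact (ZMod.intCast_zmod_eq_zero_iff_dvd _ _).mp this
  obtain ⟨c, hc⟩ := hc
  have hdet := γ.det_coe
  rw [Matrix.det_fin_two] at hdet
  let δ : SL(2, ℤ) := ⟨!![γ 1 1, -c; -(p * γ 0 1), γ 0 0], by
    rw [Matrix.det_fin_two_of]
    rw [hc] at hdet
    linarith⟩
  refine ⟨δ, ?_, ?_⟩
  · change δ ∈ Gamma0 p
    rw [Gamma0_mem]
    simp [δ]
  · rw [eq_mul_inv_iff_mul_eq]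
    ext i j
    simp only [Units.val_mul, Matrix.mul_apply, Fin.sum_univ_two, mapGL_coe_apply, val_wMat]
    fin_cases i <;> fin_cases j <;> simp [δ, hc, mul_comm]

/-- the matrix `diag(p, 1)` -/
def dMat (p : ℕ) [NeZero p] : GL (Fin 2) ℝ :=
  Matrix.GeneralLinearGroup.mkOfDetNeZero !![(p : ℝ), 0; 0, 1]
    (by rw [Matrix.det_fin_two_of]; simpa using NeZero.ne p)

lemma det_dMat (p : ℕ) [NeZero p] : ((dMat p).det : ℝ) = p := by
  rw [Matrix.GeneralLinearGroup.val_det_apply, dMat]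
  simp [Matrix.GeneralLinearGroup.mkOfDetNeZero, Matrix.det_fin_two_of]

lemma det_dMat_pos (p : ℕ) [NeZero p] : 0 < ((dMat p).det : ℝ) := by
  rw [det_dMat]; exact_mod_cast Nat.pos_of_ne_zero (NeZero.ne p)

lemma val_dMat (p : ℕ) [NeZero p] :
    ((dMat p : GL (Fin 2) ℝ) : Matrix (Fin 2) (Fin 2) ℝ) = !![(p : ℝ), 0; 0, 1] := rfl

lemma coe_dMat_smul (p : ℕ) [NeZero p] (τ : ℍ) : ((dMat p • τ : ℍ) : ℂ) = p * τ := by
  rw [UpperHalfPlane.coe_smul_of_det_pos (det_dMat_pos p)]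
  simp [UpperHalfPlane.num, UpperHalfPlane.denom, val_dMat]

lemma slash_dMat_apply (p : ℕ) [NeZero p] (k : ℤ) (f : ℍ → ℂ) (τ : ℍ) :
    (f ∣[k] dMat p) τ = (p : ℂ) ^ (k - 1) * f (dMat p • τ) := by
  rw [ModularForm.slash_apply, UpperHalfPlane.σ, if_pos (det_dMat_pos p), det_dMat]
  simp [UpperHalfPlane.denom, val_dMat]
  ring

lemma Gamma0_le_conj_dMat (p : ℕ) [NeZero p] :
    (Gamma0 p : Subgroup (GL (Fin 2) ℝ)) ≤
      ConjAct.toConjAct (dMat p)⁻¹ • (𝒮ℒ : Subgroup (GL (Fin 2) ℝ)) := by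
  rintro _ ⟨γ, hγ, rfl⟩
  rw [Subgroup.mem_pointwise_smul_iff_inv_smul_mem, ← map_inv, inv_inv,
    ConjAct.toConjAct_smul]
  have hc : ((p : ℕ) : ℤ) ∣ γ 1 0 := by
    have := Gamma0_mem.mp hγ
    exact (ZMod.intCast_zmod_eq_zero_iff_dvd _ _).mp this
  obtain ⟨c, hc⟩ := hc
  have hdet := γ.det_coe
  rw [Matrix.det_fin_two] at hdet
  let δ : SL(2, ℤ) := ⟨!![γ 0 0, p * γ 0 1; c, γ 1 1], by
    rw [Matrix.det_fin_two_of]
    rw [hc] at hdet
    linarith⟩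
  refine ⟨δ, ?_⟩
  rw [eq_mul_inv_iff_mul_eq]
  ext i j
  simp only [Units.val_mul, Matrix.mul_apply, Fin.sum_univ_two, mapGL_coe_apply, val_dMat]
  fin_cases i <;> fin_cases j <;> simp [δ, hc, mul_comm]

/-! ### API for `IsW` -/

lemma exists_isW (p κ : ℕ) [NeZero p] (f : ModularForm (Gamma0 p) ((2 * κ : ℕ) : ℤ)) :
    ∃ g : ModularForm (Gamma0 p) ((2 * κ : ℕ) : ℤ), IsW p κ f g :=
  ⟨(p : ℂ) ^ (1 - κ : ℤ) • restr (Gamma0_le_conj_wMat p) (ModularForm.translate f (wMat p)),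
    (isW_iff p κ _ _).mpr rfl⟩

lemma exists_point (p : ℕ) [NeZero p] (τ : ℍ) : ∃ σ : ℍ, (σ : ℂ) = -1 / (p * τ) :=
  ⟨wMat p • τ, coe_wMat_smul p τ⟩

namespace IsW

variable {p κ κ' : ℕ} {f g f' g' : ℍ → ℂ}

lemma symm [NeZero p] (h : IsW p κ f g) : IsW p κ g f := by
  intro τ σ hσ
  have hp : (p : ℂ) ≠ 0 := by exact_mod_cast NeZero.ne p
  have hτ : (τ : ℂ) ≠ 0 := τ.ne_zero
  have hσ0 : (σ : ℂ) ≠ 0 := σ.ne_zero
  have hτσ : (τ : ℂ) = -1 / (p * σ) := by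
    rw [hσ]; field_simp
  rw [h σ τ hτσ]
  have h1 : (p * (τ : ℂ)) * (p * (σ : ℂ)) = -p := by
    rw [hσ]; field_simp
  have h2 : ((p * (τ : ℂ)) ^ (-(2 * κ : ℤ))) * ((p * (σ : ℂ)) ^ (-(2 * κ : ℤ))) =
      (p : ℂ) ^ (-(2 * κ : ℤ)) := by
    rw [← mul_zpow, h1, Even.neg_zpow ⟨-(κ : ℤ), by ring⟩]
  calc f τ = (p : ℂ) ^ κ * (p : ℂ) ^ κ * (p : ℂ) ^ (-(2 * κ : ℤ)) * f τ := by
        rw [← zpow_natCast, ← zpow_add₀ hp, ← zpow_add₀ hp,
          show (κ : ℤ) + κ + -(2 * κ : ℤ) = 0 by ring, zpow_zero, one_mul]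
    _ = _ := by rw [← h2]; ring

lemma add (h : IsW p κ f g) (h' : IsW p κ f' g') : IsW p κ (f + f') (g + g') := by
  intro τ σ hσ
  simp only [Pi.add_apply, h τ σ hσ, h' τ σ hσ]
  ring

lemma sub (h : IsW p κ f g) (h' : IsW p κ f' g') : IsW p κ (f - f') (g - g') := by
  intro τ σ hσ
  simp only [Pi.sub_apply, h τ σ hσ, h' τ σ hσ]
  ring

lemma smul (c : ℂ) (h : IsW p κ f g) : IsW p κ (c • f) (c • g) := by
  intro τ σ hσ
  simp only [Pi.smul_apply, h τ σ hσ, smul_eq_mul]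
  ring

lemma mul [NeZero p] (h : IsW p κ f g) (h' : IsW p κ' f' g') :
    IsW p (κ + κ') (f * f') (g * g') := by
  intro τ σ hσ
  have hp : (p : ℂ) ≠ 0 := by exact_mod_cast NeZero.ne p
  have hτ : (τ : ℂ) ≠ 0 := τ.ne_zero
  simp only [Pi.mul_apply, h τ σ hσ, h' τ σ hσ]
  rw [show (-(2 * ((κ + κ' : ℕ) : ℤ)) : ℤ) = -(2 * κ : ℤ) + -(2 * κ' : ℤ) by push_cast; ring,
    zpow_add₀ (mul_ne_zero hp hτ), pow_add]
  ring

lemma one : IsW p 0 (1 : ℍ → ℂ) (1 : ℍ → ℂ) := by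
  intro τ σ hσ
  simp

lemma pow [NeZero p] (h : IsW p κ f g) (n : ℕ) : IsW p (n * κ) (f ^ n) (g ^ n) := by
  induction n with
  | zero => simpa using IsW.one
  | succ n ih =>
    rw [pow_succ, pow_succ, add_mul, one_mul]
    exact ih.mul h

end IsW

/-! ### `V_p` from level one -/

section VpForm

variable {k : ℤ}

/-- `τ ↦ G(pτ)`, as a form on `Γ₀(p)`. -/
def VpForm (p : ℕ) [NeZero p] (G : ModularForm 𝒮ℒ k) : ModularForm (Gamma0 p) k :=
  (p : ℂ) ^ (1 - k) • restr (Gamma0_le_conj_dMat p) (ModularForm.translate G (dMat p))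

lemma VpForm_apply (p : ℕ) [NeZero p] (G : ModularForm 𝒮ℒ k) (τ : ℍ) :
    VpForm p G τ = G (dMat p • τ) := by
  have hp : (p : ℂ) ≠ 0 := by exact_mod_cast NeZero.ne p
  change (p : ℂ) ^ (1 - k) * ((G : ℍ → ℂ) ∣[k] dMat p) τ = _
  rw [slash_dMat_apply, ← mul_assoc, ← zpow_add₀ hp]
  simp

lemma level_one_S (G : ModularForm 𝒮ℒ k) (z σ : ℍ) (h : (σ : ℂ) = -1 / z) :
    G σ = (z : ℂ) ^ k * G z := by
  have hσ : σ = (mapGL ℝ ModularGroup.S) • z := by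
    have : (mapGL ℝ ModularGroup.S) • z = ModularGroup.S • z := rfl
    rw [this, UpperHalfPlane.modular_S_smul]
    ext
    rw [h]
    change _ = (-(z : ℂ))⁻¹
    rw [neg_div, one_div, inv_neg]
  have hmem : mapGL ℝ ModularGroup.S ∈ (𝒮ℒ : Subgroup (GL (Fin 2) ℝ)) := ⟨_, rfl⟩
  rw [hσ, SlashInvariantForm.slash_action_eqn' (γ := mapGL ℝ ModularGroup.S) G hmem z]
  simp only [mapGL_coe_apply]
  simp [ModularGroup.S]

lemma isW_VpForm (p κ : ℕ) [NeZero p] (G : ModularForm 𝒮ℒ ((2 * κ : ℕ) : ℤ)) :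
    IsW p κ G ((p : ℂ) ^ κ • (VpForm p G : ℍ → ℂ)) := by
  intro τ σ hσ
  have hp : (p : ℂ) ≠ 0 := by exact_mod_cast NeZero.ne p
  have hτ : (τ : ℂ) ≠ 0 := τ.ne_zero
  rw [Pi.smul_apply, VpForm_apply, smul_eq_mul, mul_assoc]
  congr 1
  rw [level_one_S G (dMat p • τ) σ (by rw [coe_dMat_smul, hσ]), coe_dMat_smul, ← mul_assoc,
    ← zpow_add₀ (mul_ne_zero hp hτ)]
  simp

/-- extending a `HasSum` along multiplication by `p` -/
lemma hasSum_Vp {p : ℕ} [NeZero p] {A : PowerSeries ℂ} {q s : ℂ}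
    (h : HasSum (fun m => A.coeff m • (q ^ p) ^ m) s) :
    HasSum (fun m => (Vp p A).coeff m • q ^ m) s := by
  have hinj : Function.Injective (fun m : ℕ => p * m) := fun a b hab =>
    Nat.eq_of_mul_eq_mul_left (Nat.pos_of_ne_zero (NeZero.ne p)) hab
  rw [← hinj.hasSum_iff]
  · convert h using 1
    funext m
    simp [coeff_Vp, pow_mul, Nat.mul_div_cancel_left m (Nat.pos_of_ne_zero (NeZero.ne p))]
  · intro m hm
    have : ¬ p ∣ m := fun ⟨c, hc⟩ => hm ⟨c, hc.symm⟩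
    simp [coeff_Vp, this]

lemma qExpansion_VpForm (p : ℕ) [NeZero p] (G : ModularForm 𝒮ℒ k) :
    qExpansion 1 (VpForm p G) = Vp p (qExpansion 1 G) := by
  ext m
  refine (ModularFormClass.qExpansion_coeff_unique (c := fun m => (Vp p (qExpansion 1 G)).coeff m)
    one_pos (CongruenceSubgroup.one_mem_strictPeriods_Gamma0 p) (fun τ => ?_) m).symm
  apply hasSum_Vp
  rw [VpForm_apply]
  have := ModularForm.hasSum_qExpansion (f := G) one_pos one_mem_strictPeriods_SL (dMat p • τ)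
  convert this using 1
  funext m
  rw [smul_eq_mul, coe_dMat_smul]
  congr 2
  simp only [Function.Periodic.qParam]
  rw [← Complex.exp_nat_mul]
  congr 1
  push_cast
  ring

end VpForm

/-! ### The trace -/

section Trace

/-- representatives of `Γ₀(p) \ SL₂(ℤ)` (inverses) -/
def cosetMap (p : ℕ) : Option (Fin p) →
    (𝒮ℒ : Subgroup (GL (Fin 2) ℝ)) ⧸ ((Gamma0 p : Subgroup (GL (Fin 2) ℝ)).subgroupOf 𝒮ℒ)
  | none => QuotientGroup.mk 1
  | some j => QuotientGroup.mk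
      ⟨mapGL ℝ (ModularGroup.S * ModularGroup.T ^ (j.val : ℤ))⁻¹, MonoidHom.mem_range.mpr ⟨_, rfl⟩⟩

lemma Gamma0_mem_iff_dvd (p : ℕ) (γ : SL(2, ℤ)) : γ ∈ Gamma0 p ↔ (p : ℤ) ∣ γ 1 0 := by
  rw [Gamma0_mem, ZMod.intCast_zmod_eq_zero_iff_dvd]

lemma mk_eq_mk_iff (p : ℕ) (γ δ : SL(2, ℤ)) :
    (QuotientGroup.mk ⟨mapGL ℝ γ, MonoidHom.mem_range.mpr ⟨_, rfl⟩⟩ :
      (𝒮ℒ : Subgroup (GL (Fin 2) ℝ)) ⧸ ((Gamma0 p : Subgroup (GL (Fin 2) ℝ)).subgroupOf 𝒮ℒ)) =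
      QuotientGroup.mk ⟨mapGL ℝ δ, MonoidHom.mem_range.mpr ⟨_, rfl⟩⟩ ↔ γ⁻¹ * δ ∈ Gamma0 p := by
  rw [QuotientGroup.eq, Subgroup.mem_subgroupOf]
  simp only [Subgroup.coe_mul, InvMemClass.coe_inv, ← map_inv, ← map_mul]
  exact mapGL_mem_Gamma0_iff p _

lemma cosetMap_none (p : ℕ) : cosetMap p none =
    QuotientGroup.mk ⟨mapGL ℝ 1, MonoidHom.mem_range.mpr ⟨_, rfl⟩⟩ := by
  simp only [cosetMap]
  congr 1
  ext1
  simp

lemma ST_zpow (j : ℤ) : ((ModularGroup.S * ModularGroup.T ^ j : SL(2, ℤ)) :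
    Matrix (Fin 2) (Fin 2) ℤ) = !![0, -1; 1, j] := by
  rw [Matrix.SpecialLinearGroup.coe_mul, ModularGroup.coe_T_zpow, ModularGroup.coe_S]
  simp

lemma cosetMap_some (p : ℕ) (j : Fin p) : cosetMap p (some j) =
    QuotientGroup.mk ⟨mapGL ℝ (ModularGroup.S * ModularGroup.T ^ (j.val : ℤ))⁻¹,
      MonoidHom.mem_range.mpr ⟨_, rfl⟩⟩ := rfl

lemma cosetMap_bijective (p : ℕ) [hp : Fact p.Prime] : Function.Bijective (cosetMap p) := by
  have hp1 : ¬ (p : ℤ) ∣ 1 := by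
    intro h
    have := Int.natCast_dvd_natCast.mp (by simpa using h : (p : ℤ) ∣ ((1 : ℕ) : ℤ))
    exact hp.out.one_lt.ne' (Nat.dvd_one.mp this)
  constructor
  · intro i j hij
    rcases i with _ | i <;> rcases j with _ | j
    · rfl
    · exfalso
      rw [cosetMap_none, cosetMap_some, mk_eq_mk_iff, inv_one, one_mul, inv_mem_iff,
        Gamma0_mem_iff_dvd, ST_zpow] at hij
      exact hp1 (by simpa using hij)
    · exfalso
      rw [cosetMap_none, cosetMap_some, mk_eq_mk_iff, inv_inv, mul_one,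
        Gamma0_mem_iff_dvd, ST_zpow] at hij
      exact hp1 (by simpa using hij)
    · rw [cosetMap_some, cosetMap_some, mk_eq_mk_iff, inv_inv, Gamma0_mem_iff_dvd,
        Matrix.SpecialLinearGroup.coe_mul, Matrix.SpecialLinearGroup.coe_inv, ST_zpow, ST_zpow] at hij
      simp only [Matrix.adjugate_fin_two_of, Matrix.mul_apply, Fin.sum_univ_two] at hij
      simp at hij
      congr 1
      have h1 : ((j : ℕ) : ZMod p) = ((i : ℕ) : ZMod p) := by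
        have := (ZMod.intCast_zmod_eq_zero_iff_dvd _ _).mpr hij
        push_cast at this
        exact add_neg_eq_zero.mp this
      rw [ZMod.natCast_eq_natCast_iff] at h1
      exact Fin.ext (Nat.ModEq.eq_of_lt_of_lt h1.symm i.2 j.2)
  · intro q
    induction q using QuotientGroup.induction_on with
    | H h =>
    obtain ⟨_, γ, rfl⟩ := h
    by_cases hc : (p : ℤ) ∣ γ 1 0
    · refine ⟨none, ?_⟩
      rw [cosetMap_none, mk_eq_mk_iff, inv_one, one_mul, Gamma0_mem_iff_dvd]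
      exact hc
    · have hc' : ((γ 1 0 : ℤ) : ZMod p) ≠ 0 := fun h =>
        hc ((ZMod.intCast_zmod_eq_zero_iff_dvd _ _).mp h)
      set x : ZMod p := -((γ 0 0 : ℤ) : ZMod p) * ((γ 1 0 : ℤ) : ZMod p)⁻¹ with hx
      refine ⟨some ⟨x.val, x.val_lt⟩, ?_⟩
      rw [cosetMap_some, mk_eq_mk_iff, inv_inv, Gamma0_mem_iff_dvd,
        Matrix.SpecialLinearGroup.coe_mul, ST_zpow]
      simp only [Matrix.mul_apply, Fin.sum_univ_two]
      rw [← ZMod.intCast_zmod_eq_zero_iff_dvd]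
      simp [hx, hc']

lemma slash_ST_apply {p κ : ℕ} [NeZero p] {f g : ℍ → ℂ} (h : IsW p κ f g) (j : ℕ) (τ : ℍ) :
    (f ∣[((2 * κ : ℕ) : ℤ)] (mapGL ℝ (ModularGroup.S * ModularGroup.T ^ (j : ℤ)))) τ =
      ((p : ℂ) ^ κ)⁻¹ * g (heckeMatrix p j • τ) := by
  have hp : (p : ℂ) ≠ 0 := by exact_mod_cast NeZero.ne p
  have hdet : 0 < ((mapGL ℝ (ModularGroup.S * ModularGroup.T ^ (j : ℤ))).det : ℝ) := by simp
  have hval (a b : Fin 2) : ((mapGL ℝ (ModularGroup.S * ModularGroup.T ^ (j : ℤ)) :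
      GL (Fin 2) ℝ) : Matrix (Fin 2) (Fin 2) ℝ) a b = ((!![0, -1; 1, (j : ℤ)] a b : ℤ) : ℝ) := by
    rw [mapGL_coe_apply, ST_zpow]
  have hσ : ((mapGL ℝ (ModularGroup.S * ModularGroup.T ^ (j : ℤ)) • τ : ℍ) : ℂ) =
      -1 / (p * (heckeMatrix p j • τ : ℍ)) := by
    rw [UpperHalfPlane.coe_smul_of_det_pos hdet, coe_heckeMatrix_smul (NeZero.ne p)]
    simp only [UpperHalfPlane.num, UpperHalfPlane.denom, hval]
    simp
    field_simp
  rw [h _ _ hσ, ModularForm.slash_apply, UpperHalfPlane.σ, if_pos hdet,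
    coe_heckeMatrix_smul (NeZero.ne p)]
  simp only [UpperHalfPlane.denom, hval]
  have e1 : (p : ℂ) * (((τ : ℂ) + j) / p) = τ + j := by field_simp
  rw [e1]
  simp
  field_simp

theorem trace_eq (p κ : ℕ) [hp : Fact p.Prime] {f g : ModularForm (Gamma0 p) ((2 * κ : ℕ) : ℤ)}
    (h : IsW p κ f g) : (p : ℂ) ^ κ • (ModularForm.trace 𝒮ℒ f : ℍ → ℂ) =
      (p : ℂ) ^ κ • (f : ℍ → ℂ) + (p : ℂ) • heckeU ((2 * κ : ℕ) : ℤ) p g := by
  have hp0 : (p : ℂ) ≠ 0 := by exact_mod_cast NeZero.ne p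
  funext τ
  rw [ModularForm.coe_trace]
  simp only [Pi.smul_apply, Finset.sum_apply, Pi.add_apply]
  let := Fintype.ofFinite
    ((𝒮ℒ : Subgroup (GL (Fin 2) ℝ)) ⧸ ((Gamma0 p : Subgroup (GL (Fin 2) ℝ)).subgroupOf 𝒮ℒ))
  rw [← (cosetMap_bijective p).sum_comp]
  rw [Fintype.sum_option, heckeU_apply _ hp.out.ne_zero]
  have h0 : SlashInvariantForm.quotientFunc f (cosetMap p none) τ = f τ := by
    change ((f : ℍ → ℂ) ∣[((2 * κ : ℕ) : ℤ)] ((1 : (𝒮ℒ : Subgroup (GL (Fin 2) ℝ))) :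
      GL (Fin 2) ℝ)⁻¹) τ = _
    simp
  have h1 (i : Fin p) : SlashInvariantForm.quotientFunc f (cosetMap p (some i)) τ =
      ((p : ℂ) ^ κ)⁻¹ * g (heckeMatrix p i • τ) := by
    rw [← slash_ST_apply h i τ]
    change ((f : ℍ → ℂ) ∣[((2 * κ : ℕ) : ℤ)] (mapGL ℝ
      (ModularGroup.S * ModularGroup.T ^ (i.val : ℤ))⁻¹)⁻¹) τ = _
    rw [map_inv, inv_inv]
  rw [h0]
  simp only [h1]
  rw [Fin.sum_univ_eq_sum_range (fun i => ((p : ℂ) ^ κ)⁻¹ * g (heckeMatrix p i • τ)) p,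
    ← Finset.mul_sum]
  simp only [smul_eq_mul]
  field_simp

lemma one_mem_Gamma0 (N : ℕ) :
    (1 : ℝ) ∈ ((Gamma0 N : Subgroup (GL (Fin 2) ℝ))).strictPeriods :=
  CongruenceSubgroup.one_mem_strictPeriods_Gamma0 N

lemma qExpansion_heckeU {N : ℕ} {k : ℤ} {p : ℕ} (hp : p ≠ 0) (g : ModularForm (Gamma0 N) k) :
    qExpansion 1 (heckeU k p g) = Up p (qExpansion 1 g) := by
  ext n
  rw [coeff_Up, mul_comm]
  exact ModularFormClass.qCoeff_heckeU g (one_mem_Gamma0 N) hp n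

theorem qExpansion_trace (p κ : ℕ) [hp : Fact p.Prime]
    {f g : ModularForm (Gamma0 p) ((2 * κ : ℕ) : ℤ)} (h : IsW p κ f g) :
    (p : ℂ) ^ κ • qExpansion 1 (ModularForm.trace 𝒮ℒ f) =
      (p : ℂ) ^ κ • qExpansion 1 f + (p : ℂ) • Up p (qExpansion 1 g) := by
  rw [← qExpansion_heckeU hp.out.ne_zero, ← coe_heckeULin_apply _ dvd_rfl,
    ← ModularForm.qExpansion_smul one_pos one_mem_strictPeriods_SL,
    ← ModularForm.qExpansion_smul one_pos (one_mem_Gamma0 p),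
    ← ModularForm.qExpansion_smul one_pos (one_mem_Gamma0 p),
    ← FunLike.coe_smul, ← FunLike.coe_smul, ← FunLike.coe_smul,
    ← ModularForm.qExpansion_add one_pos (one_mem_Gamma0 p)]
  congr 1
  exact trace_eq p κ h

end Trace

/-! ### Pairs -/

namespace PP

variable {p a b : ℕ} {A B A' B' : PowerSeries ℤ}

lemma add (h : PP p a A B) (h' : PP p a A' B') : PP p a (A + A') (B + B') := by
  obtain ⟨f, g, hw, hf, hg⟩ := h
  obtain ⟨f', g', hw', hf', hg'⟩ := h'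
  refine ⟨f + f', g + g', hw.add hw', ?_, ?_⟩
  · rw [FunLike.coe_add, ModularForm.qExpansion_add one_pos (one_mem_Gamma0 p), hf, hf', toC_add]
  · rw [FunLike.coe_add, ModularForm.qExpansion_add one_pos (one_mem_Gamma0 p), hg, hg', toC_add]

lemma sub (h : PP p a A B) (h' : PP p a A' B') : PP p a (A - A') (B - B') := by
  obtain ⟨f, g, hw, hf, hg⟩ := h
  obtain ⟨f', g', hw', hf', hg'⟩ := h'
  refine ⟨f - f', g - g', hw.sub hw', ?_, ?_⟩
  · rw [FunLike.coe_sub, ModularForm.qExpansion_sub one_pos (one_mem_Gamma0 p), hf, hf', toC_sub]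
  · rw [FunLike.coe_sub, ModularForm.qExpansion_sub one_pos (one_mem_Gamma0 p), hg, hg', toC_sub]

lemma zsmul (h : PP p a A B) (n : ℤ) : PP p a (n • A) (n • B) := by
  obtain ⟨f, g, hw, hf, hg⟩ := h
  refine ⟨(n : ℂ) • f, (n : ℂ) • g, hw.smul _, ?_, ?_⟩
  · rw [FunLike.coe_smul, ModularForm.qExpansion_smul one_pos (one_mem_Gamma0 p), hf, toC_zsmul]
  · rw [FunLike.coe_smul, ModularForm.qExpansion_smul one_pos (one_mem_Gamma0 p), hg, toC_zsmul]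

lemma neg (h : PP p a A B) : PP p a (-A) (-B) := by
  simpa using h.zsmul (-1)

lemma cast (h : PP p a A B) (hab : a = b) : PP p b A B := hab ▸ h

lemma div {d : ℤ} (hd : d ≠ 0) (h : PP p a (d • A) (d • B)) : PP p a A B := by
  obtain ⟨f, g, hw, hf, hg⟩ := h
  have hd' : (d : ℂ) ≠ 0 := by exact_mod_cast hd
  refine ⟨(d : ℂ)⁻¹ • f, (d : ℂ)⁻¹ • g, hw.smul _, ?_, ?_⟩
  · rw [FunLike.coe_smul, ModularForm.qExpansion_smul one_pos (one_mem_Gamma0 p), hf, toC_zsmul,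
      smul_smul, inv_mul_cancel₀ hd', one_smul]
  · rw [FunLike.coe_smul, ModularForm.qExpansion_smul one_pos (one_mem_Gamma0 p), hg, toC_zsmul,
      smul_smul, inv_mul_cancel₀ hd', one_smul]

lemma mul [NeZero p] (h : PP p a A B) (h' : PP p b A' B') :
    PP p (a + b) (A * A') (B * B') := by
  obtain ⟨f, g, hw, hf, hg⟩ := h
  obtain ⟨f', g', hw', hf', hg'⟩ := h'
  refine ⟨ModularForm.mcast (by push_cast; ring) (f.mul f'),
    ModularForm.mcast (by push_cast; ring) (g.mul g'), hw.mul hw', ?_, ?_⟩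
  · rw [ModularForm.qExpansion_mcast,
      ModularForm.qExpansion_mul one_pos (one_mem_Gamma0 p), hf, hf', toC_mul]
  · rw [ModularForm.qExpansion_mcast,
      ModularForm.qExpansion_mul one_pos (one_mem_Gamma0 p), hg, hg', toC_mul]

lemma one : PP p 0 1 1 := by
  refine ⟨ModularForm.mcast (by simp) (1 : ModularForm (Gamma0 p) 0),
    ModularForm.mcast (by simp) (1 : ModularForm (Gamma0 p) 0), IsW.one, ?_, ?_⟩ <;>
  rw [ModularForm.qExpansion_mcast, ModularForm.qExpansion_one, toC_one]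

lemma pow [NeZero p] (h : PP p a A B) (n : ℕ) : PP p (n * a) (A ^ n) (B ^ n) := by
  induction n with
  | zero => simpa using PP.one
  | succ n ih =>
    rw [pow_succ, pow_succ, add_mul, one_mul]
    exact ih.mul h

lemma symm [NeZero p] (h : PP p a A B) : PP p a B A := by
  obtain ⟨f, g, hw, hf, hg⟩ := h
  exact ⟨g, f, hw.symm, hg, hf⟩

lemma ofLOne [NeZero p] {C : PowerSeries ℤ} (h : LOne a C) : PP p a C ((p ^ a : ℤ) • Vp p C) := by
  obtain ⟨G, hG⟩ := h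
  refine ⟨restr (Gamma0_le_SL p) G, (p : ℂ) ^ a • VpForm p G, isW_VpForm p a G, hG, ?_⟩
  rw [FunLike.coe_smul, ModularForm.qExpansion_smul one_pos (one_mem_Gamma0 p),
    qExpansion_VpForm, hG, toC_zsmul, toC_Vp]
  push_cast
  rfl

lemma ofLOneV [NeZero p] {C : PowerSeries ℤ} (h : LOne a C) : PP p a ((p ^ a : ℤ) • Vp p C) C :=
  (ofLOne h).symm

theorem trace [hp : Fact p.Prime] (ha : 1 ≤ a) (h : PP p a A B) :
    LOne a ((p ^ (a - 1) : ℤ) • A + Up p B) := by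
  obtain ⟨f, g, hw, hf, hg⟩ := h
  have hp0 : (p : ℂ) ≠ 0 := by exact_mod_cast NeZero.ne p
  refine ⟨(p : ℂ) ^ (a - 1) • ModularForm.trace 𝒮ℒ f, ?_⟩
  have := qExpansion_trace p a hw
  rw [FunLike.coe_smul, ModularForm.qExpansion_smul one_pos one_mem_strictPeriods_SL]
  have h1 : (p : ℂ) ^ a = p * (p : ℂ) ^ (a - 1) := by
    rw [← pow_succ', Nat.sub_add_cancel ha]
  rw [h1, mul_smul, mul_smul, ← smul_add] at this
  have h2 := (smul_right_injective _ hp0) this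
  rw [h2, hf, hg, toC_add, toC_zsmul, toC_Up]
  push_cast
  rfl

theorem weightTwo [hp : Fact p.Prime] (f : ModularForm (Gamma0 p) 2)
    (hA : qExpansion 1 f = toC A) : PP p 1 A (-(Up p A)) := by
  have hp0 : (p : ℂ) ≠ 0 := by exact_mod_cast NeZero.ne p
  have e2 : (2 : ℤ) = ((2 * 1 : ℕ) : ℤ) := by norm_num
  set F : ModularForm (Gamma0 p) ((2 * 1 : ℕ) : ℤ) := ModularForm.mcast e2 f with hF
  have hFA : qExpansion 1 F = toC A := by rw [hF, ModularForm.qExpansion_mcast, hA]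
  obtain ⟨g, hg⟩ := exists_isW p 1 F
  refine ⟨F, g, hg, hFA, ?_⟩
  have h0 (G : ModularForm 𝒮ℒ ((2 * 1 : ℕ) : ℤ)) : G = 0 := by
    have := levelOne_weight_two_rank_zero
    have h1 : (ModularForm.mcast e2.symm G : ModularForm 𝒮ℒ 2) = 0 := by
      have := rank_zero_iff.mp this
      exact Subsingleton.elim _ _
    ext z
    have := DFunLike.congr_fun h1 z
    simpa using this
  have h2 := qExpansion_trace p 1 hg.symm
  rw [h0 (ModularForm.trace 𝒮ℒ g), FunLike.coe_zero, qExpansion_zero, smul_zero, pow_one,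
    ← smul_add] at h2
  have h3 := (smul_eq_zero.mp h2.symm).resolve_left hp0
  rw [hFA, ← toC_Up] at h3
  rw [toC_neg]
  exact eq_neg_of_add_eq_zero_left h3

end PP

end Fermat.Agent.S16
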