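import Fermat.Agent.S16.HeckePoly
import Fermat.Agent.S16.Duality
import Fermat.Prelude.Def_ModularCurve_ModularUnit

/-!
# Reduction of S16 to a divisibility statement (lower bound) and a statement on cusp forms
-/

set_option autoImplicit false

noncomputable section

open CongruenceSubgroup ModularFormClass ModularCurve CuspForm
open FermatAgent.HeckeEigen

namespace Fermat.Agent.S16

section Ring

/-- `T / φ(ker χ) ≃ ℤ / χ(ker φ)`. -/
theorem card_quotient {R T : Type*} [CommRing R] [CommRing T] (φ : R →+* T) (χ : R →+* ℤ)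
    (hφ : Function.Surjective φ) (hχ : Function.Surjective χ) :
    Nat.card (T ⧸ Ideal.map φ (RingHom.ker χ)) = Nat.card (ℤ ⧸ Ideal.map χ (RingHom.ker φ)) := by
  set J := Ideal.map χ (RingHom.ker φ) with hJ
  have hker : RingHom.ker φ ≤ RingHom.ker ((Ideal.Quotient.mk J).comp χ) := by
    intro P hP
    rw [RingHom.mem_ker, RingHom.comp_apply, Ideal.Quotient.eq_zero_iff_mem]
    exact Ideal.mem_map_of_mem _ hP
  let θ : T →+* ℤ ⧸ J := RingHom.liftOfSurjective φ hφ ⟨_, hker⟩
  have hθ : ∀ P, θ (φ P) = Ideal.Quotient.mk J (χ P) := fun P =>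
    RingHom.liftOfRightInverse_comp_apply _ _ _ _ _
  have hθs : Function.Surjective θ := by
    intro y
    obtain ⟨z, rfl⟩ := Ideal.Quotient.mk_surjective y
    obtain ⟨P, rfl⟩ := hχ z
    exact ⟨φ P, hθ P⟩
  have hθk : RingHom.ker θ = Ideal.map φ (RingHom.ker χ) := by
    ext t
    rw [RingHom.mem_ker, Ideal.mem_map_iff_of_surjective φ hφ]
    constructor
    · intro h
      obtain ⟨P, rfl⟩ := hφ t
      rw [hθ, Ideal.Quotient.eq_zero_iff_mem, hJ, Ideal.mem_map_iff_of_surjective χ hχ] at h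
      obtain ⟨Q, hQ, hQP⟩ := h
      refine ⟨P - Q, ?_, ?_⟩
      · rw [RingHom.mem_ker, map_sub, hQP, sub_self]
      · rw [map_sub, (RingHom.mem_ker).mp hQ, sub_zero]
    · rintro ⟨P, hP, rfl⟩
      rw [hθ, (RingHom.mem_ker).mp hP, map_zero]
  rw [← hθk]
  exact Nat.card_congr (RingHom.quotientKerEquivOfSurjective hθs).toEquiv

end Ring

variable (p : ℕ) [hp : Fact p.Prime]

/-- The map from Hecke polynomials onto the integral Hecke algebra. -/
def phi : HeckeAlg →+* ↥(heckeLatticeAlgebra p ∅) :=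
  (latticeRestrictHom p ∅).toRingHom.comp (heckeEvalForms p 2)

variable {p}

theorem phi_apply (P : HeckeAlg) (f : ↥(intLattice p 2)) :
    (((phi p P).1 f : ↥(intLattice p 2)) : CuspForm (Gamma0 p) 2) = evC p P f.1 := rfl

theorem heckeEvalForms_surjective : Function.Surjective (heckeEvalForms p 2) := by
  rintro ⟨x, hx⟩
  suffices h : ∃ P : HeckeAlg, evC p P = x by
    obtain ⟨P, hP⟩ := h
    exact ⟨P, Subtype.ext hP⟩
  induction hx using Algebra.adjoin_induction with
  | mem x hx =>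
    rcases hx with ⟨ℓ, hℓ, hℓN, -, rfl⟩ | ⟨q, hqN, hq, -, rfl⟩
    · refine ⟨heckeGen ⟨ℓ, hℓ⟩, ?_⟩
      rw [evC_heckeGen, heckeOp_of_not_dvd (p := ⟨ℓ, hℓ⟩) hℓN]
    · refine ⟨heckeGen ⟨q, hq⟩, ?_⟩
      rw [evC_heckeGen, heckeOp_of_dvd (p := ⟨q, hq⟩) hqN]
  | algebraMap r =>
    exact ⟨MvPolynomial.C r, by rw [evC_C]; rfl⟩
  | add x y _ _ hx hy =>
    obtain ⟨P, hP⟩ := hx
    obtain ⟨Q, hQ⟩ := hy
    refine ⟨P + Q, ?_⟩
    rw [← hP, ← hQ]
    unfold evC
    rw [map_add]
    rfl
  | mul x y _ _ hx hy =>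
    obtain ⟨P, hP⟩ := hx
    obtain ⟨Q, hQ⟩ := hy
    exact ⟨P * Q, by rw [evC_mul, hP, hQ]⟩

theorem phi_surjective : Function.Surjective (phi p) :=
  (latticeRestrictHom_surjective p ∅).comp heckeEvalForms_surjective

theorem chi_surjective : Function.Surjective (chi p) := fun c => ⟨MvPolynomial.C c, chi_C c⟩

omit hp in
theorem exists_int_of_mem_intLattice {f : CuspForm (Gamma0 p) 2} (hf : f ∈ intLattice p 2) (n : ℕ) :
    ∃ m : ℤ, qCoeff ⇑f n = m := by
  unfold intLattice at hf
  induction hf using Submodule.span_induction with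
  | mem f hf => exact hf n
  | zero => exact ⟨0, by rw [qCoeff_zero]; simp⟩
  | add f g _ _ hf hg =>
    obtain ⟨a, ha⟩ := hf
    obtain ⟨b, hb⟩ := hg
    exact ⟨a + b, by rw [qCoeff_add, ha, hb]; simp⟩
  | smul c f _ hf =>
    obtain ⟨a, ha⟩ := hf
    refine ⟨c * a, ?_⟩
    rw [← Int.cast_smul_eq_zsmul ℂ c f, qCoeff_smul, ha]
    simp

/-- the `n`-th coefficient as an integer valued linear functional on the lattice -/
def cZ (n : ℕ) : ↥(intLattice p 2) →ₗ[ℤ] ℤ where
  toFun f := (exists_int_of_mem_intLattice f.2 n).choose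
  map_add' f g := by
    have hf := (exists_int_of_mem_intLattice f.2 n).choose_spec
    have hg := (exists_int_of_mem_intLattice g.2 n).choose_spec
    have hfg := (exists_int_of_mem_intLattice (f + g).2 n).choose_spec
    have : qCoeff ⇑(f + g).1 n = qCoeff ⇑f.1 n + qCoeff ⇑g.1 n := qCoeff_add f.1 g.1 n
    rw [hf, hg, hfg] at this
    exact_mod_cast this
  map_smul' c f := by
    have hf := (exists_int_of_mem_intLattice f.2 n).choose_spec
    have hfg := (exists_int_of_mem_intLattice (c • f).2 n).choose_spec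
    have : qCoeff ⇑(c • f).1 n = (c : ℂ) * qCoeff ⇑f.1 n := by
      rw [← qCoeff_smul, Int.cast_smul_eq_zsmul]; rfl
    rw [hf, hfg] at this
    rw [smul_eq_mul]
    exact_mod_cast this

theorem cZ_spec (n : ℕ) (f : ↥(intLattice p 2)) : (cZ n f : ℂ) = qCoeff ⇑f.1 n :=
  (exists_int_of_mem_intLattice f.2 n).choose_spec.symm

/-- **The form attached to the Eisenstein quotient.** -/
theorem exists_form (m : ℕ) (hm : ∀ P, phi p P = 0 → (m : ℤ) ∣ chi p P) :
    ∃ (f : CuspForm (Gamma0 p) 2) (a : ℕ → ℤ), (∀ n, qCoeff ⇑f n = a n) ∧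
      ∀ n, n ≠ 0 → (m : ℤ) ∣ a n - sigP p n := by
  have := intLattice.moduleFinite p
  have := intLattice.moduleFree p
  set T := heckeLatticeAlgebra p ∅ with hT
  -- the residual character
  have hm' : ∀ P Q, phi p P = phi p Q → ((chi p P : ℤ) : ZMod m) = ((chi p Q : ℤ) : ZMod m) := by
    intro P Q h
    rw [ZMod.intCast_eq_intCast_iff_dvd_sub]
    rw [← map_sub]
    exact hm _ (by rw [map_sub, h, sub_self])
  let θ : T →ₗ[ℤ] ZMod m := AddMonoidHom.toIntLinearMap
    { toFun := fun t => ((chi p (Function.surjInv phi_surjective t) : ℤ) : ZMod m)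
      map_zero' := by
        rw [hm' _ 0 (by rw [Function.surjInv_eq phi_surjective, map_zero])]; simp
      map_add' := fun s t => by
        rw [hm' _ (Function.surjInv phi_surjective s + Function.surjInv phi_surjective t) (by
          rw [Function.surjInv_eq phi_surjective, map_add, Function.surjInv_eq phi_surjective,
            Function.surjInv_eq phi_surjective])]
        rw [map_add]; push_cast; rfl }
  have hθ : ∀ P, θ (phi p P) = ((chi p P : ℤ) : ZMod m) := fun P =>
    hm' _ P (Function.surjInv_eq phi_surjective _)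
  obtain ⟨lam, hlam⟩ := Module.projective_lifting_property
    ((Int.castAddHom (ZMod m)).toIntLinearMap) θ (ZMod.intCast_surjective)
  have hlam' : ∀ t, ((lam t : ℤ) : ZMod m) = θ t := fun t => by
    rw [← hlam]; rfl
  choose! tk htk hchi using fun k (hk : k ≠ 0) => exists_heckePoly (p := p) k hk
  have hz : ∀ k, k ≠ 0 → ∀ f : ↥(intLattice p 2), cZ 1 ((phi p (tk k)).1 f) = cZ k f := by
    intro k hk f
    have h1 := cZ_spec 1 ((phi p (tk k)).1 f)
    rw [phi_apply, htk k hk, ← cZ_spec k f] at h1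
    exact_mod_cast h1
  obtain ⟨f, hf⟩ := duality T (fun s hs t ht => by
      have := mul_comm (⟨s, hs⟩ : T) ⟨t, ht⟩
      exact congrArg Subtype.val this) (cZ 1)
    (fun f hf => by
      apply Subtype.ext
      apply eq_zero_of_qCoeff_eq_zero
      intro n
      by_cases hn : n = 0
      · rw [hn]; exact qCoeff_at_zero f.1
      · rw [← cZ_spec, ← hz n hn, hf _ (phi p (tk n)).2]; simp)
    (fun f d hd hf => by
      have hn : ∀ n, ∃ b : ℤ, qCoeff ⇑f.1 n = d * b := by
        intro n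
        by_cases hn : n = 0
        · exact ⟨0, by rw [hn, qCoeff_at_zero]; simp⟩
        · obtain ⟨b, hb⟩ := hf _ (phi p (tk n)).2
          refine ⟨b, ?_⟩
          rw [← cZ_spec, ← hz n hn, hb]; push_cast; ring
      have hmem : ((d : ℂ)⁻¹ • f.1) ∈ intLattice p 2 := by
        refine Submodule.subset_span fun n => ?_
        obtain ⟨b, hb⟩ := hn n
        refine ⟨b, ?_⟩
        rw [qCoeff_smul, hb, inv_mul_cancel_left₀ (by exact_mod_cast hd)]
      refine ⟨⟨_, hmem⟩, ?_⟩
      apply Subtype.ext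
      change f.1 = d • ((d : ℂ)⁻¹ • f.1)
      rw [← Int.cast_smul_eq_zsmul ℂ, smul_smul, mul_inv_cancel₀ (by exact_mod_cast hd), one_smul])
    lam
  refine ⟨f.1, fun n => cZ n f, fun n => (cZ_spec n f).symm, fun n hn => ?_⟩
  change (m : ℤ) ∣ cZ n f - sigP p n
  rw [← hz n hn, ← hf, ← hchi n hn, ← ZMod.intCast_eq_intCast_iff_dvd_sub, hlam', hθ]

/-- Assembly: lower and upper bounds give the order of the Eisenstein quotient. -/
theorem card_eq_of_bounds (n : ℕ) (hn : 0 < n)
    (lower : ∀ P, phi p P = 0 → (n : ℤ) ∣ chi p P)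
    (upper : ∀ m : ℕ, 0 < m → ∀ (f : CuspForm (Gamma0 p) 2) (a : ℕ → ℤ),
      (∀ k, qCoeff ⇑f k = a k) → (∀ k, k ≠ 0 → (m : ℤ) ∣ a k - sigP p k) → m ∣ n) :
    Nat.card (↥(heckeLatticeAlgebra p ∅) ⧸
        Ideal.map ((latticeRestrictHom p ∅).toRingHom.comp (heckeEvalForms p 2))
          (eisensteinIdeal p)) = n := by
  have h1 := card_quotient (phi p) (chi p).toRingHom phi_surjective chi_surjective
  have h2 : eisensteinIdeal p = RingHom.ker (chi p).toRingHom := rfl
  rw [h2]
  change Nat.card (↥(heckeLatticeAlgebra p ∅) ⧸ Ideal.map (phi p) _) = n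
  rw [h1]
  obtain ⟨c, hc⟩ := (IsPrincipalIdealRing.principal
    (Ideal.map (chi p).toRingHom (RingHom.ker (phi p)))).principal
  rw [Ideal.submodule_span_eq] at hc
  set m : ℕ := c.natAbs with hm
  have hspan : Ideal.span {c} = Ideal.span {(m : ℤ)} := by
    rw [hm, Int.span_natAbs]
  rw [hspan] at hc
  have hdvd : ∀ P, phi p P = 0 → (m : ℤ) ∣ chi p P := by
    intro P hP
    rw [← Ideal.mem_span_singleton, ← hc]
    exact Ideal.mem_map_of_mem (chi p).toRingHom hP
  have hup : ∀ m' : ℕ, 0 < m' → m' ∣ m → m' ∣ n := by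
    intro m' hm' hd
    obtain ⟨f, a, hfa, hcong⟩ := exists_form m' fun P hP =>
      (Int.natCast_dvd_natCast.mpr hd).trans (hdvd P hP)
    exact upper m' hm' f a hfa hcong
  have hnm : n ∣ m := by
    have : (m : ℤ) ∈ Ideal.map (chi p).toRingHom (RingHom.ker (phi p)) := by
      rw [hc]; exact Ideal.mem_span_singleton_self _
    rw [Ideal.mem_map_iff_of_surjective (chi p).toRingHom chi_surjective] at this
    obtain ⟨P, hP, hPm⟩ := this
    have h3 := lower P hP
    have h4 : chi p P = m := hPm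
    rw [h4] at h3
    exact_mod_cast h3
  have hm0 : m ≠ 0 := by
    intro h
    have := hup (n + 1) (Nat.succ_pos _) (by rw [h]; exact dvd_zero _)
    have := Nat.le_of_dvd hn this
    omega
  have hmn : m ∣ n := hup m (Nat.pos_of_ne_zero hm0) dvd_rfl
  have hmeq : m = n := Nat.dvd_antisymm hmn hnm
  rw [hc, hmeq, Nat.card_congr (Int.quotientSpanNatEquivZMod n).toEquiv, Nat.card_zmod]

end Fermat.Agent.S16

end
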