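import Fermat.Agent.S16.Pair
import Mathlib.RingTheory.PowerSeries.Expand
import Mathlib.NumberTheory.Basic

/-!
# Operators `U_p`, `V_p` on power series and congruences
-/

set_option autoImplicit false

noncomputable section

namespace Fermat.Agent.S16

open PowerSeries

section Ops

variable {R : Type*} [CommRing R] (p : ℕ)

attribute [local simp] coeff_Up

theorem Vp_eq_expand (hp : p ≠ 0) (A : PowerSeries R) : Vp p A = PowerSeries.expand p hp A := by
  ext n
  rw [coeff_Vp]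
  split_ifs with h
  · obtain ⟨m, rfl⟩ := h
    rw [PowerSeries.coeff_expand_mul, Nat.mul_div_cancel_left _ (Nat.pos_of_ne_zero hp)]
  · rw [PowerSeries.coeff_expand_of_not_dvd _ _ _ h]

@[simp] theorem coeff_Vp_mul (hp : p ≠ 0) (A : PowerSeries R) (n : ℕ) :
    (Vp p A).coeff (p * n) = A.coeff n := by
  rw [coeff_Vp, if_pos (Dvd.intro _ rfl), Nat.mul_div_cancel_left _ (Nat.pos_of_ne_zero hp)]

theorem Vp_mul (hp : p ≠ 0) (A B : PowerSeries R) : Vp p (A * B) = Vp p A * Vp p B := by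
  simp only [Vp_eq_expand p hp, map_mul]

theorem Vp_pow (hp : p ≠ 0) (A : PowerSeries R) (n : ℕ) : Vp p (A ^ n) = Vp p A ^ n := by
  simp only [Vp_eq_expand p hp, map_pow]

theorem Vp_add (A B : PowerSeries R) : Vp p (A + B) = Vp p A + Vp p B := by
  ext n; simp only [coeff_Vp, map_add]; split_ifs <;> simp

theorem Vp_sub (A B : PowerSeries R) : Vp p (A - B) = Vp p A - Vp p B := by
  ext n; simp only [coeff_Vp, map_sub]; split_ifs <;> simp

theorem Vp_zsmul (c : ℤ) (A : PowerSeries R) : Vp p (c • A) = c • Vp p A := by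
  ext n; simp only [coeff_Vp, map_zsmul]; split_ifs <;> simp

theorem Vp_one (hp : p ≠ 0) : Vp p (1 : PowerSeries R) = 1 := by
  simp only [Vp_eq_expand p hp, map_one]

theorem Up_add (A B : PowerSeries R) : Up p (A + B) = Up p A + Up p B := by
  ext n; simp

theorem Up_sub (A B : PowerSeries R) : Up p (A - B) = Up p A - Up p B := by
  ext n; simp

theorem Up_neg (A : PowerSeries R) : Up p (-A) = -Up p A := by
  ext n; simp

theorem Up_zsmul (c : ℤ) (A : PowerSeries R) : Up p (c • A) = c • Up p A := by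
  ext n; rw [coeff_Up, map_zsmul, map_zsmul, coeff_Up]

theorem Up_one (hp : p ≠ 0) : Up p (1 : PowerSeries R) = 1 := by
  ext n; simp [PowerSeries.coeff_one, hp]

theorem Up_Vp (hp : p ≠ 0) (A : PowerSeries R) : Up p (Vp p A) = A := by
  ext n; rw [coeff_Up, coeff_Vp_mul p hp]

/-- `U_p (A(q^p) B(q)) = A(q) (U_p B)(q)`. -/
theorem Up_Vp_mul (hp : p ≠ 0) (A B : PowerSeries R) : Up p (Vp p A * B) = A * Up p B := by
  ext n
  rw [coeff_Up, PowerSeries.coeff_mul, PowerSeries.coeff_mul]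
  have hp' : 0 < p := Nat.pos_of_ne_zero hp
  rw [← Finset.sum_subset (s₁ := (Finset.HasAntidiagonal.antidiagonal n).image fun x => (p * x.1, p * x.2))
    (s₂ := Finset.HasAntidiagonal.antidiagonal (p * n))]
  · rw [Finset.sum_image]
    · refine Finset.sum_congr rfl fun x _ => ?_
      rw [coeff_Vp_mul p hp, coeff_Up]
    · rintro ⟨a, b⟩ _ ⟨c, d⟩ _ h
      simp only [Prod.mk.injEq] at h
      exact Prod.ext (Nat.eq_of_mul_eq_mul_left hp' h.1) (Nat.eq_of_mul_eq_mul_left hp' h.2)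
  · intro x hx
    simp only [Finset.mem_image, Finset.HasAntidiagonal.mem_antidiagonal] at hx ⊢
    obtain ⟨y, hy, rfl⟩ := hx
    rw [← hy, mul_add]
  · intro x hx hx'
    simp only [Finset.mem_image, Finset.HasAntidiagonal.mem_antidiagonal, not_exists, not_and] at hx hx'
    rw [coeff_Vp, if_neg, zero_mul]
    rintro ⟨c, hc⟩
    have hd : p ∣ x.2 := (Nat.dvd_add_right (Dvd.intro c hc.symm)).mp (hx ▸ Dvd.intro n rfl)
    obtain ⟨d, hd⟩ := hd
    refine hx' (c, d) ?_ (Prod.ext hc.symm hd.symm)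
    apply Nat.eq_of_mul_eq_mul_left hp'
    rw [mul_add, ← hc, ← hd, hx]

end Ops

section Cong

/-- divisibility of an integral power series by an integer, coefficientwise -/
theorem intCast_dvd_iff (M : ℤ) (A : PowerSeries ℤ) :
    (M : PowerSeries ℤ) ∣ A ↔ ∀ n, M ∣ A.coeff n := by
  constructor
  · rintro ⟨B, rfl⟩ n
    rw [← zsmul_eq_mul, map_zsmul, smul_eq_mul]
    exact Dvd.intro _ rfl
  · intro h
    choose b hb using h
    refine ⟨PowerSeries.mk b, ?_⟩
    ext n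
    rw [← zsmul_eq_mul, map_zsmul, smul_eq_mul, PowerSeries.coeff_mk, hb n]

theorem dvd_Up {M : ℤ} {A : PowerSeries ℤ} (p : ℕ) (h : (M : PowerSeries ℤ) ∣ A) :
    (M : PowerSeries ℤ) ∣ Up p A := by
  rw [intCast_dvd_iff] at h ⊢
  intro n
  rw [coeff_Up]
  exact h _

theorem dvd_Vp {M : ℤ} {A : PowerSeries ℤ} (p : ℕ) (h : (M : PowerSeries ℤ) ∣ A) :
    (M : PowerSeries ℤ) ∣ Vp p A := by
  rw [intCast_dvd_iff] at h ⊢
  intro n
  rw [coeff_Vp]
  split_ifs
  · exact h _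
  · exact dvd_zero _

theorem Vp_intCast (p : ℕ) (hp : p ≠ 0) (c : ℤ) : Vp p (c : PowerSeries ℤ) = c := by
  rw [show (c : PowerSeries ℤ) = c • 1 by simp, Vp_zsmul, Vp_one p hp]

theorem Up_intCast (p : ℕ) (hp : p ≠ 0) (c : ℤ) : Up p (c : PowerSeries ℤ) = c := by
  rw [show (c : PowerSeries ℤ) = c • 1 by simp, Up_zsmul, Up_one p hp]

theorem coeff_intCast_zero (c : ℤ) : (c : PowerSeries ℤ).coeff 0 = c := by
  rw [show (c : PowerSeries ℤ) = c • 1 by simp, map_zsmul]
  simp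

theorem coeff_intCast_ne (c : ℤ) {n : ℕ} (hn : n ≠ 0) : (c : PowerSeries ℤ).coeff n = 0 := by
  rw [show (c : PowerSeries ℤ) = c • 1 by simp, map_zsmul]
  simp [PowerSeries.coeff_one, hn]

/-- power trick: `A ≡ B mod ℓ^r` implies `A^(ℓ^i) ≡ B^(ℓ^i) mod ℓ^(i+1)`, `r ≥ 1` -/
theorem pow_cong {ℓ : ℕ} {A B : PowerSeries ℤ} (h : ((ℓ : ℤ) : PowerSeries ℤ) ∣ A - B) (i : ℕ) :
    (((ℓ ^ (i + 1) : ℕ) : ℤ) : PowerSeries ℤ) ∣ A ^ ℓ ^ i - B ^ ℓ ^ i := by
  have := dvd_sub_pow_of_dvd_sub (p := ℓ) (a := A) (b := B) (by simpa using h) i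
  simpa using this

end Cong

end Fermat.Agent.S16

end
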