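import Fermat.Agent.S16.UpperFinal
import Fermat.Agent.S16.Reduction
import Fermat.Agent.P1Count.Index

/-!
# The upper bound for cusp forms
-/

set_option autoImplicit false

noncomputable section

open CongruenceSubgroup ModularFormClass ModularCurve CuspForm UpperHalfPlane
open FermatAgent.HeckeEigen

namespace Fermat.Agent.S16

variable {p : ℕ} [hp : Fact p.Prime]

/-- the coefficients of `24 E`, `E = (p-1)/24 + ∑ σ'(k) q^k` -/
def eis24 (p : ℕ) : PowerSeries ℤ :=
  PowerSeries.mk fun k => if k = 0 then (p : ℤ) - 1 else 24 * ∑ d ∈ k.divisors with ¬ p ∣ d, (d : ℤ)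

theorem upper_of_eis (hp5 : 5 ≤ p) (hE : ∃ e : ModularForm (Gamma0 p) 2, qExpansion 1 e = toC (eis24 p))
    (m : ℕ) (f : CuspForm (Gamma0 p) 2) (a : ℕ → ℤ)
    (ha : ∀ k, qCoeff ⇑f k = a k) (hc : ∀ k, k ≠ 0 → (m : ℤ) ∣ a k - sigP p k) :
    m ∣ eisensteinNumerator p := by
  obtain ⟨e, he⟩ := hE
  have h1 : (1 : ℝ) ∈ (Subgroup.map (Matrix.SpecialLinearGroup.mapGL ℝ) (Gamma0 p)).strictPeriods :=
    hperiod p
  let g : ModularForm (Gamma0 p) 2 := e - (24 : ℂ) • (ModularFormClass.modularForm f : ModularForm (Gamma0 p) 2)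
  set A : PowerSeries ℤ := PowerSeries.mk fun k => if k = 0 then (p : ℤ) - 1 else
    24 * (sigP p k - a k) with hA
  have hg : qExpansion 1 g = toC A := by
    ext n
    have e1 : qExpansion 1 ⇑g = qExpansion 1 ⇑e - (24 : ℂ) • qExpansion 1 ⇑f := by
      have : (⇑g : ℍ → ℂ) = ⇑e - (24 : ℂ) • ⇑(ModularFormClass.modularForm f : ModularForm (Gamma0 p) 2) := by
        rfl
      rw [this]
      have h2 := ModularForm.qExpansion_smul one_pos h1 (24 : ℂ)
        (ModularFormClass.modularForm f : ModularForm (Gamma0 p) 2)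
      have h3 := ModularForm.qExpansion_sub one_pos h1 e
        ((24 : ℂ) • (ModularFormClass.modularForm f : ModularForm (Gamma0 p) 2))
      have h4 : (⇑((24 : ℂ) • (ModularFormClass.modularForm f : ModularForm (Gamma0 p) 2)) : ℍ → ℂ)
        = (24 : ℂ) • ⇑(ModularFormClass.modularForm f : ModularForm (Gamma0 p) 2) := rfl
      rw [h4] at h3
      rw [h3, h2]
      rfl
    have ha' : (qExpansion 1 ⇑f).coeff n = a n := ha n
    rw [e1, he, map_sub, PowerSeries.coeff_smul, ha', coeff_toC, coeff_toC, eis24, hA,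
      PowerSeries.coeff_mk, PowerSeries.coeff_mk]
    split_ifs with h
    · have : (a 0 : ℂ) = 0 := by rw [← ha 0]; exact qCoeff_at_zero f
      rw [h, this]; simp
    · unfold sigP; push_cast; simp; ring
  have hPP := PP.weightTwo g hg
  refine upper_arith hp5 hPP ?_ ?_
  · rw [hA, PowerSeries.coeff_mk, if_pos rfl]
  · intro n hn
    rw [hA, PowerSeries.coeff_mk, if_neg hn]
    obtain ⟨c, hc⟩ := hc n hn
    exact ⟨-c, by linear_combination (-24) * hc⟩

theorem cusp_eq_zero_of_lt_five (hp5 : p < 5) (f : CuspForm (Gamma0 p) 2) : f = 0 := by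
  apply eq_zero_of_forall_le
  intro n hn
  have hidx : sturmN p 2 = 0 := by
    unfold sturmN
    rw [P1Count.index_Gamma0]
    have h := P1Count.dedekindPsi_primePow p 0 hp.out
    have h2 := hp.out.two_le
    simp only [zero_add, pow_one] at h
    rw [h]
    norm_num
    interval_cases p <;> norm_num
  rw [hidx] at hn
  have : n = 0 := by omega
  rw [this]
  exact qCoeff_at_zero f

theorem upper_of_lt_five (hp5 : p < 5) (m : ℕ) (f : CuspForm (Gamma0 p) 2) (a : ℕ → ℤ)
    (ha : ∀ k, qCoeff ⇑f k = a k) (hc : ∀ k, k ≠ 0 → (m : ℤ) ∣ a k - sigP p k) :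
    m ∣ eisensteinNumerator p := by
  have h1 := hc 1 one_ne_zero
  have h2 : a 1 = 0 := by
    have := ha 1
    rw [cusp_eq_zero_of_lt_five hp5 f, qCoeff_zero] at this
    exact_mod_cast this.symm
  rw [h2, sigP_one hp.out, zero_sub, dvd_neg] at h1
  have : m = 1 := by exact_mod_cast Int.natAbs_dvd_natAbs.mpr h1 |> Nat.dvd_one.mp
  rw [this]
  exact one_dvd _

end Fermat.Agent.S16

end
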