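import Fermat.Agent.S16.Series
import Fermat.Agent.S16.Pair
import Fermat.Agent.S16.LevelOneConst

/-!
# The arithmetic core of the upper bound
-/

set_option autoImplicit false

noncomputable section

namespace Fermat.Agent.S16

open PowerSeries

variable {p κ : ℕ}

/-- **Power trace.** If `Z = (Z∞, Z₀)` is a pair of weight `2κ` congruent to the pair of a level one
power series `R` mod `ℓ`, where `ℓ ∣ p + 1`, then a unit multiple of `R^(ℓ^s)` is the reduction of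
a level one form of weight `2κ ℓ^s`. -/
theorem power_trace [hp : Fact p.Prime] {ℓ : ℕ} (hℓ : ℓ.Prime) (hdvd : ℓ ∣ p + 1) (hκ : 1 ≤ κ)
    {Z Z0 R : PowerSeries ℤ} (hZ : PP p κ Z Z0)
    (h1 : ((ℓ : ℤ) : PowerSeries ℤ) ∣ Z - R)
    (h2 : ((ℓ : ℤ) : PowerSeries ℤ) ∣ Z0 - ((p ^ κ : ℤ) : PowerSeries ℤ) * Vp p R) :
    ∃ (s : ℕ) (u : ℤ) (C : PowerSeries ℤ), ¬ (ℓ : ℤ) ∣ u ∧ LOne (κ * ℓ ^ s) C ∧
      ((ℓ : ℤ) : PowerSeries ℤ) ∣ C - (u : PowerSeries ℤ) * R ^ ℓ ^ s := by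
  have hp0 : p ≠ 0 := hp.out.ne_zero
  have hℓp : ¬ ℓ ∣ p := fun h => by
    have : ℓ ∣ 1 := (Nat.dvd_add_right h).mp hdvd
    exact hℓ.one_lt.ne' (Nat.dvd_one.mp this)
  obtain ⟨s, t, ht, hst⟩ := Nat.exists_eq_pow_mul_and_not_dvd (n := p + 1) (by omega) ℓ hℓ.ne_one
  have hpos : 1 ≤ κ * ℓ ^ s := Nat.mul_pos hκ (Nat.pow_pos hℓ.pos)
  obtain ⟨a, ha⟩ := pow_cong h1 s
  obtain ⟨b, hb⟩ := pow_cong h2 s
  have hpow := hZ.pow (ℓ ^ s)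
  rw [mul_comm] at hpow
  have htr := hpow.trace hpos
  set e : ℕ := κ * ℓ ^ s - 1 with he
  have he1 : κ * ℓ ^ s = e + 1 := by omega
  -- compute the trace
  have hb' : Z0 ^ ℓ ^ s = ((p : ℤ) ^ (e + 1) : ℤ) • Vp p (R ^ ℓ ^ s) +
      ((ℓ ^ (s + 1) : ℕ) : ℤ) • b := by
    rw [zsmul_eq_mul, zsmul_eq_mul, ← hb, mul_pow, Vp_pow p hp0, ← he1]
    push_cast
    rw [← pow_mul]
    ring
  have hU : Up p (Z0 ^ ℓ ^ s) = ((p : ℤ) ^ (e + 1) : ℤ) • (R ^ ℓ ^ s) +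
      ((ℓ ^ (s + 1) : ℕ) : ℤ) • Up p b := by
    rw [hb', Up_add, Up_zsmul, Up_zsmul, Up_Vp p hp0]
  have hA : Z ^ ℓ ^ s = R ^ ℓ ^ s + ((ℓ ^ (s + 1) : ℕ) : ℤ) • a := by
    rw [zsmul_eq_mul, ← ha]; ring
  have hp1 : ((p : ℤ) : PowerSeries ℤ) + 1 = ((ℓ : ℤ) : PowerSeries ℤ) ^ s * ((t : ℤ) : PowerSeries ℤ) := by
    have : ((p + 1 : ℕ) : PowerSeries ℤ) = ((ℓ ^ s * t : ℕ) : PowerSeries ℤ) := by rw [hst]
    push_cast at this ⊢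
    exact this
  have key : ((p : ℤ) ^ e : ℤ) • Z ^ ℓ ^ s + Up p (Z0 ^ ℓ ^ s) =
      ((ℓ : ℤ) ^ s) • ((((p : ℤ) ^ e * t : ℤ)) • (R ^ ℓ ^ s) +
        (ℓ : ℤ) • (((p : ℤ) ^ e) • a + Up p b)) := by
    rw [hU, hA]
    simp only [zsmul_eq_mul]
    push_cast
    push_cast at hp1
    linear_combination ((p : PowerSeries ℤ) ^ e * R ^ ℓ ^ s) * hp1
  rw [key] at htr
  have hne : ((ℓ : ℤ) ^ s) ≠ 0 := pow_ne_zero _ (by exact_mod_cast hℓ.ne_zero)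
  refine ⟨s, (p : ℤ) ^ e * t, _, ?_, LOne.div hne htr, ?_⟩
  · intro h
    have hℓ' : Prime (ℓ : ℤ) := Nat.prime_iff_prime_int.mp hℓ
    rcases hℓ'.dvd_or_dvd h with h | h
    · exact hℓp (by exact_mod_cast hℓ'.dvd_of_dvd_pow h)
    · exact ht (by exact_mod_cast h)
  · refine ⟨((p : ℤ) ^ e) • a + Up p b, ?_⟩
    simp only [zsmul_eq_mul]
    push_cast
    ring

/-- low order version -/
theorem power_trace_false [hp : Fact p.Prime] {ℓ : ℕ} (hℓ : ℓ.Prime) (hdvd : ℓ ∣ p + 1)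
    (hκ : 1 ≤ κ) (hκ5 : κ ≤ 5)
    {Z Z0 R : PowerSeries ℤ} (hZ : PP p κ Z Z0)
    (h1 : ((ℓ : ℤ) : PowerSeries ℤ) ∣ Z - R)
    (h2 : ((ℓ : ℤ) : PowerSeries ℤ) ∣ Z0 - ((p ^ κ : ℤ) : PowerSeries ℤ) * Vp p R)
    (hR0 : R.coeff 0 = 0) (hR1 : R.coeff 1 = 1) : False := by
  obtain ⟨s, u, C, hu, hC, hdC⟩ := power_trace hℓ hdvd hκ hZ h1 h2
  rw [intCast_dvd_iff] at hdC
  obtain ⟨R', hR'⟩ : (X : PowerSeries ℤ) ∣ R := by
    rw [PowerSeries.X_dvd_iff, ← PowerSeries.coeff_zero_eq_constantCoeff_apply, hR0]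
  have hR'0 : R'.coeff 0 = 1 := by
    rw [← hR1, hR', show (1 : ℕ) = 0 + 1 from rfl, PowerSeries.coeff_succ_X_mul]
  have hcoef : ∀ n, n ≤ ℓ ^ s → (R ^ ℓ ^ s).coeff n = if n = ℓ ^ s then 1 else 0 := by
    intro n hn
    rw [hR', mul_pow, PowerSeries.coeff_X_pow_mul']
    by_cases h : n = ℓ ^ s
    · rw [if_pos h.ge, if_pos h, h, Nat.sub_self, PowerSeries.coeff_zero_eq_constantCoeff_apply,
        map_pow, ← PowerSeries.coeff_zero_eq_constantCoeff_apply, hR'0, one_pow]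
    · rw [if_neg (by omega), if_neg h]
  have hpos : 0 < ℓ ^ s := Nat.pow_pos hℓ.pos
  have hall := fun N => hC.sturm (m := (ℓ : ℤ)) (n := N) fun n hn => by
    have hn' : n < ℓ ^ s := by
      by_contra hge
      push Not at hge
      have : 6 * ℓ ^ s ≤ κ * ℓ ^ s := (Nat.mul_le_mul_left 6 hge).trans hn
      have := Nat.le_of_mul_le_mul_right this hpos
      omega
    have := hdC n
    rw [map_sub, ← zsmul_eq_mul, map_zsmul, hcoef n hn'.le, if_neg hn'.ne, smul_zero, sub_zero] at this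
    exact this
  have h3 := hdC (ℓ ^ s)
  rw [map_sub, ← zsmul_eq_mul, map_zsmul, hcoef _ le_rfl, if_pos rfl, smul_eq_mul, mul_one] at h3
  exact hu ((dvd_sub_right (hall _)).mp h3)

end Fermat.Agent.S16

end
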