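import Fermat.Agent.S16.UpperTwo

/-!
# The upper bound, arithmetic form
-/

set_option autoImplicit false

noncomputable section

namespace Fermat.Agent.S16

open PowerSeries

variable {p : ℕ}

theorem exists_div_series {ℓ b r : ℕ} (hℓ : ℓ ≠ 0)
    {A : PowerSeries ℤ} {x : ℤ} (hA : PP p 1 A (-(Up p A)))
    (h0 : A.coeff 0 = (ℓ : ℤ) ^ b * x) (hk : ∀ n, n ≠ 0 → ((ℓ : ℤ) ^ (b + r)) ∣ A.coeff n) :
    ∃ A' : PowerSeries ℤ, PP p 1 A' (-(Up p A')) ∧
      (((ℓ ^ r : ℕ) : ℤ) : PowerSeries ℤ) ∣ A' - (x : PowerSeries ℤ) := by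
  choose! c hc using hk
  set A' : PowerSeries ℤ := PowerSeries.mk fun n => if n = 0 then x else (ℓ : ℤ) ^ r * c n with hA'
  have e : A = ((ℓ : ℤ) ^ b) • A' := by
    ext n
    rw [map_zsmul, hA', PowerSeries.coeff_mk, smul_eq_mul]
    split_ifs with h
    · rw [h, h0]
    · rw [hc n h, pow_add]; ring
  refine ⟨A', ?_, ?_⟩
  · rw [e, Up_zsmul, ← smul_neg] at hA
    exact PP.div (pow_ne_zero _ (by exact_mod_cast hℓ)) hA
  · rw [intCast_dvd_iff]
    intro n
    rw [map_sub, hA', PowerSeries.coeff_mk]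
    split_ifs with h
    · rw [h, coeff_intCast_zero, sub_self]; exact dvd_zero _
    · rw [coeff_intCast_ne _ h, sub_zero]; push_cast; exact Dvd.intro _ rfl

/-- **The upper bound, arithmetic form.** -/
theorem upper_arith [hp : Fact p.Prime] (hp5 : 5 ≤ p) {m : ℕ}
    {A : PowerSeries ℤ} (hA : PP p 1 A (-(Up p A)))
    (h0 : A.coeff 0 = (p : ℤ) - 1) (hk : ∀ n, n ≠ 0 → (24 * m : ℤ) ∣ A.coeff n) :
    m ∣ (p - 1) / Nat.gcd (p - 1) 12 := by
  have hp1 : p - 1 ≠ 0 := by omega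
  have hcast : ((p - 1 : ℕ) : ℤ) = (p : ℤ) - 1 := by
    rw [Nat.cast_sub (by omega)]; simp
  set g := Nat.gcd (p - 1) 12 with hg
  have hgd : g ∣ p - 1 := Nat.gcd_dvd_left _ _
  have hg12 : g ∣ 12 := Nat.gcd_dvd_right _ _
  obtain ⟨N, hN⟩ := hgd
  have hg0 : 0 < g := Nat.pos_of_ne_zero (by rintro h; rw [h, zero_mul] at hN; exact hp1 hN)
  rw [hN, Nat.mul_div_cancel_left _ hg0]
  rw [Nat.dvd_iff_prime_pow_dvd_dvd]
  intro ℓ j hℓ hj
  rcases Nat.eq_zero_or_pos j with rfl | hjpos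
  · simp
  obtain ⟨b, x, hx, hbx⟩ := Nat.exists_eq_pow_mul_and_not_dvd hp1 ℓ hℓ.ne_one
  have hA0 : A.coeff 0 = (ℓ : ℤ) ^ b * (x : ℤ) := by
    rw [h0, ← hcast, hbx]; push_cast; ring
  have hxz : ¬ (ℓ : ℤ) ∣ (x : ℤ) := by exact_mod_cast hx
  -- divisibility of the coefficients
  have hcoef : ∀ c : ℕ, ℓ ^ c ∣ 24 → ∀ e, e ≤ c + j → ∀ n, n ≠ 0 → (ℓ : ℤ) ^ e ∣ A.coeff n := by
    intro c hc e he n hn
    have h1 : ℓ ^ e ∣ 24 * m := by
      refine (pow_dvd_pow ℓ he).trans ?_
      rw [pow_add]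
      exact mul_dvd_mul hc hj
    have h2 : ((ℓ ^ e : ℕ) : ℤ) ∣ ((24 * m : ℕ) : ℤ) := by exact_mod_cast h1
    push_cast at h2
    exact h2.trans (hk n hn)
  have hℓ0 := hℓ.ne_zero
  by_cases h2 : ℓ = 2
  · subst h2
    have hpodd : p % 2 = 1 := by
      rcases hp.out.eq_two_or_odd with h | h
      · omega
      · exact h
    have hb1 : 1 ≤ b := by
      by_contra hb
      have : b = 0 := by omega
      rw [this, pow_zero, one_mul] at hbx
      apply hx
      rw [← hbx]
      omega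
    have hne : 2 ≠ p := by omega
    have hb2 : 2 ≤ b := by
      by_contra hb
      have hb' : b = 1 := by omega
      obtain ⟨A', hA', hd⟩ := exists_div_series (r := 3) hℓ0 hA hA0
        (hcoef 3 (by norm_num) _ (by omega))
      exact false_of_two hne hA' hxz (by norm_num at hd ⊢; exact hd)
    have h4 : 4 ∣ p - 1 := by
      rw [hbx]
      exact Dvd.dvd.mul_right ((by norm_num : (4 : ℕ) ∣ 2 ^ 2).trans (pow_dvd_pow 2 hb2)) _
    have hbj : j + 2 ≤ b := by
      by_contra hb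
      obtain ⟨A', hA', hd⟩ := exists_div_series (r := 2) hℓ0 hA hA0
        (hcoef 3 (by norm_num) _ (by omega))
      have := dvd_p_add_one hℓ hne hA' hxz hd
      omega
    have h3 : 2 ^ (j + 2) ∣ g * N := by
      rw [← hN, hbx]
      exact Dvd.dvd.mul_right (pow_dvd_pow 2 hbj) _
    have hg4 : 4 ∣ g := Nat.dvd_gcd h4 (by norm_num)
    obtain ⟨g', hg'⟩ := hg4
    rw [hg', show j + 2 = 2 + j from add_comm _ _, pow_add, show (2 : ℕ) ^ 2 = 4 by norm_num,
      mul_assoc] at h3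
    have h5 := Nat.dvd_of_mul_dvd_mul_left (by norm_num) h3
    have hodd : Nat.Coprime (2 ^ j) g' := by
      apply Nat.Coprime.pow_left
      rw [Nat.coprime_two_left, Nat.odd_iff]
      have : g' ∣ 3 := by
        have := hg12
        rw [hg', show (12 : ℕ) = 4 * 3 by norm_num] at this
        exact Nat.dvd_of_mul_dvd_mul_left (by norm_num) this
      rcases (Nat.dvd_prime Nat.prime_three).mp this with h | h <;> omega
    exact hodd.dvd_of_dvd_mul_left h5
  by_cases h3 : ℓ = 3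
  · subst h3
    have hne : 3 ≠ p := by omega
    have hb1 : 1 ≤ b := by
      by_contra hb
      have hb' : b = 0 := by omega
      obtain ⟨A', hA', hd⟩ := exists_div_series (r := 2) hℓ0 hA hA0
        (hcoef 1 (by norm_num) _ (by omega))
      exact false_of_three hne hA' hxz (by norm_num at hd ⊢; exact hd)
    have h3 : 3 ∣ p - 1 := by
      rw [hbx]
      exact Dvd.dvd.mul_right (dvd_pow_self 3 (by omega)) _
    have hbj : j + 1 ≤ b := by
      by_contra hb
      obtain ⟨A', hA', hd⟩ := exists_div_series (r := 1) hℓ0 hA hA0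
        (hcoef 1 (by norm_num) _ (by omega))
      have := dvd_p_add_one hℓ hne hA' hxz hd
      omega
    have h3' : 3 ^ (j + 1) ∣ g * N := by
      rw [← hN, hbx]
      exact Dvd.dvd.mul_right (pow_dvd_pow 3 hbj) _
    have hg3 : 3 ∣ g := Nat.dvd_gcd h3 (by norm_num)
    obtain ⟨g', hg'⟩ := hg3
    rw [hg', show j + 1 = 1 + j from add_comm _ _, pow_add, pow_one, mul_assoc] at h3'
    have h5 := Nat.dvd_of_mul_dvd_mul_left (by norm_num) h3'
    have hcop : Nat.Coprime (3 ^ j) g' := by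
      apply Nat.Coprime.pow_left
      have hg4 : g' ∣ 4 := by
        have := hg12
        rw [hg', show (12 : ℕ) = 3 * 4 by norm_num] at this
        exact Nat.dvd_of_mul_dvd_mul_left (by norm_num) this
      exact Nat.Coprime.coprime_dvd_right hg4 (by norm_num)
    exact hcop.dvd_of_dvd_mul_left h5
  -- `ℓ ≥ 5`
  have h5 : 5 ≤ ℓ := by
    have := hℓ.two_le
    by_contra h
    interval_cases ℓ <;> first | omega | (exact absurd hℓ (by norm_num))
  have hbj : j ≤ b := by
    by_contra hb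
    obtain ⟨A', hA', hd⟩ := exists_div_series (r := 1) hℓ0 hA hA0
      (hcoef 0 (by norm_num) _ (by omega))
    rw [pow_one] at hd
    by_cases hne : ℓ = p
    · subst hne
      exact false_of_self hp5 hA' hxz hd
    · exact false_of_five_le hℓ h5 hne hA' hxz hd
  have h3' : ℓ ^ j ∣ g * N := by
    rw [← hN, hbx]
    exact Dvd.dvd.mul_right (pow_dvd_pow ℓ hbj) _
  have hcop : Nat.Coprime (ℓ ^ j) g := by
    apply Nat.Coprime.pow_left
    rw [hℓ.coprime_iff_not_dvd]
    intro h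
    have h12 : ℓ ∣ 12 := h.trans hg12
    have : ℓ ∣ 2 ^ 2 * 3 := by norm_num; exact h12
    rcases hℓ.dvd_mul.mp this with h | h
    · have := (Nat.prime_dvd_prime_iff_eq hℓ Nat.prime_two).mp (hℓ.dvd_of_dvd_pow h)
      omega
    · have := (Nat.prime_dvd_prime_iff_eq hℓ Nat.prime_three).mp h
      omega
  exact hcop.dvd_of_dvd_mul_left h3'

end Fermat.Agent.S16

end
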