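import Fermat.Agent.S16.UpperSteps

/-!
# The arithmetic core of the upper bound: the cases `ℓ ≥ 5`, `ℓ = 3`, `ℓ = 2`
-/

set_option autoImplicit false

noncomputable section

namespace Fermat.Agent.S16

open PowerSeries

variable {p : ℕ}

/-- normalisation to constant term `1` -/
theorem exists_normalised {ℓ r : ℕ} (hℓ : ℓ.Prime)
    {A : PowerSeries ℤ} {x : ℤ} (hA : PP p 1 A (-(Up p A)))
    (hx : ¬ (ℓ : ℤ) ∣ x) (hc : (((ℓ ^ r : ℕ) : ℤ) : PowerSeries ℤ) ∣ A - (x : PowerSeries ℤ)) :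
    ∃ A' : PowerSeries ℤ, PP p 1 A' (-(Up p A')) ∧
      (((ℓ ^ r : ℕ) : ℤ) : PowerSeries ℤ) ∣ A' - 1 := by
  have hcop : IsCoprime x (((ℓ ^ r : ℕ) : ℤ)) := by
    push_cast
    exact (((Nat.prime_iff_prime_int.mp hℓ).coprime_iff_not_dvd.mpr hx).pow_left).symm
  obtain ⟨u, v, huv⟩ := hcop
  refine ⟨u • A, ?_, ?_⟩
  · have := hA.zsmul u
    rwa [smul_neg, ← Up_zsmul] at this
  · obtain ⟨K, hK⟩ := hc
    refine ⟨(u : PowerSeries ℤ) * K - v, ?_⟩
    have h2 := congrArg (Int.cast (R := PowerSeries ℤ)) huv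
    rw [Int.cast_add, Int.cast_mul, Int.cast_mul, Int.cast_one] at h2
    rw [zsmul_eq_mul]
    linear_combination (u : PowerSeries ℤ) * hK + h2

theorem false_of_five_le [hp : Fact p.Prime] {ℓ : ℕ} (hℓ : ℓ.Prime) (h5 : 5 ≤ ℓ) (hℓp : ℓ ≠ p)
    {A : PowerSeries ℤ} {x : ℤ} (hA : PP p 1 A (-(Up p A)))
    (hx : ¬ (ℓ : ℤ) ∣ x) (hc : ((ℓ : ℤ) : PowerSeries ℤ) ∣ A - (x : PowerSeries ℤ)) : False := by
  have hp0 : p ≠ 0 := hp.out.ne_zero
  have hc' : (((ℓ ^ 1 : ℕ) : ℤ) : PowerSeries ℤ) ∣ A - (x : PowerSeries ℤ) := by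
    rwa [pow_one]
  have hdvd : ℓ ∣ p + 1 := by simpa using dvd_p_add_one hℓ hℓp hA hx hc'
  have hd : ((ℓ : ℤ) : PowerSeries ℤ) ∣ (p : PowerSeries ℤ) + 1 := by
    obtain ⟨t, ht⟩ := hdvd
    refine ⟨(t : PowerSeries ℤ), ?_⟩
    exact_mod_cast congrArg (Nat.cast (R := PowerSeries ℤ)) ht
  obtain ⟨s, u, C, hu, hC, hdC⟩ := power_trace hℓ hdvd le_rfl hA hc (by
    rw [Vp_intCast p hp0]
    have hUK := dvd_Up p hc
    rw [Up_sub, Up_intCast p hp0] at hUK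
    have : -(Up p A) - (((p : ℤ) ^ 1 : ℤ) : PowerSeries ℤ) * (x : PowerSeries ℤ) =
        -(Up p A - x) - x * ((p : PowerSeries ℤ) + 1) := by
      push_cast; ring
    rw [this]
    exact dvd_sub (hUK.neg_right) (hd.mul_left _))
  rw [intCast_dvd_iff] at hdC
  rw [one_mul] at hC
  have hcoef : ∀ n, ((u : PowerSeries ℤ) * (x : PowerSeries ℤ) ^ ℓ ^ s).coeff n =
      if n = 0 then u * x ^ ℓ ^ s else 0 := by
    intro n
    rw [show (u : PowerSeries ℤ) * (x : PowerSeries ℤ) ^ ℓ ^ s =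
      ((u * x ^ ℓ ^ s : ℤ) : PowerSeries ℤ) by push_cast; rfl]
    split_ifs with h
    · rw [h, coeff_intCast_zero]
    · rw [coeff_intCast_ne _ h]
  have h0 := hC.const_mod hℓ h5 fun n hn => by
    have := hdC n
    rwa [map_sub, hcoef, if_neg (by omega), sub_zero] at this
  have h1 := hdC 0
  rw [map_sub, hcoef, if_pos rfl] at h1
  have h2 := (dvd_sub_right h0).mp h1
  have hprime := Nat.prime_iff_prime_int.mp hℓ
  rcases hprime.dvd_or_dvd h2 with h | h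
  · exact hu h
  · exact hx (hprime.dvd_of_dvd_pow h)

theorem E4s_eq' : E4s = 1 + 240 * A3s := by
  rw [E4s_eq, zsmul_eq_mul]; norm_num

theorem E6s_eq' : E6s = 1 - 504 * A5s := by
  rw [E6s_eq, zsmul_eq_mul]; norm_num

theorem A3s_zero : A3s.coeff 0 = 0 := by simp [A3s]
theorem A3s_one : A3s.coeff 1 = 1 := by simp [A3s]

theorem Vp_E4s (hp : p ≠ 0) : Vp p E4s = 1 + 240 * Vp p A3s := by
  rw [E4s_eq', Vp_add, Vp_one p hp, show (240 : PowerSeries ℤ) * A3s = (240 : ℤ) • A3s by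
    rw [zsmul_eq_mul]; norm_num, Vp_zsmul, zsmul_eq_mul]
  norm_num

theorem Vp_E6s (hp : p ≠ 0) : Vp p E6s = 1 - 504 * Vp p A5s := by
  rw [E6s_eq', Vp_sub, Vp_one p hp, show (504 : PowerSeries ℤ) * A5s = (504 : ℤ) • A5s by
    rw [zsmul_eq_mul]; norm_num, Vp_zsmul, zsmul_eq_mul]
  norm_num

theorem false_of_three [hp : Fact p.Prime] (hℓp : 3 ≠ p)
    {A : PowerSeries ℤ} {x : ℤ} (hA : PP p 1 A (-(Up p A)))
    (hx : ¬ (3 : ℤ) ∣ x) (hc : ((9 : ℤ) : PowerSeries ℤ) ∣ A - (x : PowerSeries ℤ)) : False := by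
  have hp0 : p ≠ 0 := hp.out.ne_zero
  have hc' : (((3 ^ 2 : ℕ) : ℤ) : PowerSeries ℤ) ∣ A - (x : PowerSeries ℤ) := by
    norm_num; norm_num at hc; exact hc
  have hdvd : 3 ^ 2 ∣ p + 1 := dvd_p_add_one Nat.prime_three hℓp hA (by exact_mod_cast hx) hc'
  obtain ⟨B, hB, hB1⟩ := exists_normalised Nat.prime_three hA (by exact_mod_cast hx) hc'
  obtain ⟨u, hu⟩ := hdvd
  obtain ⟨k, hk⟩ := hB1
  have hpu : (p : PowerSeries ℤ) = 9 * (u : PowerSeries ℤ) - 1 := by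
    have := congrArg (Nat.cast (R := PowerSeries ℤ)) hu
    push_cast at this
    linear_combination this
  have hBk : B = 1 + 9 * k := by
    push_cast at hk
    linear_combination hk
  have hUB : Up p B = 1 + 9 * Up p k := by
    rw [hBk, Up_add, Up_one p hp0, show (9 : PowerSeries ℤ) * k = (9 : ℤ) • k by
      rw [zsmul_eq_mul]; norm_num, Up_zsmul, zsmul_eq_mul]
    norm_num
  have hE4 : PP p 2 E4s (((p : ℤ) ^ 2) • Vp p E4s) := PP.ofLOne LOne_E4s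
  have hK3 : PP p 2 (B * B - E4s) (-(Up p B) * -(Up p B) - ((p : ℤ) ^ 2) • Vp p E4s) :=
    (hB.mul hB).sub hE4
  have e1 : B * B - E4s = (3 : ℤ) • (6 * k + 27 * k ^ 2 - 80 * A3s) := by
    rw [hBk, E4s_eq', zsmul_eq_mul]; push_cast; ring
  have e2 : -(Up p B) * -(Up p B) - ((p : ℤ) ^ 2) • Vp p E4s =
      (3 : ℤ) • (6 * Up p k + 27 * (Up p k) ^ 2 - (27 * (u : PowerSeries ℤ) ^ 2 - 6 * u) -
        80 * (p : PowerSeries ℤ) ^ 2 * Vp p A3s) := by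
    rw [hUB, Vp_E4s hp0, zsmul_eq_mul, zsmul_eq_mul]
    push_cast
    have : (p : PowerSeries ℤ) ^ 2 = 81 * (u : PowerSeries ℤ) ^ 2 - 18 * u + 1 := by rw [hpu]; ring
    linear_combination -this
  rw [e1, e2] at hK3
  have hK := PP.div (by norm_num) hK3
  refine power_trace_false (R := A3s) Nat.prime_three (Dvd.intro (3 * u) ?_) (by norm_num)
    (by norm_num) hK ?_ ?_ A3s_zero A3s_one
  · rw [hu]; ring
  · refine ⟨2 * k + 9 * k ^ 2 - 27 * A3s, ?_⟩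
    push_cast; ring
  · refine ⟨2 * Up p k + 9 * (Up p k) ^ 2 - (9 * (u : PowerSeries ℤ) ^ 2 - 2 * u) -
        27 * (p : PowerSeries ℤ) ^ 2 * Vp p A3s, ?_⟩
    push_cast; ring

/-- The algebraic identity behind the case `ℓ = 2`. -/
theorem two_identity {R : Type*} [CommRing R] [NoZeroDivisors R] [CharZero R]
    (h e4 e6 δ K H w : R)
    (hK : h ^ 2 - e4 = 16 * K) (hH : h * e4 - e6 = 8 * H)
    (hδ : 1728 * δ = e4 ^ 3 - e6 ^ 2) (hw : h ^ 4 = 1 + 4 * w) :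
    ∃ D : R, H - h * K = 4 * D ∧
      D = h * (27 * δ + H ^ 2 + 4 * h * K * H - 8 * h ^ 2 * K ^ 2 + 64 * K ^ 3) - w * (H - h * K) := by
  refine ⟨_, ?_, rfl⟩
  have he4 : e4 = h ^ 2 - 16 * K := by linear_combination -hK
  have he6 : e6 = h ^ 3 - 16 * h * K - 8 * H := by
    have : e6 = h * e4 - 8 * H := by linear_combination -hH
    rw [this, he4]; ring
  have key : h ^ 3 * (H - h * K) = 4 * (27 * δ + H ^ 2 + 4 * h * K * H - 8 * h ^ 2 * K ^ 2 +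
      64 * K ^ 3) := by
    have h16 : (16 : R) ≠ 0 := by norm_num
    apply mul_left_cancel₀ h16
    rw [he4, he6] at hδ
    linear_combination -hδ
  linear_combination (-(H - h * K)) * hw + h * key

end Fermat.Agent.S16

end
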