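import Fermat.Agent.S16.UpperCore

/-!
# The arithmetic core of the upper bound: the individual primes
-/

set_option autoImplicit false

noncomputable section

namespace Fermat.Agent.S16

open PowerSeries

variable {p : ℕ}

theorem Up_coeff_zero (A : PowerSeries ℤ) : (Up p A).coeff 0 = A.coeff 0 := by
  rw [coeff_Up, mul_zero]

theorem Vp_coeff_zero (A : PowerSeries ℤ) : (Vp p A).coeff 0 = A.coeff 0 := by
  rw [coeff_Vp, if_pos (dvd_zero _), Nat.zero_div]

theorem Vp_coeff_one (hp : 2 ≤ p) (A : PowerSeries ℤ) : (Vp p A).coeff 1 = 0 := by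
  rw [coeff_Vp, if_neg]
  intro h
  have := Nat.le_of_dvd one_pos h
  omega

theorem coeff_zero_mul' (A B : PowerSeries ℤ) : (A * B).coeff 0 = A.coeff 0 * B.coeff 0 := by
  simp [PowerSeries.coeff_zero_eq_constantCoeff]

/-- the weight 14 argument -/
theorem dvd_p_add_one [hp : Fact p.Prime] {ℓ r : ℕ} (hℓ : ℓ.Prime) (hℓp : ℓ ≠ p)
    {A : PowerSeries ℤ} {x : ℤ} (hA : PP p 1 A (-(Up p A)))
    (hx : ¬ (ℓ : ℤ) ∣ x) (hc : (((ℓ ^ r : ℕ) : ℤ) : PowerSeries ℤ) ∣ A - (x : PowerSeries ℤ)) :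
    ℓ ^ r ∣ p + 1 := by
  have hp0 : p ≠ 0 := hp.out.ne_zero
  have hp2 : 2 ≤ p := hp.out.two_le
  have h12 : PP p 6 (((p ^ 6 : ℤ)) • Vp p Ds) Ds := PP.ofLOneV LOne_Ds
  -- weight 12 relation
  have t12 := h12.trace (by norm_num)
  have t12' := t12.eq_of_six (by
    rw [map_add, map_zsmul, map_zsmul, Vp_coeff_zero, Up_coeff_zero, coeff_zero_Ds]; simp)
  -- weight 14 relation
  have h14 : PP p (1 + 6) (A * ((p ^ 6 : ℤ) • Vp p Ds)) (-(Up p A) * Ds) := hA.mul h12
  have t14 := h14.trace (by norm_num)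
  have t14' := t14.eq_zero_of_seven (by
    rw [map_add, map_zsmul, coeff_zero_mul', Up_coeff_zero, coeff_zero_mul', map_zsmul,
      Vp_coeff_zero, coeff_zero_Ds]; simp)
  obtain ⟨K, hK⟩ := hc
  set M : ℤ := ((ℓ ^ r : ℕ) : ℤ) with hM
  have hAK : A = (x : PowerSeries ℤ) + (M : PowerSeries ℤ) * K := by rw [← hK]; ring
  have hUA : Up p A = (x : PowerSeries ℤ) + (M : PowerSeries ℤ) * Up p K := by
    rw [hAK, Up_add, Up_intCast p hp0, ← zsmul_eq_mul, ← zsmul_eq_mul, Up_zsmul]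
  -- congruence mod M of the weight 14 relation
  have c1 : (M : PowerSeries ℤ) ∣ (x : PowerSeries ℤ) * (((p : PowerSeries ℤ)) ^ 12 * Vp p Ds - Up p Ds) := by
    refine ⟨Up p (Up p K * Ds) - ((p : PowerSeries ℤ)) ^ 12 * K * Vp p Ds, ?_⟩
    have e1 : Up p (-(Up p A) * Ds) = -((x : PowerSeries ℤ) * Up p Ds +
        (M : PowerSeries ℤ) * Up p (Up p K * Ds)) := by
      rw [hUA, neg_mul, Up_neg, add_mul, Up_add, mul_assoc]
      rw [← zsmul_eq_mul, ← zsmul_eq_mul, ← zsmul_eq_mul, ← zsmul_eq_mul, Up_zsmul, Up_zsmul]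
    rw [e1, hAK] at t14'
    simp only [zsmul_eq_mul] at t14'
    push_cast at t14'
    linear_combination t14'
  have hcop : IsCoprime M x := by
    rw [hM]
    push_cast
    exact ((Nat.prime_iff_prime_int.mp hℓ).coprime_iff_not_dvd.mpr hx).pow_left
  have c2 : (M : PowerSeries ℤ) ∣ ((p : PowerSeries ℤ)) ^ 12 * Vp p Ds - Up p Ds := by
    obtain ⟨u, v, huv⟩ := hcop
    obtain ⟨c, hc⟩ := c1
    refine ⟨(u : PowerSeries ℤ) * (((p : PowerSeries ℤ)) ^ 12 * Vp p Ds - Up p Ds) +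
      (v : PowerSeries ℤ) * c, ?_⟩
    have : (u : PowerSeries ℤ) * M + v * x = 1 := by exact_mod_cast congrArg (Int.cast (R := PowerSeries ℤ)) huv
    linear_combination (v : PowerSeries ℤ) * hc -
      (((p : PowerSeries ℤ)) ^ 12 * Vp p Ds - Up p Ds) * this
  -- coefficient of q
  rw [intCast_dvd_iff] at c2
  have hUds1 : M ∣ Ds.coeff p := by
    have := c2 1
    rw [map_sub, coeff_Up, mul_one] at this
    have h0 : (((p : PowerSeries ℤ)) ^ 12 * Vp p Ds).coeff 1 = 0 := by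
      rw [show ((p : PowerSeries ℤ)) ^ 12 = (((p ^ 12 : ℕ) : ℤ) : PowerSeries ℤ) by push_cast; rfl,
        ← zsmul_eq_mul, map_zsmul, Vp_coeff_one hp2, smul_zero]
    rw [h0, zero_sub, dvd_neg] at this
    exact this
  -- coefficient of q^p
  have hq := c2 p
  have h1 : (((p : PowerSeries ℤ)) ^ 12 * Vp p Ds).coeff p = (p : ℤ) ^ 12 := by
    rw [show ((p : PowerSeries ℤ)) ^ 12 = (((p ^ 12 : ℕ) : ℤ) : PowerSeries ℤ) by push_cast; rfl,
      ← zsmul_eq_mul, map_zsmul, show (Vp p Ds).coeff p = 1 by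
        have := coeff_Vp_mul p hp0 Ds 1
        rw [mul_one] at this
        rw [this, coeff_one_Ds]]
    simp
  rw [map_sub, h1] at hq
  have h3 := congrArg (PowerSeries.coeff p) t12'
  rw [map_add, map_zsmul, map_zsmul, map_zsmul, smul_eq_mul, smul_eq_mul, smul_eq_mul,
    show (Vp p Ds).coeff p = 1 by
        have := coeff_Vp_mul p hp0 Ds 1
        rw [mul_one] at this
        rw [this, coeff_one_Ds]] at h3
  have h4 : (((p : ℤ) ^ (6 - 1)) • ((p ^ 6 : ℤ) • Vp p Ds) + Up p Ds).coeff 1 = Ds.coeff p := by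
    rw [map_add, map_zsmul, map_zsmul, Vp_coeff_one hp2, coeff_Up]; simp
  rw [h4] at h3
  -- M ∣ p^12 + p^11
  have h5 : M ∣ (p : ℤ) ^ 11 * (p + 1) := by
    have : (p : ℤ) ^ 11 * (p + 1) = ((p : ℤ) ^ 12 - (Up p Ds).coeff p) + Ds.coeff p * Ds.coeff p := by
      linear_combination h3
    rw [this]
    exact dvd_add hq (hUds1.mul_left _)
  have hcop2 : IsCoprime M ((p : ℤ) ^ 11) := by
    rw [hM]
    push_cast
    refine IsCoprime.pow ?_
    rw [Int.isCoprime_iff_gcd_eq_one]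
    simpa using (Nat.coprime_primes hℓ hp.out).mpr hℓp
  have h6 := hcop2.dvd_of_dvd_mul_left h5
  rw [hM] at h6
  exact_mod_cast h6

/-- the case `ℓ = p` -/
theorem false_of_self [hp : Fact p.Prime] (hp5 : 5 ≤ p)
    {A : PowerSeries ℤ} {x : ℤ} (hA : PP p 1 A (-(Up p A)))
    (hx : ¬ (p : ℤ) ∣ x) (hc : ((p : ℤ) : PowerSeries ℤ) ∣ A - (x : PowerSeries ℤ)) : False := by
  have hp0 : p ≠ 0 := hp.out.ne_zero
  have hp2 : 2 ≤ p := hp.out.two_le
  obtain ⟨K, hK⟩ := hc
  have hAK : A = (x : PowerSeries ℤ) + ((p : ℤ) : PowerSeries ℤ) * K := by rw [← hK]; ring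
  have hUA : Up p A = (x : PowerSeries ℤ) + ((p : ℤ) : PowerSeries ℤ) * Up p K := by
    rw [hAK, Up_add, Up_intCast p hp0, ← zsmul_eq_mul, ← zsmul_eq_mul, Up_zsmul]
  have hA0 : A.coeff 0 = x + p * K.coeff 0 := by
    rw [hAK, map_add, coeff_intCast_zero, ← zsmul_eq_mul, map_zsmul, smul_eq_mul]
  set a0 : ℤ := A.coeff 0 with ha0
  have ha0p : ¬ (p : ℤ) ∣ a0 := by
    rw [hA0]
    intro h
    exact hx ((dvd_add_left (Dvd.intro _ rfl)).mp h)
  have hprime : Prime (p : ℤ) := Nat.prime_iff_prime_int.mp hp.out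
  -- weight 4
  have key : ∀ j : ℕ, ∀ (U W : PowerSeries ℤ),
      W = ((x ^ j : ℤ) : PowerSeries ℤ) + ((p : ℤ) : PowerSeries ℤ) * U → (p : ℤ) ∣ W.coeff p := by
    intro j U W h
    rw [h, map_add, coeff_intCast_ne _ hp0, zero_add, ← zsmul_eq_mul, map_zsmul, smul_eq_mul]
    exact Dvd.intro _ rfl
  have h240 : (p : ℤ) ∣ 240 := by
    have h4 : PP p (1 + 1) (A * A) (-(Up p A) * -(Up p A)) := hA.mul hA
    have t4 := (h4.trace (by norm_num)).eq_of_two
    have c0 : (((p : ℤ) ^ (1 + 1 - 1)) • (A * A) + Up p (-(Up p A) * -(Up p A))).coeff 0 =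
        (p + 1) * a0 ^ 2 := by
      rw [map_add, map_zsmul, coeff_zero_mul', Up_coeff_zero, coeff_zero_mul', map_neg,
        Up_coeff_zero]
      simp only [smul_eq_mul, ← ha0]
      ring
    rw [c0] at t4
    have c1 := congrArg (PowerSeries.coeff 1) t4
    rw [map_add, map_zsmul, map_zsmul, coeff_Up, mul_one, smul_eq_mul, smul_eq_mul] at c1
    have hE : E4s.coeff 1 = 240 := coeff_one_E4s
    rw [hE] at c1
    have hd : (p : ℤ) ∣ (-(Up p A) * -(Up p A)).coeff p := by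
      refine key 2 ((Up p K) * (2 * (x : PowerSeries ℤ) + (p : ℤ) * Up p K)) _ ?_
      rw [hUA]; push_cast; ring
    have : (p : ℤ) ∣ (p + 1) * a0 ^ 2 * 240 := by
      rw [← c1]
      refine dvd_add ?_ hd
      rw [show 1 + 1 - 1 = 1 from rfl, pow_one]
      exact Dvd.intro _ rfl
    rcases hprime.dvd_or_dvd this with h | h
    · rcases hprime.dvd_or_dvd h with h | h
      · have h1 : (p : ℤ) ∣ 1 := (dvd_add_right (dvd_refl _)).mp h
        exact absurd h1 hprime.not_dvd_one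
      · exact absurd (hprime.dvd_of_dvd_pow h) ha0p
    · exact h
  have h504 : (p : ℤ) ∣ 504 := by
    have h4 : PP p (1 + 1 + 1) (A * A * A) (-(Up p A) * -(Up p A) * -(Up p A)) := (hA.mul hA).mul hA
    have t4 := (h4.trace (by norm_num)).eq_of_three
    have c0 : (((p : ℤ) ^ (1 + 1 + 1 - 1)) • (A * A * A) + Up p (-(Up p A) * -(Up p A) * -(Up p A))).coeff 0 =
        (p ^ 2 - 1) * a0 ^ 3 := by
      rw [map_add, map_zsmul, coeff_zero_mul', coeff_zero_mul', Up_coeff_zero, coeff_zero_mul',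
        coeff_zero_mul', map_neg, Up_coeff_zero]
      simp only [smul_eq_mul, ← ha0]
      ring
    rw [c0] at t4
    have c1 := congrArg (PowerSeries.coeff 1) t4
    rw [map_add, map_zsmul, map_zsmul, coeff_Up, mul_one, smul_eq_mul, smul_eq_mul] at c1
    have hE : E6s.coeff 1 = -504 := coeff_one_E6s
    rw [hE] at c1
    have hd : (p : ℤ) ∣ (-(Up p A) * -(Up p A) * -(Up p A)).coeff p := by
      rw [← dvd_neg, ← map_neg]
      refine key 3 ((Up p K) * (3 * (x : PowerSeries ℤ) ^ 2 + 3 * x * (p : ℤ) * Up p K +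
        ((p : ℤ) * Up p K) ^ 2)) _ ?_
      rw [hUA]; push_cast; ring
    have : (p : ℤ) ∣ (p ^ 2 - 1) * a0 ^ 3 * (-504) := by
      rw [← c1]
      refine dvd_add ?_ hd
      exact (dvd_pow_self _ (by norm_num)).mul_right _
    rw [mul_neg, dvd_neg] at this
    rcases hprime.dvd_or_dvd this with h | h
    · rcases hprime.dvd_or_dvd h with h | h
      · have h1 : (p : ℤ) ∣ 1 := by
          have := (dvd_sub_right (dvd_pow_self (p : ℤ) (two_ne_zero))).mp h
          exact this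
        exact absurd h1 hprime.not_dvd_one
      · exact absurd (hprime.dvd_of_dvd_pow h) ha0p
    · exact h
  have h24 : (p : ℤ) ∣ 24 := by
    have : (24 : ℤ) = 504 - 2 * 240 := by norm_num
    rw [this]
    exact dvd_sub h504 (h240.mul_left _)
  have h24' : p ∣ 24 := by exact_mod_cast h24
  have hle := Nat.le_of_dvd (by norm_num) h24'
  interval_cases p <;> first | omega | (exact absurd hp.out (by norm_num))

end Fermat.Agent.S16

end
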