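import Fermat.Agent.S16.UpperPrimes

/-!
# The arithmetic core of the upper bound: the prime `2`
-/

set_option autoImplicit false

noncomputable section

namespace Fermat.Agent.S16

open PowerSeries

variable {p : ℕ}

theorem two_dvd_aux {R : Type*} [CommRing R]
    (h δ K H w D : R) (hh : (2 : R) ∣ h - 1) (h4 : H - h * K = 4 * D)
    (hD : D = h * (27 * δ + H ^ 2 + 4 * h * K * H - 8 * h ^ 2 * K ^ 2 + 64 * K ^ 3) -
      w * (H - h * K)) : (2 : R) ∣ h * D + K * K - δ := by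
  obtain ⟨c, hc⟩ := hh
  refine ⟨c * D + c * (27 * δ + H ^ 2) + 13 * δ + 2 * h ^ 2 * K * H - 4 * h ^ 3 * K ^ 2 +
    32 * h * K ^ 3 - 2 * w * D + (c * K + 2 * D) * (H + K) + K ^ 2, ?_⟩
  have e : H = h * K + 4 * D := by linear_combination h4
  have e1 : h * D + K * K - δ = (h - 1) * D + (D - δ - H ^ 2) + (H - K) * (H + K) + 2 * K ^ 2 := by
    ring
  have e2 : D - δ - H ^ 2 = (h - 1) * (27 * δ + H ^ 2) + 26 * δ + 4 * h ^ 2 * K * H -
      8 * h ^ 3 * K ^ 2 + 64 * h * K ^ 3 - 4 * w * D := by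
    linear_combination hD - w * h4
  have e3 : H - K = (h - 1) * K + 4 * D := by linear_combination e
  rw [e1, e2, e3, hc]
  ring

theorem charZero_ps : CharZero (PowerSeries ℤ) where
  cast_injective a b h := by
    have := congrArg (PowerSeries.coeff 0) h
    rw [show ((a : ℕ) : PowerSeries ℤ) = (((a : ℕ) : ℤ) : PowerSeries ℤ) by push_cast; rfl,
      show ((b : ℕ) : PowerSeries ℤ) = (((b : ℕ) : ℤ) : PowerSeries ℤ) by push_cast; rfl,
      coeff_intCast_zero, coeff_intCast_zero] at this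
    exact_mod_cast this

theorem false_of_two [hp : Fact p.Prime] (hℓp : 2 ≠ p)
    {A : PowerSeries ℤ} {x : ℤ} (hA : PP p 1 A (-(Up p A)))
    (hx : ¬ (2 : ℤ) ∣ x) (hc : ((8 : ℤ) : PowerSeries ℤ) ∣ A - (x : PowerSeries ℤ)) : False := by
  have hp0 : p ≠ 0 := hp.out.ne_zero
  have hc' : (((2 ^ 3 : ℕ) : ℤ) : PowerSeries ℤ) ∣ A - (x : PowerSeries ℤ) := by
    norm_num; norm_num at hc; exact hc
  have hdvd : 2 ^ 3 ∣ p + 1 := dvd_p_add_one Nat.prime_two hℓp hA (by exact_mod_cast hx) hc'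
  obtain ⟨B, hB, hB1⟩ := exists_normalised Nat.prime_two hA (by exact_mod_cast hx) hc'
  obtain ⟨u, hu⟩ := hdvd
  obtain ⟨k, hk⟩ := hB1
  set P : PowerSeries ℤ := (p : PowerSeries ℤ) with hP
  set U : PowerSeries ℤ := (u : PowerSeries ℤ) with hU
  have hpu : P = 8 * U - 1 := by
    have := congrArg (Nat.cast (R := PowerSeries ℤ)) hu
    push_cast at this
    linear_combination this
  have hBk : B = 1 + 8 * k := by
    push_cast at hk
    linear_combination hk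
  set k0 := Up p k with hk0
  have hUB : -Up p B = -(1 + 8 * k0) := by
    rw [hBk, Up_add, Up_one p hp0, show (8 : PowerSeries ℤ) * k = (8 : ℤ) • k by
      rw [zsmul_eq_mul]; norm_num, Up_zsmul, zsmul_eq_mul, hk0]
    norm_num
  have hE4 : PP p 2 E4s (((p : ℤ) ^ 2) • Vp p E4s) := PP.ofLOne LOne_E4s
  have hE6 : PP p 3 E6s (((p : ℤ) ^ 3) • Vp p E6s) := PP.ofLOne LOne_E6s
  rw [hUB] at hB
  set g3 := Vp p A3s with hg3
  set g5 := Vp p A5s with hg5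
  have hE40 : ((p : ℤ) ^ 2) • Vp p E4s = P ^ 2 * (1 + 240 * g3) := by
    rw [Vp_E4s hp0, zsmul_eq_mul, hP]; push_cast; ring
  have hE60 : ((p : ℤ) ^ 3) • Vp p E6s = P ^ 3 * (1 - 504 * g5) := by
    rw [Vp_E6s hp0, zsmul_eq_mul, hP]; push_cast; ring
  rw [hE40] at hE4
  rw [hE60] at hE6
  -- K
  set K1 : PowerSeries ℤ := k + 4 * k ^ 2 - 15 * A3s with hK1
  set K0 : PowerSeries ℤ := k0 + 4 * k0 ^ 2 + U - 4 * U ^ 2 - 15 * P ^ 2 * g3 with hK0
  have eK1 : B ^ 2 - E4s = 16 * K1 := by rw [hBk, E4s_eq', hK1]; ring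
  have eK0 : (-(1 + 8 * k0)) ^ 2 - P ^ 2 * (1 + 240 * g3) = 16 * K0 := by
    rw [hK0]
    have : P ^ 2 = 64 * U ^ 2 - 16 * U + 1 := by rw [hpu]; ring
    linear_combination -this
  have hK : PP p 2 K1 K0 := by
    have h1 := (hB.mul hB).sub hE4
    have e1 : B * B - E4s = (16 : ℤ) • K1 := by
      rw [zsmul_eq_mul]; push_cast; rw [← eK1]; ring
    have e2 : -(1 + 8 * k0) * -(1 + 8 * k0) - P ^ 2 * (1 + 240 * g3) = (16 : ℤ) • K0 := by
      rw [zsmul_eq_mul]; push_cast; rw [← eK0]; ring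
    rw [e1, e2] at h1
    exact PP.div (by norm_num) h1
  -- H
  set H1 : PowerSeries ℤ := k + 30 * A3s + 240 * k * A3s + 63 * A5s with hH1
  set H0 : PowerSeries ℤ := -(P ^ 2 * U) - k0 * P ^ 2 * (1 + 240 * g3) - 30 * P ^ 2 * g3 +
    63 * P ^ 3 * g5 with hH0
  have eH1 : B * E4s - E6s = 8 * H1 := by rw [hBk, E4s_eq', E6s_eq', hH1]; ring
  have eH0 : -(1 + 8 * k0) * (P ^ 2 * (1 + 240 * g3)) - P ^ 3 * (1 - 504 * g5) = 8 * H0 := by
    rw [hH0]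
    linear_combination (-(P ^ 2)) * hpu
  have hH : PP p 3 H1 H0 := by
    have h1 := (hB.mul hE4).sub hE6
    rw [eH1, eH0] at h1
    have e1 : (8 : PowerSeries ℤ) * H1 = (8 : ℤ) • H1 := by rw [zsmul_eq_mul]; norm_num
    have e2 : (8 : PowerSeries ℤ) * H0 = (8 : ℤ) • H0 := by rw [zsmul_eq_mul]; norm_num
    rw [e1, e2] at h1
    exact PP.div (by norm_num) h1
  -- D
  have := charZero_ps
  have hDrel : (1728 : PowerSeries ℤ) * Ds = E4s ^ 3 - E6s ^ 2 := by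
    have := Ds_eq
    rw [zsmul_eq_mul] at this
    exact_mod_cast this
  have hDrel0 : (1728 : PowerSeries ℤ) * (P ^ 6 * Vp p Ds) =
      (P ^ 2 * (1 + 240 * g3)) ^ 3 - (P ^ 3 * (1 - 504 * g5)) ^ 2 := by
    have := congrArg (Vp p) Ds_eq
    rw [Vp_zsmul, Vp_sub, Vp_pow p hp0, Vp_pow p hp0, zsmul_eq_mul, Vp_E4s hp0, Vp_E6s hp0] at this
    push_cast at this
    linear_combination (P ^ 6) * this
  obtain ⟨D1, hD1, hD1'⟩ := two_identity B E4s E6s Ds K1 H1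
    (8 * k + 96 * k ^ 2 + 512 * k ^ 3 + 1024 * k ^ 4) eK1 eH1 hDrel (by rw [hBk]; ring)
  obtain ⟨D0, hD0, hD0'⟩ := two_identity (-(1 + 8 * k0)) (P ^ 2 * (1 + 240 * g3))
    (P ^ 3 * (1 - 504 * g5)) (P ^ 6 * Vp p Ds) K0 H0
    (8 * k0 + 96 * k0 ^ 2 + 512 * k0 ^ 3 + 1024 * k0 ^ 4) eK0 eH0 hDrel0 (by ring)
  have hD : PP p 3 D1 D0 := by
    have h1 := hH.sub (hB.mul hK)
    rw [hD1, hD0] at h1
    have e1 : (4 : PowerSeries ℤ) * D1 = (4 : ℤ) • D1 := by rw [zsmul_eq_mul]; norm_num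
    have e2 : (4 : PowerSeries ℤ) * D0 = (4 : ℤ) • D0 := by rw [zsmul_eq_mul]; norm_num
    rw [e1, e2] at h1
    exact PP.div (by norm_num) h1
  have hZ : PP p 4 (B * D1 + K1 * K1) (-(1 + 8 * k0) * D0 + K0 * K0) :=
    (hB.mul hD).add (hK.mul hK)
  have z1 := two_dvd_aux B Ds K1 H1 _ D1 ⟨4 * k, by rw [hBk]; ring⟩ hD1 hD1'
  have z0 := two_dvd_aux (-(1 + 8 * k0)) (P ^ 6 * Vp p Ds) K0 H0 _ D0 ⟨-(1 + 4 * k0), by ring⟩
    hD0 hD0'
  refine power_trace_false (R := Ds) Nat.prime_two (Dvd.intro (4 * u) ?_) (by norm_num)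
    (by norm_num) hZ ?_ ?_ coeff_zero_Ds coeff_one_Ds
  · rw [hu]; ring
  · exact_mod_cast z1
  · have z3 : (2 : PowerSeries ℤ) ∣ P ^ 6 * Vp p Ds - P ^ 4 * Vp p Ds := by
      refine ⟨P ^ 4 * Vp p Ds * (32 * U ^ 2 - 8 * U), ?_⟩
      have : P ^ 2 = 64 * U ^ 2 - 16 * U + 1 := by rw [hpu]; ring
      linear_combination (P ^ 4 * Vp p Ds) * this
    have z4 := dvd_add z0 z3
    have e : -(1 + 8 * k0) * D0 + K0 * K0 - P ^ 6 * Vp p Ds +
        (P ^ 6 * Vp p Ds - P ^ 4 * Vp p Ds) =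
        -(1 + 8 * k0) * D0 + K0 * K0 - (((p : ℤ) ^ 4 : ℤ) : PowerSeries ℤ) * Vp p Ds := by
      push_cast; ring
    rw [e] at z4
    exact_mod_cast z4

end Fermat.Agent.S16

end
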